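import Mathlib
import Fermat.Prelude.Def_EllipticCurve_FrobeniusTrace
import Fermat.Agent.S52.Tr.Consumer

/-!
# S58, brick (B2) FROB23: interface

`FrobRelOn l K E` : the Frobenius `φ` of `E(K)` (`S52.Tr.Consumer.frobBC`, i.e. Mathlib's
`Point.map` along `FiniteField.frobeniusAlgHom (ZMod l) K`) of a Weierstrass curve `E` over
`ZMod l` satisfies `φ² - a φ + l = 0`, `a = E.traceOfFrobenius` (Prelude).

`FrobStatement l K` : this holds for every `E` with `Δ ≠ 0`.
-/

set_option autoImplicit false

namespace Fermat.Agent.S58.Frob23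

open WeierstrassCurve Fermat.Agent.S52.Tr

/-- `φ² - a φ + l = 0` on the `K`-points of the curve `E` over `ZMod l`. -/
def FrobRelOn (l : ℕ) [Fact l.Prime] (K : Type) [Field K] [DecidableEq K] [Algebra (ZMod l) K]
    (E : WeierstrassCurve (ZMod l)) : Prop :=
  ∀ P : (E.toAffine.baseChange K).Point,
    Consumer.frobBC l K E (Consumer.frobBC l K E P)
      - E.traceOfFrobenius • Consumer.frobBC l K E P + (l : ℤ) • P = 0

/-- `φ² - a φ + l = 0` on `E(K)` for every Weierstrass curve `E` over `ZMod l` with `Δ ≠ 0`. -/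
def FrobStatement (l : ℕ) [Fact l.Prime] (K : Type) [Field K] [DecidableEq K]
    [Algebra (ZMod l) K] : Prop :=
  ∀ E : WeierstrassCurve (ZMod l), E.Δ ≠ 0 → FrobRelOn l K E

end Fermat.Agent.S58.Frob23
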