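import Mathlib
import Fermat.Prelude.Def_FLTPrelim_Modularity
import Fermat.Prelude.Def_EllipticCurve_FrobeniusTrace
import Fermat.Agent.S41.NonEis.FrobRel
import Fermat.Agent.S58.Frob23.Defs

/-!
# S58, brick (B2) FROB23: lift of the Frobenius relation to prime-to-`ℓ` torsion over `ℚ`

`E / ℚ` an elliptic curve with integral model `W`, `ℓ` ANY prime of good reduction of `W`, `A` a
place of `Qb = AlgebraicClosure ℚ` over `ℓ`, `σ` a Frobenius element at `A`, `n` prime to `ℓ`.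
If the Frobenius relation `FrobStatement ℓ K` holds on all Weierstrass curves over `ZMod ℓ` with
`Δ ≠ 0` (`K` algebraically closed), then

  `σ • σ • P - a_ℓ(W) • σ • P + ℓ • P = 0`  for every `P ∈ E(Qb)` with `n • P = 0`

(`frobenius_relation_of_core`).  Same proof as `S41.NonEis.FrobRel.frobenius_relation`, but the
reduction is done on the model `W` itself (no short model, so `ℓ ∈ {2, 3}` is allowed).
-/

set_option autoImplicit false

namespace Fermat.Agent.S58.Frob23.Lift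

open WeierstrassCurve WeierstrassCurve.Affine Fermat.Agent.S05.VarChange Fermat.Agent.S52.Tr
  Fermat.Agent.S41.NonEis

local notation "Qb" => AlgebraicClosure ℚ

section Packages

/-- The Frobenius of `E₀(k)` raises the coordinates to the `ℓ`-th power. -/
theorem frobBC_some (ℓ : ℕ) [Fact ℓ.Prime] (k : Type) [Field k] [DecidableEq k]
    [Algebra (ZMod ℓ) k] (E₀ : WeierstrassCurve (ZMod ℓ)) (x y : k)
    (h : (E₀.toAffine.baseChange k).Nonsingular x y) :
    ∃ h' : (E₀.toAffine.baseChange k).Nonsingular (x ^ ℓ) (y ^ ℓ),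
      Consumer.frobBC ℓ k E₀ (.some x y h) = .some (x ^ ℓ) (y ^ ℓ) h' := by
  have key : ∀ (a b : k) (hab : (E₀.toAffine.baseChange k).Nonsingular a b), a = x ^ ℓ →
      b = y ^ ℓ → ∃ h' : (E₀.toAffine.baseChange k).Nonsingular (x ^ ℓ) (y ^ ℓ),
        Point.some a b hab = .some (x ^ ℓ) (y ^ ℓ) h' := by
    rintro a b hab rfl rfl
    exact ⟨hab, rfl⟩
  unfold Consumer.frobBC
  rw [WeierstrassCurve.Affine.Point.map_some]
  refine key _ _ _ ?_ ?_
  · rw [FiniteField.coe_frobeniusAlgHom, ZMod.card]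
  · rw [FiniteField.coe_frobeniusAlgHom, ZMod.card]

/-- The Frobenius endomorphism and its quadratic relation on any curve equal to the base change
of a curve over `ZMod ℓ` satisfying `FrobRelOn`. -/
theorem exists_frob_of_rel (ℓ : ℕ) [Fact ℓ.Prime] (k : Type) [Field k] [DecidableEq k]
    [Algebra (ZMod ℓ) k] (E₀ : WeierstrassCurve (ZMod ℓ)) (hrel : FrobRelOn ℓ k E₀)
    (V : Affine k) (hV : V = E₀.toAffine.baseChange k) :
    ∃ φ : V.Point →+ V.Point,
      (∀ (x y : k) (h : V.Nonsingular x y), ∃ h' : V.Nonsingular (x ^ ℓ) (y ^ ℓ),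
        φ (.some x y h) = .some (x ^ ℓ) (y ^ ℓ) h') ∧
      ∀ P : V.Point, φ (φ P) - E₀.traceOfFrobenius • φ P + (ℓ : ℤ) • P = 0 := by
  subst hV
  exact ⟨Consumer.frobBC ℓ k E₀, fun x y h => frobBC_some ℓ k E₀ x y h, hrel⟩

end Packages

section Main

variable (W : WeierstrassCurve ℤ) (A : ValuationSubring Qb)

/-- The integral model over the valuation ring. -/
noncomputable abbrev WA : WeierstrassCurve A := W.map (algebraMap ℤ A)

/-- The integral model over `ℚ`. -/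
noncomputable abbrev MQ : Affine ℚ := (W.map (Int.castRingHom ℚ)).toAffine

variable {A} in
lemma isUnit_WA_Δ {ℓ : ℕ} (hℓ : ℓ.Prime) (hgood : W.IsGoodPrimeFor ℓ)
    (hA : A.LiesOverPrime ℓ) : IsUnit (WA W A).Δ := by
  rw [WeierstrassCurve.map_Δ, eq_intCast]
  exact Basics.isUnit_intCast hℓ hA hgood

lemma model_eq_WK : (MQ W)⁄Qb = Reduce.WK A (WA W A) := by
  ext <;> simp [MQ, WA, WeierstrassCurve.baseChange]

lemma reduced_eq {ℓ : ℕ} [Fact ℓ.Prime] [Algebra (ZMod ℓ) (IsLocalRing.ResidueField A)] :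
    Reduce.Wk A (WA W A)
      = (W.reductionMod ℓ).toAffine.baseChange (IsLocalRing.ResidueField A) := by
  ext <;> simp [WA, WeierstrassCurve.baseChange, WeierstrassCurve.reductionMod]

lemma reductionMod_Δ_ne_zero {ℓ : ℕ} (hgood : W.IsGoodPrimeFor ℓ) :
    (W.reductionMod ℓ).Δ ≠ 0 := by
  unfold WeierstrassCurve.reductionMod
  rw [WeierstrassCurve.map_Δ, eq_intCast]
  intro h
  exact hgood ((ZMod.intCast_zmod_eq_zero_iff_dvd _ ℓ).mp h)

variable {A}

/-- The Frobenius relation on the prime-to-`ℓ` torsion of the model `W ⊗ ℚ`. -/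
theorem frobenius_relation_model {ℓ n : ℕ} (hℓ : ℓ.Prime)
    (hcore : ∀ [Fact ℓ.Prime] (K : Type) [Field K] [DecidableEq K] [Algebra (ZMod ℓ) K]
      [IsAlgClosed K], FrobStatement ℓ K)
    (hgood : W.IsGoodPrimeFor ℓ) (hn : ¬ ℓ ∣ n) (hA : A.LiesOverPrime ℓ) (σ : Qb ≃ₐ[ℚ] Qb)
    (hσ : A.IsFrobeniusAt σ ℓ) (P : ((MQ W)⁄Qb).Point) (hP : n • P = 0) :
    σ • σ • P - W.apOfModel ℓ • σ • P + (ℓ : ℤ) • P = 0 := by
  classical
  have : Fact ℓ.Prime := ⟨hℓ⟩
  have : CharP (IsLocalRing.ResidueField A) ℓ := Basics.charP_residueField hℓ hA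
  let _ : Algebra (ZMod ℓ) (IsLocalRing.ResidueField A) := ZMod.algebra _ ℓ
  have : IsAlgClosed (IsLocalRing.ResidueField A) := Basics.isAlgClosed_residueField A
  have hnv : A.valuation (n : Qb) = 1 := Basics.valuation_natCast_eq_one hℓ hA hn
  have hΔ := isUnit_WA_Δ W hℓ hgood hA
  obtain ⟨ρ, hρinj, hρ⟩ := FrobRel.exists_red A (WA W A) hΔ hnv ((MQ W)⁄Qb) (model_eq_WK W A)
  obtain ⟨φ, hφ, hφrel⟩ := exists_frob_of_rel ℓ (IsLocalRing.ResidueField A) (W.reductionMod ℓ)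
    (hcore (IsLocalRing.ResidueField A) (W.reductionMod ℓ) (reductionMod_Δ_ne_zero W hgood))
    (Reduce.Wk A (WA W A)) (reduced_eq W A)
  change σ • σ • P - (W.reductionMod ℓ).traceOfFrobenius • σ • P + (ℓ : ℤ) • P = 0
  let s : ((MQ W)⁄Qb).Point →+ ((MQ W)⁄Qb).Point := DistribSMul.toAddMonoidHom _ σ
  have hsT : ∀ Q ∈ (nsmulAddMonoidHom (α := ((MQ W)⁄Qb).Point) n).ker,
      s Q ∈ (nsmulAddMonoidHom (α := ((MQ W)⁄Qb).Point) n).ker := by
    intro Q hQ
    have hQ' : n • Q = 0 := hQ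
    change n • s Q = 0
    rw [← map_nsmul, hQ', map_zero]
  refine FrobRel.rel_of_reduction (nsmulAddMonoidHom (α := ((MQ W)⁄Qb).Point) n).ker ρ hρinj φ _
    (ℓ : ℤ) hφrel s hsT ?_ P hP
  intro Q hQ
  rcases Q with _ | ⟨x, y, h⟩
  · have e1 : (⟨s Point.zero, hsT _ hQ⟩ :
        (nsmulAddMonoidHom (α := ((MQ W)⁄Qb).Point) n).ker) = 0 := Subtype.ext (map_zero s)
    have e2 : (⟨Point.zero, hQ⟩ : (nsmulAddMonoidHom (α := ((MQ W)⁄Qb).Point) n).ker) = 0 := rfl
    rw [e1, e2, map_zero, map_zero]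
  · obtain ⟨hx, hy, h', e⟩ := hρ x y h hQ
    have hs1 : s (Point.some x y h) = Point.some (σ x) (σ y) _ := Point.map_some σ.toAlgHom h
    have h4 : n • Point.some (σ x) (σ y)
        ((WeierstrassCurve.Affine.baseChange_nonsingular _ σ.toAlgHom.injective x y).mpr h) = 0 := by
      rw [← hs1]; exact hsT _ hQ
    have e3 : (⟨s (Point.some x y h), hsT _ hQ⟩ :
        (nsmulAddMonoidHom (α := ((MQ W)⁄Qb).Point) n).ker) = ⟨Point.some (σ x) (σ y) _, h4⟩ :=
      Subtype.ext hs1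
    obtain ⟨hx2, hy2, h2', e2⟩ := hρ (σ x) (σ y) _ h4
    rw [e3, e2, e]
    obtain ⟨h'', e4⟩ := hφ _ _ h'
    rw [e4]
    obtain ⟨hx3, ex⟩ := Basics.frobenius_coord hσ ⟨x, hx⟩
    obtain ⟨hy3, ey⟩ := Basics.frobenius_coord hσ ⟨y, hy⟩
    exact Reduce.some_congr _ _ ex ey

/-- **Frobenius relation on torsion points, from the residue-field core.**  `E / ℚ` with integral
model `W`, `ℓ` a good prime, `σ` a Frobenius element at a place `A` over `ℓ`, `n` prime to `ℓ`:
on the points of `E(Qb)` killed by `n`, `σ² - a_ℓ(W) σ + ℓ = 0`, provided the Frobenius relation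
holds on all Weierstrass curves over `ZMod ℓ` with `Δ ≠ 0`. -/
theorem frobenius_relation_of_core (E : WeierstrassCurve ℚ) {W : WeierstrassCurve ℤ}
    (hW : W.IsIntegralModelOf E) {ℓ n : ℕ} (hℓ : ℓ.Prime)
    (hcore : ∀ [Fact ℓ.Prime] (K : Type) [Field K] [DecidableEq K] [Algebra (ZMod ℓ) K]
      [IsAlgClosed K], FrobStatement ℓ K)
    (hgood : W.IsGoodPrimeFor ℓ) (hn : ¬ ℓ ∣ n) {A : ValuationSubring Qb}
    (hA : A.LiesOverPrime ℓ) (σ : Qb ≃ₐ[ℚ] Qb) (hσ : A.IsFrobeniusAt σ ℓ)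
    (P : (E⁄Qb).Point) (hP : n • P = 0) :
    σ • σ • P - W.apOfModel ℓ • σ • P + (ℓ : ℤ) • P = 0 := by
  obtain ⟨C, hC⟩ := hW
  have H1 : Rel E.toAffine (W.map (Int.castRingHom ℚ)).toAffine (C.u : ℚ) C.r C.s C.t := by
    rw [← hC]; exact Basics.rel_variableChange E C
  have H1' := Basics.rel_baseChange (K := Qb) H1
  obtain ⟨P', rfl⟩ := Fermat.Agent.S52.Glue.Rel.pointMap_surjective H1' P
  have hP' : n • P' = 0 := by
    apply H1'.pointMap_injective
    have h1 : H1'.pointMap (n • P') = n • H1'.pointMap P' := by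
      change H1'.pointHom (n • P') = n • H1'.pointHom P'
      rw [map_nsmul]
    rw [h1, hP]
    rfl
  have key := frobenius_relation_model W hℓ hcore hgood hn hA σ hσ P' hP'
  have e1 : ∀ Q, H1'.pointHom (σ • Q) = σ • H1'.pointHom Q := by
    intro Q
    change H1'.pointMap (σ • Q) = σ • H1'.pointMap Q
    rw [Basics.pointMap_smul H1 σ Q]
  have key2 := congrArg (fun Q => H1'.pointHom Q) key
  simp only [map_add, map_sub, map_zsmul, map_zero, e1] at key2
  exact key2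

end Main

end Fermat.Agent.S58.Frob23.Lift
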