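import Mathlib

/-!
# Frobenius relation in characteristic 2: generic-point identities (level-free core)

`k` a field with `2 = 0`, `V` a Weierstrass curve over `k` in one of the normal forms

* ordinary: `y² + xy = x³ + c x² + 1`, `c ∈ {0, 1}`;
* supersingular: `y² + y = x³ + a₄ x + a₆`, `a₄, a₆ ∈ {0, 1}`,

and `φ` any additive endomorphism of `V(k)` with `φ (x, y) = (x², y²)`.  For every affine point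
`P = (x, y)` with `x ∉ {0, 1}` we prove `φ² P - a φ P + 2 P = 0` with the relevant trace `a`
(`ord0`: `a = -1`, `ord1`: `a = 1`, `ss0`: `a = 0`, `ssm`: `a = -2`, `ssp`: `a = 2`).

All identities are chord/tangent certificates checked by `linear_combination`
(cofactors of the curve equation, of `2 = 0` and of `x * i = 1`).
-/

set_option autoImplicit false
set_option linter.unusedSimpArgs false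

namespace Fermat.Agent.S58.Frob23.Char2Core

open WeierstrassCurve WeierstrassCurve.Affine

variable {k : Type*} [Field k] [DecidableEq k] (V : Affine k)

/-- Chord certificate: the sum of two points with distinct abscissae. -/
theorem chord {x₁ y₁ x₂ y₂ : k} (h₁ : V.Nonsingular x₁ y₁) (h₂ : V.Nonsingular x₂ y₂)
    (hx : x₁ ≠ x₂) (L x₃ y₃ : k) (hL : L * (x₁ - x₂) = y₁ - y₂)
    (hx₃ : x₃ = L ^ 2 + V.a₁ * L - V.a₂ - x₁ - x₂)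
    (hy₃ : y₃ = -(L * (x₃ - x₁) + y₁) - V.a₁ * x₃ - V.a₃) :
    ∃ h₃ : V.Nonsingular x₃ y₃,
      Point.some x₁ y₁ h₁ + Point.some x₂ y₂ h₂ = Point.some x₃ y₃ h₃ := by
  have hs : V.slope x₁ x₂ y₁ y₂ = L := by
    rw [slope_of_X_ne hx, div_eq_iff (sub_ne_zero.mpr hx)]; exact hL.symm
  have e1 : V.addX x₁ x₂ (V.slope x₁ x₂ y₁ y₂) = x₃ := by rw [hs, hx₃]; rfl
  have e2 : V.addY x₁ x₂ y₁ (V.slope x₁ x₂ y₁ y₂) = y₃ := by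
    rw [hy₃, ← e1, hs]; rfl
  have key := Point.add_of_X_ne (h₁ := h₁) (h₂ := h₂) hx
  have hns := nonsingular_add h₁ h₂ (fun hxy => hx hxy.left)
  obtain ⟨h₃, e⟩ : ∃ h₃ : V.Nonsingular x₃ y₃,
      Point.some _ _ hns = Point.some x₃ y₃ h₃ := by
    clear key hx₃ hy₃
    subst e1 e2
    exact ⟨hns, rfl⟩
  exact ⟨h₃, key.trans e⟩

/-- Tangent certificate: the double of a point which is not of order two. -/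
theorem tangent {x y : k} (h : V.Nonsingular x y) (hy : y ≠ V.negY x y) (L x₃ y₃ : k)
    (hL : L * (y - V.negY x y) = 3 * x ^ 2 + 2 * V.a₂ * x + V.a₄ - V.a₁ * y)
    (hx₃ : x₃ = L ^ 2 + V.a₁ * L - V.a₂ - x - x)
    (hy₃ : y₃ = -(L * (x₃ - x) + y) - V.a₁ * x₃ - V.a₃) :
    ∃ h₃ : V.Nonsingular x₃ y₃,
      Point.some x y h + Point.some x y h = Point.some x₃ y₃ h₃ := by
  have hs : V.slope x x y y = L := by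
    rw [slope_of_Y_ne rfl hy, div_eq_iff (sub_ne_zero.mpr hy)]; exact hL.symm
  have e1 : V.addX x x (V.slope x x y y) = x₃ := by rw [hs, hx₃]; rfl
  have e2 : V.addY x x y (V.slope x x y y) = y₃ := by
    rw [hy₃, ← e1, hs]; rfl
  have key := Point.add_self_of_Y_ne (h₁ := h) hy
  have hns := nonsingular_add h h (fun hxy => hy hxy.right)
  obtain ⟨h₃, e⟩ : ∃ h₃ : V.Nonsingular x₃ y₃,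
      Point.some _ _ hns = Point.some x₃ y₃ h₃ := by
    clear key hx₃ hy₃
    subst e1 e2
    exact ⟨hns, rfl⟩
  exact ⟨h₃, key.trans e⟩

omit [DecidableEq k] in
theorem sq_ne_self {x : k} (hx0 : x ≠ 0) (hx1 : x ≠ 1) : x ^ 2 ≠ x := by
  intro e
  have : x * (x - 1) = 0 := by linear_combination e
  rcases mul_eq_zero.mp this with h | h
  · exact hx0 h
  · exact hx1 (sub_eq_zero.mp h)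

variable {V}

/-- Ordinary normal form `y² + xy = x³ + 0·x² + 1`: `φ² + φ + 2 = 0` at generic points. -/
theorem ord0 (h2 : (2 : k) = 0)
    (ha₁ : V.a₁ = 1) (ha₂ : V.a₂ = 0) (ha₃ : V.a₃ = 0) (ha₄ : V.a₄ = 0) (ha₆ : V.a₆ = 1)
    (φ : V.Point →+ V.Point)
    (hφ : ∀ (x y : k) (h : V.Nonsingular x y),
      ∃ h' : V.Nonsingular (x ^ 2) (y ^ 2), φ (.some x y h) = .some (x ^ 2) (y ^ 2) h')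
    (x y : k) (h : V.Nonsingular x y) (hx0 : x ≠ 0) (hx1 : x ≠ 1) :
    φ (φ (.some x y h)) + φ (.some x y h) + (Point.some x y h + .some x y h) = 0 := by
  have hC : y ^ 2 + x * y = x ^ 3 + 0 * x ^ 2 + 1 := by
    have := (equation_iff _ _).mp h.1
    rw [ha₁, ha₂, ha₃, ha₄, ha₆] at this
    linear_combination this
  obtain ⟨i, hi⟩ : ∃ i : k, x * i = 1 := ⟨x⁻¹, mul_inv_cancel₀ hx0⟩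
  have hy : y ≠ V.negY x y := by
    intro e
    apply hx0
    rw [negY, ha₁, ha₃] at e
    linear_combination e - y * h2
  obtain ⟨hD, eD⟩ := tangent V h hy ((x ^ 2 + y) * i) _ _
    (by
      try simp only [negY, ha₁, ha₂, ha₃, ha₄]
      linear_combination (2 * i) * hC + (x ^ 2 * y * i + i) * h2 + (3 * x ^ 2 - y) * hi) rfl rfl
  obtain ⟨h', e'⟩ := hφ x y h
  obtain ⟨hQ, eQ⟩ := chord V h' h (sq_ne_self hx0 hx1) ((y + x ^ 2 + x + 1) * i) _ _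
    (by
      try simp only [negY, ha₁, ha₂, ha₃, ha₄]
      linear_combination (-x * i) * hC + (x ^ 2 * y * i - x * i) * h2 + (y ^ 2 - y) * hi) rfl rfl
  obtain ⟨h'', e''⟩ := hφ _ _ hQ
  rw [← map_add, e', eQ, e'', eD]
  refine Point.add_of_Y_eq ?_ ?_
  · try simp only [negY, ha₁, ha₂, ha₃, ha₄]
    linear_combination (4 * x ^ 4 * i ^ 4 + 13 * x ^ 3 * i ^ 4 + 4 * x ^ 2 * y * i ^ 4 + 19 * x ^ 2 * i ^ 4 + 5 * x * y * i ^ 4 + 14 * x * i ^ 4 + y ^ 2 * i ^ 4 + 4 * y * i ^ 4 + 7 * i ^ 4) * hC + (2 * x ^ 7 * i ^ 4 + 8 * x ^ 6 * i ^ 4 + 4 * x ^ 5 * y * i ^ 4 + 18 * x ^ 5 * i ^ 4 + 9 * x ^ 4 * y * i ^ 4 + 23 * x ^ 4 * i ^ 4 + 14 * x ^ 3 * y * i ^ 4 + 24 * x ^ 3 * i ^ 4 + 14 * x ^ 2 * y * i ^ 4 + 18 * x ^ 2 * i ^ 4 + 8 * x * y * i ^ 4 + 10 * x * i ^ 4 + 4 * y * i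 ^ 4 + 4 * i ^ 4) * h2 + (x ^ 7 * i ^ 3 + 4 * x ^ 6 * i ^ 3 + x ^ 6 * i ^ 2 + 4 * x ^ 5 * y * i ^ 3 + 7 * x ^ 5 * i ^ 3 + 6 * x ^ 5 * i ^ 2 - x ^ 5 * i + 4 * x ^ 4 * y * i ^ 3 + 4 * x ^ 4 * y * i ^ 2 - x ^ 4 * i ^ 3 + 13 * x ^ 4 * i ^ 2 - x ^ 4 + 2 * x ^ 3 * y ^ 2 * i ^ 3 - 2 * x ^ 3 * y * i ^ 3 + 10 * x ^ 3 * y * i ^ 2 - 9 * x ^ 3 * i ^ 3 + 11 * x ^ 3 * i ^ 2 + 3 * x ^ 3 * i - 2 * x ^ 3 - 4 * x ^ 2 * y ^ 2 * i ^ 3 + 2 * x ^ 2 * y ^ 2 * i ^ 2 - 15 * x ^ 2 * y * i ^ 3 + 10 * x ^ 2 * y * i ^ 2 + 2 * x ^ 2 * y * i - 12 * x ^ 2 * i ^ 3 + 5 * x ^ 2 * i ^ 2 + 3 * x ^ 2 * i - x ^ 2 - 6 * x * y ^ 2 * i ^ 3 + 2 * x * y ^ 2 * i ^ 2 - 14 * x * y * i ^ 3 + 3 * x * y * i ^ 2 + 2 * x * y * i - 7 * x * i ^ 3 + 2 * x * i - 2 * x - 2 * y ^ 3 * i ^ 3 - 6 * y ^ 2 * i ^ 3 - 6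 * y * i ^ 3 - 2 * y * i ^ 2 + y * i - 2 * i ^ 3 - i ^ 2) * hi
  · try simp only [negY, ha₁, ha₂, ha₃, ha₄]
    linear_combination (-x ^ 9 * i ^ 6 + 2 * x ^ 8 * i ^ 6 + x ^ 7 * y * i ^ 6 + 29 * x ^ 7 * i ^ 6 + x ^ 6 * y ^ 2 * i ^ 6 + 18 * x ^ 6 * y * i ^ 6 + 150 * x ^ 6 * i ^ 6 + 6 * x ^ 5 * y ^ 2 * i ^ 6 + 81 * x ^ 5 * y * i ^ 6 + 339 * x ^ 5 * i ^ 6 + 19 * x ^ 4 * y ^ 2 * i ^ 6 + 174 * x ^ 4 * y * i ^ 6 + 461 * x ^ 4 * i ^ 6 + 2 * x ^ 3 * y ^ 3 * i ^ 6 + 49 * x ^ 3 * y ^ 2 * i ^ 6 + 231 * x ^ 3 * y * i ^ 6 + 433 * x ^ 3 * i ^ 6 + 6 * x ^ 2 * y ^ 3 * i ^ 6 + 62 * x ^ 2 * y ^ 2 * i ^ 6 + 186 * x ^ 2 * y * i ^ 6 + 275 * x ^ 2 * i ^ 6 + 9 * x * y ^ 3 * i ^ 6 + 44 * x * y ^ 2 * i ^ 6 + 93 * x * y * i ^ 6 + 118 * x * i ^ 6 + y ^ 4 * i ^ 6 + 6 * y ^ 3 * i ^ 6 +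 16 * y ^ 2 * i ^ 6 + 26 * y * i ^ 6 + 31 * i ^ 6) * hC + (8 * x ^ 10 * i ^ 6 + 68 * x ^ 9 * i ^ 6 + 28 * x ^ 8 * y * i ^ 6 + 198 * x ^ 8 * i ^ 6 + 91 * x ^ 7 * y * i ^ 6 + 342 * x ^ 7 * i ^ 6 + 188 * x ^ 6 * y * i ^ 6 + 457 * x ^ 6 * i ^ 6 + 262 * x ^ 5 * y * i ^ 6 + 486 * x ^ 5 * i ^ 6 + 268 * x ^ 4 * y * i ^ 6 + 422 * x ^ 4 * i ^ 6 + 219 * x ^ 3 * y * i ^ 6 + 300 * x ^ 3 * i ^ 6 + 131 * x ^ 2 * y * i ^ 6 + 161 * x ^ 2 * i ^ 6 + 56 * x * y * i ^ 6 + 64 * x * i ^ 6 + 16 * y * i ^ 6 + 16 * i ^ 6) * h2 + (8 * x ^ 10 * i ^ 5 + 8 * x ^ 9 * y * i ^ 5 + 34 * x ^ 9 * i ^ 5 + 12 * x ^ 9 * i ^ 4 - 4 * x ^ 9 * i ^ 3 + 2 * x ^ 8 * y ^ 2 * i ^ 5 + 46 * x ^ 8 * y * i ^ 5 + 8 * x ^ 8 * y * i ^ 4 + 63 * x ^ 8 * i ^ 5 + 54 * x ^ 8 * i ^ 4 - 6 * x ^ 8 * i ^ 3 - 4 * x ^ 8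 * i ^ 2 + 18 * x ^ 7 * y ^ 2 * i ^ 5 + 2 * x ^ 7 * y ^ 2 * i ^ 4 + 86 * x ^ 7 * y * i ^ 5 + 66 * x ^ 7 * y * i ^ 4 - 8 * x ^ 7 * y * i ^ 3 + 35 * x ^ 7 * i ^ 5 + 123 * x ^ 7 * i ^ 4 + 12 * x ^ 7 * i ^ 3 - 16 * x ^ 7 * i ^ 2 - 2 * x ^ 6 * y ^ 3 * i ^ 5 + 32 * x ^ 6 * y ^ 2 * i ^ 5 + 18 * x ^ 6 * y ^ 2 * i ^ 4 + 2 * x ^ 6 * y ^ 2 * i ^ 3 + 23 * x ^ 6 * y * i ^ 5 + 166 * x ^ 6 * y * i ^ 4 + 10 * x ^ 6 * y * i ^ 3 - 8 * x ^ 6 * y * i ^ 2 - 68 * x ^ 6 * i ^ 5 + 155 * x ^ 6 * i ^ 4 + 63 * x ^ 6 * i ^ 3 - 24 * x ^ 6 * i ^ 2 - 4 * x ^ 6 * i - x ^ 5 * y ^ 4 * i ^ 5 - 2 * x ^ 5 * y ^ 3 * i ^ 5 - 2 * x ^ 5 * y ^ 3 * i ^ 4 - 31 * x ^ 5 * y ^ 2 * i ^ 5 + 72 * x ^ 5 * y ^ 2 * i ^ 4 - 6 * x ^ 5 * y ^ 2 * i ^ 3 + 4 * x ^ 5 * y ^ 2 * i ^ 2 - 196 * x ^ 5 * y * i ^ 5 + 223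 * x ^ 5 * y * i ^ 4 + 70 * x ^ 5 * y * i ^ 3 - 20 * x ^ 5 * y * i ^ 2 - 190 * x ^ 5 * i ^ 5 + 112 * x ^ 5 * i ^ 4 + 107 * x ^ 5 * i ^ 3 - 12 * x ^ 5 * i ^ 2 - 11 * x ^ 5 * i - 6 * x ^ 4 * y ^ 4 * i ^ 5 - x ^ 4 * y ^ 4 * i ^ 4 - 34 * x ^ 4 * y ^ 3 * i ^ 5 - 2 * x ^ 4 * y ^ 3 * i ^ 4 - 2 * x ^ 4 * y ^ 3 * i ^ 3 - 205 * x ^ 4 * y ^ 2 * i ^ 5 + 89 * x ^ 4 * y ^ 2 * i ^ 4 + 12 * x ^ 4 * y ^ 2 * i ^ 3 + 4 * x ^ 4 * y ^ 2 * i - 412 * x ^ 4 * y * i ^ 5 + 124 * x ^ 4 * y * i ^ 4 + 135 * x ^ 4 * y * i ^ 3 - 8 * x ^ 4 * y * i ^ 2 - 4 * x ^ 4 * y * i - 232 * x ^ 4 * i ^ 5 + 14 * x ^ 4 * i ^ 4 + 106 * x ^ 4 * i ^ 3 + 13 * x ^ 4 * i ^ 2 - 12 * x ^ 4 * i - x ^ 4 - 6 * x ^ 3 * y ^ 4 * i ^ 5 - 6 * x ^ 3 * y ^ 4 * i ^ 4 - x ^ 3 * y ^ 4 * i ^ 3 - 94 * x ^ 3 * y ^ 3 * i ^ 5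 + 6 * x ^ 3 * y ^ 3 * i ^ 4 - 18 * x ^ 3 * y ^ 3 * i ^ 3 + 4 * x ^ 3 * y ^ 3 * i ^ 2 - 344 * x ^ 3 * y ^ 2 * i ^ 5 + 35 * x ^ 3 * y ^ 2 * i ^ 4 + 29 * x ^ 3 * y ^ 2 * i ^ 3 - 6 * x ^ 3 * y ^ 2 * i ^ 2 + 8 * x ^ 3 * y ^ 2 * i - 432 * x ^ 3 * y * i ^ 5 - 32 * x ^ 3 * y * i ^ 4 + 116 * x ^ 3 * y * i ^ 3 + 18 * x ^ 3 * y * i ^ 2 - 6 * x ^ 3 * y * i - 175 * x ^ 3 * i ^ 5 - 52 * x ^ 3 * i ^ 4 + 56 * x ^ 3 * i ^ 3 + 28 * x ^ 3 * i ^ 2 - 8 * x ^ 3 * i - 2 * x ^ 3 - 2 * x ^ 2 * y ^ 5 * i ^ 5 - 24 * x ^ 2 * y ^ 4 * i ^ 5 - 6 * x ^ 2 * y ^ 4 * i ^ 4 - 6 * x ^ 2 * y ^ 4 * i ^ 3 - x ^ 2 * y ^ 4 * i ^ 2 - 145 * x ^ 2 * y ^ 3 * i ^ 5 - 14 * x ^ 2 * y ^ 3 * i ^ 4 - 18 * x ^ 2 * y ^ 3 * i ^ 3 - 6 * x ^ 2 * y ^ 3 * i ^ 2 + 4 * x ^ 2 * y ^ 3 * i - 314 * x ^ 2 * y ^ 2 * i ^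 5 - 64 * x ^ 2 * y ^ 2 * i ^ 4 + 23 * x ^ 2 * y ^ 2 * i ^ 3 - 5 * x ^ 2 * y ^ 2 * i ^ 2 + 6 * x ^ 2 * y ^ 2 * i + 2 * x ^ 2 * y ^ 2 - 276 * x ^ 2 * y * i ^ 5 - 112 * x ^ 2 * y * i ^ 4 + 40 * x ^ 2 * y * i ^ 3 + 26 * x ^ 2 * y * i ^ 2 - 86 * x ^ 2 * i ^ 5 - 55 * x ^ 2 * i ^ 4 + 8 * x ^ 2 * i ^ 3 + 18 * x ^ 2 * i ^ 2 + 2 * x ^ 2 * i - x ^ 2 - 2 * x * y ^ 5 * i ^ 4 - 26 * x * y ^ 4 * i ^ 5 - 4 * x * y ^ 4 * i ^ 4 - 10 * x * y ^ 4 * i ^ 3 - x * y ^ 4 * i - 104 * x * y ^ 3 * i ^ 5 - 25 * x * y ^ 3 * i ^ 4 - 14 * x * y ^ 3 * i ^ 3 - 10 * x * y ^ 3 * i ^ 2 + 2 * x * y ^ 3 * i - 156 * x * y ^ 2 * i ^ 5 - 74 * x * y ^ 2 * i ^ 4 - 4 * x * y ^ 2 * i ^ 3 - 4 * x * y ^ 2 * i ^ 2 + 2 * x * y ^ 2 - 104 * x * y * i ^ 5 - 76 * x * y * i ^ 4 - 8 * x * y * i ^ 3 + 10 * x *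 y * i ^ 2 - 26 * x * i ^ 5 - 26 * x * i ^ 4 - 7 * x * i ^ 3 + 4 * x * i ^ 2 + 2 * x * i - 4 * y ^ 5 * i ^ 5 - 2 * y ^ 5 * i ^ 3 - 20 * y ^ 4 * i ^ 5 - 6 * y ^ 4 * i ^ 4 - 6 * y ^ 4 * i ^ 3 - 4 * y ^ 4 * i ^ 2 - y ^ 4 - 40 * y ^ 3 * i ^ 5 - 24 * y ^ 3 * i ^ 4 - 9 * y ^ 3 * i ^ 3 - 8 * y ^ 3 * i ^ 2 - 2 * y ^ 3 * i - 40 * y ^ 2 * i ^ 5 - 36 * y ^ 2 * i ^ 4 - 14 * y ^ 2 * i ^ 3 - 4 * y ^ 2 * i ^ 2 - 2 * y ^ 2 * i - 20 * y * i ^ 5 - 24 * y * i ^ 4 - 12 * y * i ^ 3 - 2 * y * i ^ 2 + y - 4 * i ^ 5 - 6 * i ^ 4 - 4 * i ^ 3 - i ^ 2) * hi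

/-- Ordinary normal form `y² + xy = x³ + 1·x² + 1`: `φ² - φ + 2 = 0` at generic points. -/
theorem ord1 (h2 : (2 : k) = 0)
    (ha₁ : V.a₁ = 1) (ha₂ : V.a₂ = 1) (ha₃ : V.a₃ = 0) (ha₄ : V.a₄ = 0) (ha₆ : V.a₆ = 1)
    (φ : V.Point →+ V.Point)
    (hφ : ∀ (x y : k) (h : V.Nonsingular x y),
      ∃ h' : V.Nonsingular (x ^ 2) (y ^ 2), φ (.some x y h) = .some (x ^ 2) (y ^ 2) h')
    (x y : k) (h : V.Nonsingular x y) (hx0 : x ≠ 0) (hx1 : x ≠ 1) :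
    φ (φ (.some x y h)) - φ (.some x y h) + (Point.some x y h + .some x y h) = 0 := by
  have hC : y ^ 2 + x * y = x ^ 3 + 1 * x ^ 2 + 1 := by
    have := (equation_iff _ _).mp h.1
    rw [ha₁, ha₂, ha₃, ha₄, ha₆] at this
    linear_combination this
  obtain ⟨i, hi⟩ : ∃ i : k, x * i = 1 := ⟨x⁻¹, mul_inv_cancel₀ hx0⟩
  have hy : y ≠ V.negY x y := by
    intro e
    apply hx0
    rw [negY, ha₁, ha₃] at e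
    linear_combination e - y * h2
  obtain ⟨hD, eD⟩ := tangent V h hy ((x ^ 2 + y) * i) _ _
    (by
      try simp only [negY, ha₁, ha₂, ha₃, ha₄]
      linear_combination (2 * i) * hC + (x ^ 2 * y * i + i) * h2 + (3 * x ^ 2 + 2 * x - y) * hi) rfl rfl
  obtain ⟨h', e'⟩ := hφ x y h
  obtain ⟨hQ, eQ⟩ := chord V h' ((nonsingular_neg ..).mpr h) (sq_ne_self hx0 hx1) ((y + x ^ 2 + 1) * i) _ _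
    (by
      try simp only [negY, ha₁, ha₂, ha₃, ha₄]
      linear_combination (-x * i) * hC + (-x ^ 3 * i + x ^ 2 * y * i - x * y * i - x * i) * h2 + (x + y ^ 2 + y) * hi) rfl rfl
  obtain ⟨h'', e''⟩ := hφ _ _ hQ
  rw [← map_sub, e', sub_eq_add_neg, Point.neg_some, eQ, e'', eD]
  refine Point.add_of_Y_eq ?_ ?_
  · try simp only [negY, ha₁, ha₂, ha₃, ha₄]
    linear_combination (4 * x ^ 4 * i ^ 4 + x ^ 3 * i ^ 4 + 4 * x ^ 2 * y * i ^ 4 + 10 * x ^ 2 * i ^ 4 + x * y * i ^ 4 + 2 * x * i ^ 4 + y ^ 2 * i ^ 4 + 4 * y * i ^ 4 + 7 * i ^ 4) * hC + (2 * x ^ 7 * i ^ 4 + 2 * x ^ 6 * i ^ 4 + 6 * x ^ 5 * i ^ 4 + 3 * x ^ 4 * y * i ^ 4 + 9 * x ^ 4 * i ^ 4 + 6 * x ^ 3 * i ^ 4 + 8 * x ^ 2 * y * i ^ 4 + 10 * x ^ 2 * i ^ 4 + 2 * x * i ^ 4 + 4 * y * i ^ 4 + 4 * i ^ 4) * h2 +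 (x ^ 7 * i ^ 3 + x ^ 6 * i ^ 2 + 4 * x ^ 5 * y * i ^ 3 + 5 * x ^ 5 * i ^ 3 + 2 * x ^ 5 * i ^ 2 - x ^ 5 * i + 4 * x ^ 4 * y * i ^ 2 - x ^ 4 * i ^ 3 + 5 * x ^ 4 * i ^ 2 - x ^ 4 + 2 * x ^ 3 * y ^ 2 * i ^ 3 + 10 * x ^ 3 * y * i ^ 3 + 6 * x ^ 3 * y * i ^ 2 + 4 * x ^ 3 * i ^ 3 + 5 * x ^ 3 * i ^ 2 - x ^ 3 * i - 2 * x ^ 3 - 4 * x ^ 2 * y ^ 2 * i ^ 3 + 2 * x ^ 2 * y ^ 2 * i ^ 2 - 5 * x ^ 2 * y * i ^ 3 + 10 * x ^ 2 * y * i ^ 2 + 2 * x ^ 2 * y * i - 2 * x ^ 2 * i ^ 3 + 4 * x ^ 2 * i ^ 2 + x ^ 2 * i - 3 * x ^ 2 + 2 * x * y ^ 2 * i ^ 3 + 2 * x * y ^ 2 * i ^ 2 + 2 * x * y * i ^ 3 + 7 * x * y * i ^ 2 + 2 * x * y * i + x * i ^ 3 + 4 * x * i ^ 2 - 4 * x - 2 * y ^ 3 * i ^ 3 - 6 * y ^ 2 * i ^ 3 + 2 * y ^ 2 * i ^ 2 - 6 * y * i ^ 3 + 2 * y * i ^ 2 + 3 * y * i - 2 * i ^ 3 + i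 ^ 2 + 2 * i - 2) * hi
  · try simp only [negY, ha₁, ha₂, ha₃, ha₄]
    linear_combination (-x ^ 9 * i ^ 6 + x ^ 8 * i ^ 6 + x ^ 7 * y * i ^ 6 + 15 * x ^ 7 * i ^ 6 + x ^ 6 * y ^ 2 * i ^ 6 + 6 * x ^ 6 * y * i ^ 6 + 23 * x ^ 6 * i ^ 6 + 6 * x ^ 5 * y ^ 2 * i ^ 6 + 29 * x ^ 5 * y * i ^ 6 + 64 * x ^ 5 * i ^ 6 + 13 * x ^ 4 * y ^ 2 * i ^ 6 + 52 * x ^ 4 * y * i ^ 6 + 100 * x ^ 4 * i ^ 6 + 2 * x ^ 3 * y ^ 3 * i ^ 6 + 19 * x ^ 3 * y ^ 2 * i ^ 6 + 54 * x ^ 3 * y * i ^ 6 + 79 * x ^ 3 * i ^ 6 + 6 * x ^ 2 * y ^ 3 * i ^ 6 + 32 * x ^ 2 * y ^ 2 * i ^ 6 + 74 * x ^ 2 * y * i ^ 6 + 105 * x ^ 2 * i ^ 6 + 3 * x * y ^ 3 * i ^ 6 + 14 * x * y ^ 2 * i ^ 6 + 27 * x * y * i ^ 6 + 28 * x * i ^ 6 + y ^ 4 * i ^ 6 + 6 * y ^ 3 * i ^ 6 + 16 * y ^ 2 * i ^ 6 + 26 * y * i ^ 6 + 31 * i ^ 6) *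 hC + (8 * x ^ 10 * i ^ 6 + 16 * x ^ 9 * i ^ 6 + 4 * x ^ 8 * y * i ^ 6 + 42 * x ^ 8 * i ^ 6 + 26 * x ^ 7 * y * i ^ 6 + 88 * x ^ 7 * i ^ 6 + 30 * x ^ 6 * y * i ^ 6 + 102 * x ^ 6 * i ^ 6 + 52 * x ^ 5 * y * i ^ 6 + 130 * x ^ 5 * i ^ 6 + 70 * x ^ 4 * y * i ^ 6 + 125 * x ^ 4 * i ^ 6 + 34 * x ^ 3 * y * i ^ 6 + 77 * x ^ 3 * i ^ 6 + 59 * x ^ 2 * y * i ^ 6 + 73 * x ^ 2 * i ^ 6 + 8 * x * y * i ^ 6 + 16 * x * i ^ 6 + 16 * y * i ^ 6 + 16 * i ^ 6) * h2 + (8 * x ^ 9 * y * i ^ 5 + 6 * x ^ 9 * i ^ 5 + 4 * x ^ 9 * i ^ 4 - 4 * x ^ 9 * i ^ 3 + 2 * x ^ 8 * y ^ 2 * i ^ 5 + 6 * x ^ 8 * y * i ^ 5 + 8 * x ^ 8 * y * i ^ 4 + 5 * x ^ 8 * i ^ 5 + 6 * x ^ 8 * i ^ 4 + 2 * x ^ 8 * i ^ 3 - 4 * x ^ 8 * i ^ 2 + 20 * x ^ 7 * y ^ 2 * i ^ 5 + 2 * x ^ 7 * y ^ 2 * i ^ 4 + 42 * x ^ 7 * y * i ^ 5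 + 26 * x ^ 7 * y * i ^ 4 - 8 * x ^ 7 * y * i ^ 3 + 19 * x ^ 7 * i ^ 5 + 25 * x ^ 7 * i ^ 4 - 6 * x ^ 7 * i ^ 3 - 8 * x ^ 7 * i ^ 2 - 2 * x ^ 6 * y ^ 3 * i ^ 5 - 2 * x ^ 6 * y ^ 2 * i ^ 5 + 20 * x ^ 6 * y ^ 2 * i ^ 4 + 2 * x ^ 6 * y ^ 2 * i ^ 3 + 7 * x ^ 6 * y * i ^ 5 + 42 * x ^ 6 * y * i ^ 4 + 18 * x ^ 6 * y * i ^ 3 - 8 * x ^ 6 * y * i ^ 2 + 3 * x ^ 6 * i ^ 5 + 19 * x ^ 6 * i ^ 4 + 17 * x ^ 6 * i ^ 3 - 12 * x ^ 6 * i ^ 2 - 4 * x ^ 6 * i - x ^ 5 * y ^ 4 * i ^ 5 + 10 * x ^ 5 * y ^ 3 * i ^ 5 - 2 * x ^ 5 * y ^ 3 * i ^ 4 + 41 * x ^ 5 * y ^ 2 * i ^ 5 + 38 * x ^ 5 * y ^ 2 * i ^ 4 - 4 * x ^ 5 * y ^ 2 * i ^ 3 + 4 * x ^ 5 * y ^ 2 * i ^ 2 + 48 * x ^ 5 * y * i ^ 5 + 87 * x ^ 5 * y * i ^ 4 + 10 * x ^ 5 * y * i ^ 3 - 12 * x ^ 5 * y * i ^ 2 + 18 * x ^ 5 * i ^ 5 + 43 * x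 ^ 5 * i ^ 4 + 11 * x ^ 5 * i ^ 3 - 16 * x ^ 5 * i ^ 2 - 7 * x ^ 5 * i - 6 * x ^ 4 * y ^ 4 * i ^ 5 - x ^ 4 * y ^ 4 * i ^ 4 - 34 * x ^ 4 * y ^ 3 * i ^ 5 + 10 * x ^ 4 * y ^ 3 * i ^ 4 - 2 * x ^ 4 * y ^ 3 * i ^ 3 - 59 * x ^ 4 * y ^ 2 * i ^ 5 + 41 * x ^ 4 * y ^ 2 * i ^ 4 + 26 * x ^ 4 * y ^ 2 * i ^ 3 - 4 * x ^ 4 * y ^ 2 * i ^ 2 + 4 * x ^ 4 * y ^ 2 * i - 47 * x ^ 4 * y * i ^ 5 + 48 * x ^ 4 * y * i ^ 4 + 63 * x ^ 4 * y * i ^ 3 - 8 * x ^ 4 * y * i ^ 2 - 4 * x ^ 4 * y * i - 12 * x ^ 4 * i ^ 5 + 18 * x ^ 4 * i ^ 4 + 31 * x ^ 4 * i ^ 3 - 7 * x ^ 4 * i ^ 2 - 12 * x ^ 4 * i - x ^ 4 - 6 * x ^ 3 * y ^ 4 * i ^ 4 - x ^ 3 * y ^ 4 * i ^ 3 - 2 * x ^ 3 * y ^ 3 * i ^ 5 + 6 * x ^ 3 * y ^ 3 * i ^ 4 - 6 * x ^ 3 * y ^ 3 * i ^ 3 + 4 * x ^ 3 * y ^ 3 * i ^ 2 - 5 * x ^ 3 * y ^ 2 * i ^ 5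 + 61 * x ^ 3 * y ^ 2 * i ^ 4 + 17 * x ^ 3 * y ^ 2 * i ^ 3 + 2 * x ^ 3 * y ^ 2 * i ^ 2 + 4 * x ^ 3 * y ^ 2 * i - 6 * x ^ 3 * y * i ^ 5 + 73 * x ^ 3 * y * i ^ 4 + 48 * x ^ 3 * y * i ^ 3 - 6 * x ^ 3 * y * i ^ 2 - 6 * x ^ 3 * y * i - 2 * x ^ 3 * i ^ 5 + 28 * x ^ 3 * i ^ 4 + 26 * x ^ 3 * i ^ 3 - 5 * x ^ 3 * i ^ 2 - 14 * x ^ 3 * i - 2 * x ^ 3 - 2 * x ^ 2 * y ^ 5 * i ^ 5 - 24 * x ^ 2 * y ^ 4 * i ^ 5 - 6 * x ^ 2 * y ^ 4 * i ^ 3 - x ^ 2 * y ^ 4 * i ^ 2 - 75 * x ^ 2 * y ^ 3 * i ^ 5 - 2 * x ^ 2 * y ^ 3 * i ^ 4 - 2 * x ^ 2 * y ^ 3 * i ^ 3 - 6 * x ^ 2 * y ^ 3 * i ^ 2 + 4 * x ^ 2 * y ^ 3 * i - 104 * x ^ 2 * y ^ 2 * i ^ 5 - 5 * x ^ 2 * y ^ 2 * i ^ 4 + 37 * x ^ 2 * y ^ 2 * i ^ 3 - x ^ 2 * y ^ 2 * i ^ 2 + 6 * x ^ 2 * y ^ 2 * i + 2 * x ^ 2 * y ^ 2 - 66 * x ^ 2 * y * i ^ 5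 - 6 * x ^ 2 * y * i ^ 4 + 49 * x ^ 2 * y * i ^ 3 + 12 * x ^ 2 * y * i ^ 2 - 6 * x ^ 2 * y * i - 16 * x ^ 2 * i ^ 5 - 2 * x ^ 2 * i ^ 4 + 20 * x ^ 2 * i ^ 3 + 8 * x ^ 2 * i ^ 2 - 9 * x ^ 2 * i - 3 * x ^ 2 - 2 * x * y ^ 5 * i ^ 4 - 4 * x * y ^ 4 * i ^ 5 - 4 * x * y ^ 4 * i ^ 4 - 4 * x * y ^ 4 * i ^ 3 - x * y ^ 4 * i - 16 * x * y ^ 3 * i ^ 5 + 5 * x * y ^ 3 * i ^ 4 - 2 * x * y ^ 3 * i ^ 3 + 2 * x * y ^ 3 * i - 24 * x * y ^ 2 * i ^ 5 + 16 * x * y ^ 2 * i ^ 4 + 19 * x * y ^ 2 * i ^ 3 + 4 * x * y ^ 2 * i ^ 2 + 4 * x * y ^ 2 * i + 2 * x * y ^ 2 - 16 * x * y * i ^ 5 + 14 * x * y * i ^ 4 + 26 * x * y * i ^ 3 + 7 * x * y * i ^ 2 - 4 * x * y * i - 4 * x * i ^ 5 + 4 * x * i ^ 4 + 10 * x * i ^ 3 + 4 * x * i ^ 2 - 3 * x * i - 2 * x - 4 * y ^ 5 * i ^ 5 - 2 * y ^ 5 * i ^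 3 - 20 * y ^ 4 * i ^ 5 - 4 * y ^ 4 * i ^ 4 - 6 * y ^ 4 * i ^ 3 - 4 * y ^ 4 * i ^ 2 - y ^ 4 - 40 * y ^ 3 * i ^ 5 - 16 * y ^ 3 * i ^ 4 - 3 * y ^ 3 * i ^ 3 - 8 * y ^ 3 * i ^ 2 - 40 * y ^ 2 * i ^ 5 - 24 * y ^ 2 * i ^ 4 + 4 * y ^ 2 * i ^ 3 + y ^ 2 * i ^ 2 + 2 * y ^ 2 - 20 * y * i ^ 5 - 16 * y * i ^ 4 + 6 * y * i ^ 3 + 8 * y * i ^ 2 - y * i + y - 4 * i ^ 5 - 4 * i ^ 4 + 2 * i ^ 3 + 4 * i ^ 2 - 1) * hi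

/-- Supersingular normal form `y² + y = x³ + 0`: `φ² + 2 = 0`. -/
theorem ss0_0 (h2 : (2 : k) = 0)
    (ha₁ : V.a₁ = 0) (ha₂ : V.a₂ = 0) (ha₃ : V.a₃ = 1) (ha₄ : V.a₄ = 0) (ha₆ : V.a₆ = 0)
    (φ : V.Point →+ V.Point)
    (hφ : ∀ (x y : k) (h : V.Nonsingular x y),
      ∃ h' : V.Nonsingular (x ^ 2) (y ^ 2), φ (.some x y h) = .some (x ^ 2) (y ^ 2) h')
    (x y : k) (h : V.Nonsingular x y) :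
    φ (φ (.some x y h)) + (Point.some x y h + .some x y h) = 0 := by
  have hC : y ^ 2 + y = x ^ 3 + 0 := by
    have := (equation_iff _ _).mp h.1
    rw [ha₁, ha₂, ha₃, ha₄, ha₆] at this
    linear_combination this
  have hy : y ≠ V.negY x y := by
    intro e
    rw [negY, ha₁, ha₃] at e
    have : (1 : k) = 0 := by linear_combination e - y * h2
    exact one_ne_zero this
  obtain ⟨hD, eD⟩ := tangent V h hy (x ^ 2) _ _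
    (by
      try simp only [negY, ha₁, ha₂, ha₃, ha₄]
      linear_combination (x ^ 2 * y - x ^ 2) * h2) rfl rfl
  obtain ⟨h', e'⟩ := hφ x y h
  obtain ⟨h'', e''⟩ := hφ _ _ h'
  rw [e', e'', eD]
  refine Point.add_of_Y_eq ?_ ?_
  · try simp only [negY, ha₁, ha₂, ha₃, ha₄]
    linear_combination (x) * h2
  · try simp only [negY, ha₁, ha₂, ha₃, ha₄]
    linear_combination (x ^ 3 + y ^ 2 - y + 1) * hC + (-x ^ 3 * y + 2 * x ^ 3 - y) * h2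

/-- Supersingular normal form `y² + y = x³ + 1`: `φ² + 2 = 0`. -/
theorem ss0_1 (h2 : (2 : k) = 0)
    (ha₁ : V.a₁ = 0) (ha₂ : V.a₂ = 0) (ha₃ : V.a₃ = 1) (ha₄ : V.a₄ = 0) (ha₆ : V.a₆ = 1)
    (φ : V.Point →+ V.Point)
    (hφ : ∀ (x y : k) (h : V.Nonsingular x y),
      ∃ h' : V.Nonsingular (x ^ 2) (y ^ 2), φ (.some x y h) = .some (x ^ 2) (y ^ 2) h')
    (x y : k) (h : V.Nonsingular x y) :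
    φ (φ (.some x y h)) + (Point.some x y h + .some x y h) = 0 := by
  have hC : y ^ 2 + y = x ^ 3 + 1 := by
    have := (equation_iff _ _).mp h.1
    rw [ha₁, ha₂, ha₃, ha₄, ha₆] at this
    linear_combination this
  have hy : y ≠ V.negY x y := by
    intro e
    rw [negY, ha₁, ha₃] at e
    have : (1 : k) = 0 := by linear_combination e - y * h2
    exact one_ne_zero this
  obtain ⟨hD, eD⟩ := tangent V h hy (x ^ 2) _ _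
    (by
      try simp only [negY, ha₁, ha₂, ha₃, ha₄]
      linear_combination (x ^ 2 * y - x ^ 2) * h2) rfl rfl
  obtain ⟨h', e'⟩ := hφ x y h
  obtain ⟨h'', e''⟩ := hφ _ _ h'
  rw [e', e'', eD]
  refine Point.add_of_Y_eq ?_ ?_
  · try simp only [negY, ha₁, ha₂, ha₃, ha₄]
    linear_combination (x) * h2
  · try simp only [negY, ha₁, ha₂, ha₃, ha₄]
    linear_combination (x ^ 3 + y ^ 2 - y + 2) * hC + (-x ^ 3 * y + 3 * x ^ 3 - 2 * y + 1) * h2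

/-- Supersingular normal form `y² + y = x³ + x + 0`: `φ² + 2 φ + 2 = 0` at generic
points (via `θ = φ + 1`, `θ² = -1`). -/
theorem ssm (h2 : (2 : k) = 0)
    (ha₁ : V.a₁ = 0) (ha₂ : V.a₂ = 0) (ha₃ : V.a₃ = 1) (ha₄ : V.a₄ = 1) (ha₆ : V.a₆ = 0)
    (φ : V.Point →+ V.Point)
    (hφ : ∀ (x y : k) (h : V.Nonsingular x y),
      ∃ h' : V.Nonsingular (x ^ 2) (y ^ 2), φ (.some x y h) = .some (x ^ 2) (y ^ 2) h')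
    (x y : k) (h : V.Nonsingular x y) (hx0 : x ≠ 0) (hx1 : x ≠ 1) :
    φ (φ (.some x y h)) + (φ (.some x y h) + φ (.some x y h)) + (Point.some x y h + .some x y h) = 0 := by
  have hC : y ^ 2 + y = x ^ 3 + x + 0 := by
    have := (equation_iff _ _).mp h.1
    rw [ha₁, ha₂, ha₃, ha₄, ha₆] at this
    linear_combination this
  obtain ⟨h', e'⟩ := hφ x y h
  obtain ⟨hT, eT⟩ := chord V h' h (sq_ne_self hx0 hx1) (x + 1) _ _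
    (by
      try simp only [negY, ha₁, ha₂, ha₃, ha₄]
      linear_combination (-1) * hC + (-x + y) * h2) rfl rfl
  have hxT : (x + 1) ^ 2 + V.a₁ * (x + 1) - V.a₂ - x ^ 2 - x = x + 1 := by
    try simp only [negY, ha₁, ha₂, ha₃, ha₄]
    ring
  have hT0 : (x + 1) ^ 2 + V.a₁ * (x + 1) - V.a₂ - x ^ 2 - x ≠ 0 := by
    rw [hxT]
    intro e
    apply hx1
    linear_combination e - h2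
  have hT1 : (x + 1) ^ 2 + V.a₁ * (x + 1) - V.a₂ - x ^ 2 - x ≠ 1 := by
    rw [hxT]
    intro e
    apply hx0
    linear_combination e
  obtain ⟨h'', e''⟩ := hφ _ _ hT
  obtain ⟨h3, e3⟩ := chord V h'' hT (sq_ne_self hT0 hT1) x _ _
    (by
      try simp only [negY, ha₁, ha₂, ha₃, ha₄]
      linear_combination (x ^ 3 - 5 * x - y ^ 2 + y - 6) * hC + (-4 * x ^ 2 + 3 * x * y - 8 * x + 3 * y - 3) * h2) rfl rfl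
  have hre : φ (φ (.some x y h)) + (φ (.some x y h) + φ (.some x y h))
      + (Point.some x y h + .some x y h)
      = φ (φ (.some x y h) + .some x y h) + (φ (.some x y h) + .some x y h) + .some x y h := by
    rw [map_add]; abel
  rw [hre, e', eT, e'', e3]
  refine Point.add_of_Y_eq ?_ ?_
  · try simp only [negY, ha₁, ha₂, ha₃, ha₄]
    linear_combination (-2 * x - 1) * h2
  · try simp only [negY, ha₁, ha₂, ha₃, ha₄]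
    linear_combination (x ^ 3 - 5 * x - y ^ 2 + y - 5) * hC + (-2 * x ^ 2 + 3 * x * y - 5 * x + 3 * y - 2) * h2

/-- Supersingular normal form `y² + y = x³ + x + 1`: `φ² - 2 φ + 2 = 0` at generic
points (via `θ = φ - 1`, `θ² = -1`). -/
theorem ssp (h2 : (2 : k) = 0)
    (ha₁ : V.a₁ = 0) (ha₂ : V.a₂ = 0) (ha₃ : V.a₃ = 1) (ha₄ : V.a₄ = 1) (ha₆ : V.a₆ = 1)
    (φ : V.Point →+ V.Point)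
    (hφ : ∀ (x y : k) (h : V.Nonsingular x y),
      ∃ h' : V.Nonsingular (x ^ 2) (y ^ 2), φ (.some x y h) = .some (x ^ 2) (y ^ 2) h')
    (x y : k) (h : V.Nonsingular x y) (hx0 : x ≠ 0) (hx1 : x ≠ 1) :
    φ (φ (.some x y h)) - (φ (.some x y h) + φ (.some x y h)) + (Point.some x y h + .some x y h) = 0 := by
  have hC : y ^ 2 + y = x ^ 3 + x + 1 := by
    have := (equation_iff _ _).mp h.1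
    rw [ha₁, ha₂, ha₃, ha₄, ha₆] at this
    linear_combination this
  obtain ⟨h', e'⟩ := hφ x y h
  obtain ⟨hT, eT⟩ := chord V h' ((nonsingular_neg ..).mpr h) (sq_ne_self hx0 hx1) (x + 1) _ _
    (by
      try simp only [negY, ha₁, ha₂, ha₃, ha₄]
      linear_combination (-1) * hC + (-x - 1) * h2) rfl rfl
  have hxT : (x + 1) ^ 2 + V.a₁ * (x + 1) - V.a₂ - x ^ 2 - x = x + 1 := by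
    try simp only [negY, ha₁, ha₂, ha₃, ha₄]
    ring
  have hT0 : (x + 1) ^ 2 + V.a₁ * (x + 1) - V.a₂ - x ^ 2 - x ≠ 0 := by
    rw [hxT]
    intro e
    apply hx1
    linear_combination e - h2
  have hT1 : (x + 1) ^ 2 + V.a₁ * (x + 1) - V.a₂ - x ^ 2 - x ≠ 1 := by
    rw [hxT]
    intro e
    apply hx0
    linear_combination e
  obtain ⟨h'', e''⟩ := hφ _ _ hT
  obtain ⟨h3, e3⟩ := chord V h'' ((nonsingular_neg ..).mpr hT) (sq_ne_self hT0 hT1) x _ _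
    (by
      try simp only [negY, ha₁, ha₂, ha₃, ha₄]
      linear_combination (x ^ 3 - 5 * x - y ^ 2 + y - 5) * hC + (-4 * x ^ 2 + 3 * x * y - 8 * x + 3 * y - 4) * h2) rfl rfl
  have hre : φ (φ (.some x y h)) - (φ (.some x y h) + φ (.some x y h))
      + (Point.some x y h + .some x y h)
      = φ (φ (.some x y h) + -.some x y h) + -(φ (.some x y h) + -.some x y h) + .some x y h := by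
    rw [map_add, map_neg]; abel
  rw [hre, e', Point.neg_some, eT, e'', Point.neg_some, e3]
  refine Point.add_of_Y_eq ?_ ?_
  · try simp only [negY, ha₁, ha₂, ha₃, ha₄]
    linear_combination (-2 * x - 1) * h2
  · try simp only [negY, ha₁, ha₂, ha₃, ha₄]
    linear_combination (x ^ 3 - 5 * x - y ^ 2 + y - 6) * hC + (-2 * x ^ 2 + 3 * x * y - 8 * x + 4 * y - 5) * h2

end Fermat.Agent.S58.Frob23.Char2Core
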