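import Mathlib

/-!
# S58, brick (B2) FROB23: generic tools

* `eq_zero_of_eq_zero_off_finite` : an additive map on an infinite group which vanishes off a
  finite set vanishes.
* `infinite_point` : a Weierstrass curve with `Δ ≠ 0` over an algebraically closed field has
  infinitely many points.
* `finite_X_mem` : the points whose `x`-coordinate lies in a finite set form a finite set.
* `hom_eq_zero_of_generic` : an additive map on `W(K)` (`K` algebraically closed, `Δ ≠ 0`) which
  vanishes at all affine points with `x ∉ S`, `S` finite, vanishes.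
-/

set_option autoImplicit false

namespace Fermat.Agent.S58.Frob23

open WeierstrassCurve WeierstrassCurve.Affine

/-- An additive map on an infinite group which vanishes off a finite set vanishes. -/
theorem eq_zero_of_eq_zero_off_finite {G H : Type*} [AddCommGroup G] [AddCommGroup H]
    [Infinite G] (ψ : G →+ H) {B : Set G} (hB : B.Finite) (h : ∀ P, P ∉ B → ψ P = 0) (P : G) :
    ψ P = 0 := by
  have hfin : (B ∪ (fun Q => Q - P) '' B).Finite := hB.union (hB.image _)
  obtain ⟨Q, hQ⟩ := hfin.infinite_compl.nonempty
  have h1 : Q ∉ B := fun hq => hQ (Or.inl hq)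
  have h2 : Q + P ∉ B := fun hq => hQ (Or.inr ⟨Q + P, hq, by simp⟩)
  have h3 := h _ h2
  rw [map_add, h _ h1, zero_add] at h3
  exact h3

section Points

variable {K : Type*} [Field K]

/-- A monic quadratic equation has finitely many roots. -/
theorem finite_quadratic_roots (b c : K) : {y : K | y ^ 2 + b * y = c}.Finite := by
  by_cases h : ∃ y₁ : K, y₁ ^ 2 + b * y₁ = c
  · obtain ⟨y₁, h₁⟩ := h
    refine (Set.toFinite {y₁, -y₁ - b}).subset ?_
    intro y hy
    have hy' : y ^ 2 + b * y = c := hy
    have h2 : (y - y₁) * (y + y₁ + b) = 0 := by linear_combination hy' - h₁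
    rcases mul_eq_zero.mp h2 with h3 | h3
    · left; linear_combination h3
    · right
      rw [Set.mem_singleton_iff]
      linear_combination h3
  · have : {y : K | y ^ 2 + b * y = c} = ∅ := by
      ext y
      simp only [Set.mem_ofPred_eq, Set.mem_empty_iff_false, iff_false]
      exact fun hy => h ⟨y, hy⟩
    rw [this]
    exact Set.finite_empty

/-- the coordinates of a point -/
def ptCoords {W : Affine K} : W.Point → Option (K × K)
  | .zero => none
  | .some x y _ => some (x, y)

theorem ptCoords_injective {W : Affine K} : Function.Injective (ptCoords (W := W)) := by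
  rintro (_ | ⟨x, y, h⟩) (_ | ⟨x', y', h'⟩) e
  · rfl
  · simp [ptCoords] at e
  · simp [ptCoords] at e
  · simp only [ptCoords, Option.some.injEq, Prod.mk.injEq] at e
    obtain ⟨rfl, rfl⟩ := e
    rfl

/-- The set of points which are `0` or have `x`-coordinate in a finite set is finite. -/
theorem finite_X_mem (W : Affine K) (S : Finset K) :
    {P : W.Point | ∀ (x y : K) (h : W.Nonsingular x y), P = Point.some x y h → x ∈ S}.Finite := by
  classical
  have hZ : (⋃ x ∈ (S : Set K), (fun y => (x, y)) ''
      {y : K | y ^ 2 + (W.a₁ * x + W.a₃) * y = x ^ 3 + W.a₂ * x ^ 2 + W.a₄ * x + W.a₆}).Finite :=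
    S.finite_toSet.biUnion (fun x _ => Set.Finite.image _ (finite_quadratic_roots _ _))
  refine (((hZ.image some).insert none).preimage ptCoords_injective.injOn).subset ?_
  rintro (_ | ⟨x, y, h⟩) hP
  · exact Set.mem_insert _ _
  · have hx : x ∈ S := hP x y h rfl
    have he := (Affine.equation_iff x y).mp h.1
    refine Set.mem_insert_of_mem _ ⟨(x, y), ?_, rfl⟩
    refine Set.mem_biUnion (Finset.mem_coe.mpr hx) ⟨y, ?_, rfl⟩
    change y ^ 2 + (W.a₁ * x + W.a₃) * y = x ^ 3 + W.a₂ * x ^ 2 + W.a₄ * x + W.a₆
    linear_combination he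

/-- Over an algebraically closed field every `x` is the `x`-coordinate of a point of the affine
Weierstrass equation. -/
theorem exists_equation [IsAlgClosed K] (W : Affine K) (x : K) : ∃ y : K, W.Equation x y := by
  let b : K := W.a₁ * x + W.a₃
  let c : K := -(x ^ 3 + W.a₂ * x ^ 2 + W.a₄ * x + W.a₆)
  have hdeg : (Polynomial.C (1 : K) * Polynomial.X ^ 2 + Polynomial.C b * Polynomial.X
      + Polynomial.C c).degree ≠ 0 := by
    rw [Polynomial.degree_quadratic one_ne_zero]
    norm_num
  obtain ⟨y, hy⟩ := IsAlgClosed.exists_root _ hdeg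
  refine ⟨y, ?_⟩
  rw [Affine.equation_iff]
  simp only [Polynomial.IsRoot, Polynomial.eval_add, Polynomial.eval_mul, Polynomial.eval_C,
    Polynomial.eval_pow, Polynomial.eval_X, b, c] at hy
  linear_combination hy

/-- A Weierstrass curve with `Δ ≠ 0` over an algebraically closed field has infinitely many
points. -/
theorem infinite_point [IsAlgClosed K] (W : Affine K) (hΔ : W.Δ ≠ 0) : Infinite W.Point := by
  have hy : ∀ x : K, ∃ y : K, W.Equation x y := exists_equation W
  choose y hy using hy
  have hn : ∀ x, W.Nonsingular x (y x) := fun x =>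
    (Affine.equation_iff_nonsingular_of_Δ_ne_zero hΔ).mp (hy x)
  refine Infinite.of_injective (fun x => Point.some x (y x) (hn x)) ?_
  intro x x' h
  simp only [Point.some.injEq] at h
  exact h.1

/-- An additive map on `W(K)` which vanishes at all affine points with `x ∉ S` vanishes. -/
theorem hom_eq_zero_of_generic [DecidableEq K] [IsAlgClosed K] (W : Affine K) (hΔ : W.Δ ≠ 0)
    {H : Type*} [AddCommGroup H] (ψ : W.Point →+ H) (S : Finset K)
    (h : ∀ (x y : K) (hxy : W.Nonsingular x y), x ∉ S → ψ (Point.some x y hxy) = 0)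
    (P : W.Point) : ψ P = 0 := by
  have : Infinite W.Point := infinite_point W hΔ
  refine eq_zero_of_eq_zero_off_finite ψ (finite_X_mem W S) ?_ P
  rintro (_ | ⟨x, y, hxy⟩) hP
  · exact map_zero ψ
  · refine h x y hxy (fun hx => hP ?_)
    intro x' y' h' e
    simp only [Point.some.injEq] at e
    rw [← e.1]
    exact hx

end Points

end Fermat.Agent.S58.Frob23
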