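import Mathlib
import Fermat.Prelude.Def_FLTPrelim_Modularity
import Fermat.Agent.S05.VarChange
import Fermat.Agent.S58.Frob23.Defs
import Fermat.Agent.S58.Frob23.Generic
import Fermat.Agent.S58.Frob23.Char2Core

/-!
# Frobenius relation in characteristic 2: normal forms over `ZMod 2`

* `natCard_point` : the number of points of a Weierstrass curve with `Δ ≠ 0` over a finite field
  as a computable count.
* `trace_*` : the traces of Frobenius of the six normal forms over `ZMod 2`.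
* `exists_normal_form` : every Weierstrass curve over `ZMod 2` with `Δ ≠ 0` is related by a change
  of variables with `u = 1` to one of the six normal forms.
* `frobRelOn_*` : `FrobRelOn 2 K N` for the six normal forms `N` (`K` algebraically closed).
-/

set_option autoImplicit false

namespace Fermat.Agent.S58.Frob23.Char2Forms

open WeierstrassCurve WeierstrassCurve.Affine Fermat.Agent.S05.VarChange Fermat.Agent.S52.Tr

section Count

variable {F : Type*} [Field F] [Fintype F] [DecidableEq F]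

/-- The points of a Weierstrass curve with `Δ ≠ 0`: the point at infinity and the solutions of
the Weierstrass equation. -/
noncomputable def pointEquiv (W : WeierstrassCurve F) (hΔ : W.Δ ≠ 0) :
    W.toAffine.Point ≃ Option {p : F × F //
      p.2 ^ 2 + W.a₁ * p.1 * p.2 + W.a₃ * p.2 = p.1 ^ 3 + W.a₂ * p.1 ^ 2 + W.a₄ * p.1 + W.a₆} where
  toFun P := match P with
    | .zero => none
    | .some x y h => some ⟨(x, y), (Affine.equation_iff _ _).mp h.1⟩
  invFun o := match o with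
    | none => .zero
    | some p => .some p.1.1 p.1.2
        ((Affine.equation_iff_nonsingular_of_Δ_ne_zero hΔ).mp
          ((Affine.equation_iff _ _).mpr p.2))
  left_inv P := by
    rcases P with _ | ⟨x, y, h⟩ <;> rfl
  right_inv o := by
    rcases o with _ | ⟨⟨x, y⟩, hp⟩ <;> rfl

/-- The number of points of a Weierstrass curve with `Δ ≠ 0` over a finite field. -/
theorem natCard_point (W : WeierstrassCurve F) (hΔ : W.Δ ≠ 0) :
    Nat.card W.toAffine.Point = (Finset.univ.filter (fun p : F × F =>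
      p.2 ^ 2 + W.a₁ * p.1 * p.2 + W.a₃ * p.2
        = p.1 ^ 3 + W.a₂ * p.1 ^ 2 + W.a₄ * p.1 + W.a₆)).card + 1 := by
  rw [Nat.card_congr (pointEquiv W hΔ), Nat.card_eq_fintype_card, Fintype.card_option,
    Fintype.card_subtype]

/-- The trace of Frobenius from the count of affine solutions. -/
theorem trace_eq (W : WeierstrassCurve F) (hΔ : W.Δ ≠ 0) (n : ℕ)
    (hn : (Finset.univ.filter (fun p : F × F =>
      p.2 ^ 2 + W.a₁ * p.1 * p.2 + W.a₃ * p.2
        = p.1 ^ 3 + W.a₂ * p.1 ^ 2 + W.a₄ * p.1 + W.a₆)).card = n) :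
    W.traceOfFrobenius = (Fintype.card F : ℤ) - n := by
  unfold WeierstrassCurve.traceOfFrobenius WeierstrassCurve.card
  rw [natCard_point W hΔ, hn, Nat.card_eq_fintype_card]
  push_cast
  ring

end Count

section Traces

theorem trace_ord0 : (⟨1, 0, 0, 0, 1⟩ : WeierstrassCurve (ZMod 2)).traceOfFrobenius = -1 := by
  rw [trace_eq _ (by decide) 3 (by decide), ZMod.card]; norm_num

theorem trace_ord1 : (⟨1, 1, 0, 0, 1⟩ : WeierstrassCurve (ZMod 2)).traceOfFrobenius = 1 := by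
  rw [trace_eq _ (by decide) 1 (by decide), ZMod.card]; norm_num

theorem trace_ss00 : (⟨0, 0, 1, 0, 0⟩ : WeierstrassCurve (ZMod 2)).traceOfFrobenius = 0 := by
  rw [trace_eq _ (by decide) 2 (by decide), ZMod.card]; norm_num

theorem trace_ss01 : (⟨0, 0, 1, 0, 1⟩ : WeierstrassCurve (ZMod 2)).traceOfFrobenius = 0 := by
  rw [trace_eq _ (by decide) 2 (by decide), ZMod.card]; norm_num

theorem trace_ss10 : (⟨0, 0, 1, 1, 0⟩ : WeierstrassCurve (ZMod 2)).traceOfFrobenius = -2 := by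
  rw [trace_eq _ (by decide) 4 (by decide), ZMod.card]; norm_num

theorem trace_ss11 : (⟨0, 0, 1, 1, 1⟩ : WeierstrassCurve (ZMod 2)).traceOfFrobenius = 2 := by
  rw [trace_eq _ (by decide) 0 (by decide), ZMod.card]; norm_num

end Traces

section Classify

/-- The coefficient relations of a change of variables with `u = 1`, as a decidable statement on
coefficients. -/
def RelP (a₁ a₂ a₃ a₄ a₆ b₁ b₂ b₃ b₄ b₆ r s t : ZMod 2) : Prop :=
  b₁ = a₁ + 2 * s ∧ b₂ = a₂ - s * a₁ + 3 * r - s ^ 2 ∧ b₃ = a₃ + r * a₁ + 2 * t ∧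
    b₄ = a₄ - s * a₃ + 2 * r * a₂ - (t + r * s) * a₁ + 3 * r ^ 2 - 2 * s * t ∧
    b₆ = a₆ + r * a₄ + r ^ 2 * a₂ + r ^ 3 - t * a₃ - t ^ 2 - r * t * a₁

instance (a₁ a₂ a₃ a₄ a₆ b₁ b₂ b₃ b₄ b₆ r s t : ZMod 2) :
    Decidable (RelP a₁ a₂ a₃ a₄ a₆ b₁ b₂ b₃ b₄ b₆ r s t) := by
  unfold RelP; infer_instance

theorem RelP.rel {a₁ a₂ a₃ a₄ a₆ b₁ b₂ b₃ b₄ b₆ r s t : ZMod 2}
    (h : RelP a₁ a₂ a₃ a₄ a₆ b₁ b₂ b₃ b₄ b₆ r s t) :
    Rel (⟨a₁, a₂, a₃, a₄, a₆⟩ : WeierstrassCurve (ZMod 2)).toAffine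
      (⟨b₁, b₂, b₃, b₄, b₆⟩ : WeierstrassCurve (ZMod 2)).toAffine 1 r s t := by
  obtain ⟨h1, h2, h3, h4, h6⟩ := h
  refine ⟨one_ne_zero, ?_, ?_, ?_, ?_, ?_⟩
  · change 1 * b₁ = a₁ + 2 * s
    rw [h1]; ring
  · change 1 ^ 2 * b₂ = a₂ - s * a₁ + 3 * r - s ^ 2
    rw [h2]; ring
  · change 1 ^ 3 * b₃ = a₃ + r * a₁ + 2 * t
    rw [h3]; ring
  · change 1 ^ 4 * b₄ = a₄ - s * a₃ + 2 * r * a₂ - (t + r * s) * a₁ + 3 * r ^ 2 - 2 * s * t
    rw [h4]; ring
  · change 1 ^ 6 * b₆ = a₆ + r * a₄ + r ^ 2 * a₂ + r ^ 3 - t * a₃ - t ^ 2 - r * t * a₁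
    rw [h6]; ring

theorem classify : ∀ a₁ a₂ a₃ a₄ a₆ : ZMod 2,
    (⟨a₁, a₂, a₃, a₄, a₆⟩ : WeierstrassCurve (ZMod 2)).Δ ≠ 0 →
    ∃ r s t : ZMod 2,
      RelP a₁ a₂ a₃ a₄ a₆ 1 0 0 0 1 r s t ∨ RelP a₁ a₂ a₃ a₄ a₆ 1 1 0 0 1 r s t ∨
      RelP a₁ a₂ a₃ a₄ a₆ 0 0 1 0 0 r s t ∨ RelP a₁ a₂ a₃ a₄ a₆ 0 0 1 0 1 r s t ∨
      RelP a₁ a₂ a₃ a₄ a₆ 0 0 1 1 0 r s t ∨ RelP a₁ a₂ a₃ a₄ a₆ 0 0 1 1 1 r s t := by
  decide

/-- Every Weierstrass curve over `ZMod 2` with `Δ ≠ 0` is related (with `u = 1`) to one of the six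
normal forms. -/
theorem exists_normal_form (E : WeierstrassCurve (ZMod 2)) (hΔ : E.Δ ≠ 0) :
    ∃ r s t : ZMod 2,
      Rel E.toAffine (⟨1, 0, 0, 0, 1⟩ : WeierstrassCurve (ZMod 2)).toAffine 1 r s t ∨
      Rel E.toAffine (⟨1, 1, 0, 0, 1⟩ : WeierstrassCurve (ZMod 2)).toAffine 1 r s t ∨
      Rel E.toAffine (⟨0, 0, 1, 0, 0⟩ : WeierstrassCurve (ZMod 2)).toAffine 1 r s t ∨
      Rel E.toAffine (⟨0, 0, 1, 0, 1⟩ : WeierstrassCurve (ZMod 2)).toAffine 1 r s t ∨
      Rel E.toAffine (⟨0, 0, 1, 1, 0⟩ : WeierstrassCurve (ZMod 2)).toAffine 1 r s t ∨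
      Rel E.toAffine (⟨0, 0, 1, 1, 1⟩ : WeierstrassCurve (ZMod 2)).toAffine 1 r s t := by
  obtain ⟨a₁, a₂, a₃, a₄, a₆⟩ := E
  obtain ⟨r, s, t, h⟩ := classify a₁ a₂ a₃ a₄ a₆ hΔ
  refine ⟨r, s, t, ?_⟩
  rcases h with h | h | h | h | h | h
  · exact Or.inl h.rel
  · exact Or.inr (Or.inl h.rel)
  · exact Or.inr (Or.inr (Or.inl h.rel))
  · exact Or.inr (Or.inr (Or.inr (Or.inl h.rel)))
  · exact Or.inr (Or.inr (Or.inr (Or.inr (Or.inl h.rel))))
  · exact Or.inr (Or.inr (Or.inr (Or.inr (Or.inr h.rel))))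

end Classify

section Frob

variable (K : Type) [Field K] [DecidableEq K] [Algebra (ZMod 2) K]

omit [DecidableEq K] in
theorem two_eq_zero : (2 : K) = 0 := by
  have h : (2 : ZMod 2) = 0 := by decide
  have h' := congrArg (algebraMap (ZMod 2) K) h
  rwa [map_ofNat, map_zero] at h'

/-- The Frobenius of `E(K)` raises the coordinates to the second power. -/
theorem frobBC_some (E : WeierstrassCurve (ZMod 2)) (x y : K)
    (h : (E.toAffine.baseChange K).Nonsingular x y) :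
    ∃ h' : (E.toAffine.baseChange K).Nonsingular (x ^ 2) (y ^ 2),
      Consumer.frobBC 2 K E (.some x y h) = .some (x ^ 2) (y ^ 2) h' := by
  have key : ∀ (a b : K) (hab : (E.toAffine.baseChange K).Nonsingular a b), a = x ^ 2 → b = y ^ 2 →
      ∃ h' : (E.toAffine.baseChange K).Nonsingular (x ^ 2) (y ^ 2),
        Point.some a b hab = .some (x ^ 2) (y ^ 2) h' := by
    rintro a b hab rfl rfl
    exact ⟨hab, rfl⟩
  unfold Consumer.frobBC
  rw [WeierstrassCurve.Affine.Point.map_some]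
  refine key _ _ _ ?_ ?_
  · rw [FiniteField.coe_frobeniusAlgHom, ZMod.card]
  · rw [FiniteField.coe_frobeniusAlgHom, ZMod.card]

variable [IsAlgClosed K]

/-- It suffices to check the Frobenius relation at the affine points with `x` outside a finite
set. -/
theorem frobRelOn_of_generic (E : WeierstrassCurve (ZMod 2)) (hΔ : E.Δ ≠ 0) (S : Finset K)
    (h : ∀ (x y : K) (hxy : (E.toAffine.baseChange K).Nonsingular x y), x ∉ S →
      Consumer.frobBC 2 K E (Consumer.frobBC 2 K E (.some x y hxy))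
        - E.traceOfFrobenius • Consumer.frobBC 2 K E (.some x y hxy)
        + ((2 : ℕ) : ℤ) • (Point.some x y hxy) = 0) :
    FrobRelOn 2 K E := by
  intro P
  have hΔ' : (E.toAffine.baseChange K).Δ ≠ 0 := by
    change (E.map (algebraMap (ZMod 2) K)).Δ ≠ 0
    rw [WeierstrassCurve.map_Δ]
    exact (map_ne_zero _).mpr hΔ
  let ψ : (E.toAffine.baseChange K).Point →+ (E.toAffine.baseChange K).Point :=
    (Consumer.frobBC 2 K E).comp (Consumer.frobBC 2 K E)
      - E.traceOfFrobenius • Consumer.frobBC 2 K E + ((2 : ℕ) : ℤ) • AddMonoidHom.id _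
  exact hom_eq_zero_of_generic _ hΔ' ψ S (fun x y hxy hx => h x y hxy hx) P

theorem frobRelOn_ord0 : FrobRelOn 2 K ⟨1, 0, 0, 0, 1⟩ := by
  refine frobRelOn_of_generic K _ (by decide) {0, 1} ?_
  intro x y hxy hx
  have hx0 : x ≠ 0 := fun e => hx (by simp [e])
  have hx1 : x ≠ 1 := fun e => hx (by simp [e])
  have key := Char2Core.ord0 (two_eq_zero K) (by simp [WeierstrassCurve.baseChange])
    (by simp [WeierstrassCurve.baseChange]) (by simp [WeierstrassCurve.baseChange])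
    (by simp [WeierstrassCurve.baseChange]) (by simp [WeierstrassCurve.baseChange])
    (Consumer.frobBC 2 K _) (frobBC_some K _) x y hxy hx0 hx1
  rw [trace_ord0, neg_one_zsmul, sub_neg_eq_add, Nat.cast_ofNat, two_zsmul]
  exact key

theorem frobRelOn_ord1 : FrobRelOn 2 K ⟨1, 1, 0, 0, 1⟩ := by
  refine frobRelOn_of_generic K _ (by decide) {0, 1} ?_
  intro x y hxy hx
  have hx0 : x ≠ 0 := fun e => hx (by simp [e])
  have hx1 : x ≠ 1 := fun e => hx (by simp [e])
  have key := Char2Core.ord1 (two_eq_zero K) (by simp [WeierstrassCurve.baseChange])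
    (by simp [WeierstrassCurve.baseChange]) (by simp [WeierstrassCurve.baseChange])
    (by simp [WeierstrassCurve.baseChange]) (by simp [WeierstrassCurve.baseChange])
    (Consumer.frobBC 2 K _) (frobBC_some K _) x y hxy hx0 hx1
  rw [trace_ord1, one_zsmul, Nat.cast_ofNat, two_zsmul]
  exact key

theorem frobRelOn_ss00 : FrobRelOn 2 K ⟨0, 0, 1, 0, 0⟩ := by
  refine frobRelOn_of_generic K _ (by decide) ∅ ?_
  intro x y hxy _
  have key := Char2Core.ss0_0 (two_eq_zero K) (by simp [WeierstrassCurve.baseChange])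
    (by simp [WeierstrassCurve.baseChange]) (by simp [WeierstrassCurve.baseChange])
    (by simp [WeierstrassCurve.baseChange]) (by simp [WeierstrassCurve.baseChange])
    (Consumer.frobBC 2 K _) (frobBC_some K _) x y hxy
  rw [trace_ss00, zero_zsmul, sub_zero, Nat.cast_ofNat, two_zsmul]
  exact key

theorem frobRelOn_ss01 : FrobRelOn 2 K ⟨0, 0, 1, 0, 1⟩ := by
  refine frobRelOn_of_generic K _ (by decide) ∅ ?_
  intro x y hxy _
  have key := Char2Core.ss0_1 (two_eq_zero K) (by simp [WeierstrassCurve.baseChange])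
    (by simp [WeierstrassCurve.baseChange]) (by simp [WeierstrassCurve.baseChange])
    (by simp [WeierstrassCurve.baseChange]) (by simp [WeierstrassCurve.baseChange])
    (Consumer.frobBC 2 K _) (frobBC_some K _) x y hxy
  rw [trace_ss01, zero_zsmul, sub_zero, Nat.cast_ofNat, two_zsmul]
  exact key

theorem frobRelOn_ss10 : FrobRelOn 2 K ⟨0, 0, 1, 1, 0⟩ := by
  refine frobRelOn_of_generic K _ (by decide) {0, 1} ?_
  intro x y hxy hx
  have hx0 : x ≠ 0 := fun e => hx (by simp [e])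
  have hx1 : x ≠ 1 := fun e => hx (by simp [e])
  have key := Char2Core.ssm (two_eq_zero K) (by simp [WeierstrassCurve.baseChange])
    (by simp [WeierstrassCurve.baseChange]) (by simp [WeierstrassCurve.baseChange])
    (by simp [WeierstrassCurve.baseChange]) (by simp [WeierstrassCurve.baseChange])
    (Consumer.frobBC 2 K _) (frobBC_some K _) x y hxy hx0 hx1
  rw [trace_ss10, neg_zsmul, sub_neg_eq_add, Nat.cast_ofNat, two_zsmul, two_zsmul]
  exact key

theorem frobRelOn_ss11 : FrobRelOn 2 K ⟨0, 0, 1, 1, 1⟩ := by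
  refine frobRelOn_of_generic K _ (by decide) {0, 1} ?_
  intro x y hxy hx
  have hx0 : x ≠ 0 := fun e => hx (by simp [e])
  have hx1 : x ≠ 1 := fun e => hx (by simp [e])
  have key := Char2Core.ssp (two_eq_zero K) (by simp [WeierstrassCurve.baseChange])
    (by simp [WeierstrassCurve.baseChange]) (by simp [WeierstrassCurve.baseChange])
    (by simp [WeierstrassCurve.baseChange]) (by simp [WeierstrassCurve.baseChange])
    (Consumer.frobBC 2 K _) (frobBC_some K _) x y hxy hx0 hx1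
  rw [trace_ss11, Nat.cast_ofNat, two_zsmul, two_zsmul]
  exact key

end Frob

end Fermat.Agent.S58.Frob23.Char2Forms
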