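import Mathlib
import Fermat.Agent.S58.Frob23.Generic

/-!
# S58, brick (B2) FROB23, characteristic 3: chord and tangent steps for "odd" points

On a Weierstrass curve with `a₁ = a₃ = 0`, a point `(x, y)` with `y² = f` and points of the
shape `(a, y * b)`: explicit chord and tangent additions with hypotheses which are rational
identities in `a`, `b`, `f` only.
-/

set_option autoImplicit false

namespace Fermat.Agent.S58.Frob23.Char3

open WeierstrassCurve WeierstrassCurve.Affine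

section Tools

variable {K : Type*} [Field K] {W : Affine K}

/-- Transport of a `some` point along equalities of coordinates. -/
theorem some_eq {x x' y y' : K} (h : W.Nonsingular x y) (hx : x = x') (hy : y = y') :
    ∃ h' : W.Nonsingular x' y', Point.some x y h = Point.some x' y' h' := by
  subst hx hy
  exact ⟨h, rfl⟩

variable [DecidableEq K]

/-- Chord step for odd points. -/
theorem odd_chord (ha₁ : W.a₁ = 0) (ha₃ : W.a₃ = 0) {y f a₁ b₁ a₂ b₂ : K} (hy : y ^ 2 = f)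
    (h₁ : W.Nonsingular a₁ (y * b₁)) (h₂ : W.Nonsingular a₂ (y * b₂)) (hne : a₁ ≠ a₂)
    (a₃ b₃ : K)
    (e₁ : a₃ * (a₁ - a₂) ^ 2 = f * (b₁ - b₂) ^ 2 - (W.a₂ + a₁ + a₂) * (a₁ - a₂) ^ 2)
    (e₂ : (b₃ + b₁) * (a₁ - a₂) = -(b₁ - b₂) * (a₃ - a₁)) :
    ∃ h₃ : W.Nonsingular a₃ (y * b₃),
      Point.some a₁ (y * b₁) h₁ + Point.some a₂ (y * b₂) h₂ = Point.some a₃ (y * b₃) h₃ := by
  have hxy : ¬(a₁ = a₂ ∧ y * b₁ = W.negY a₂ (y * b₂)) := fun h => hne h.1
  have hd : a₁ - a₂ ≠ 0 := sub_ne_zero.mpr hne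
  have hs : W.slope a₁ a₂ (y * b₁) (y * b₂) = (y * b₁ - y * b₂) / (a₁ - a₂) := slope_of_X_ne hne
  have e₁' : a₃ = (f * (b₁ - b₂) ^ 2 - (W.a₂ + a₁ + a₂) * (a₁ - a₂) ^ 2) / (a₁ - a₂) ^ 2 := by
    rw [eq_div_iff (pow_ne_zero 2 hd)]; exact e₁
  have e₂' : b₃ = -(b₁ - b₂) * (a₃ - a₁) / (a₁ - a₂) - b₁ := by
    rw [eq_sub_iff_add_eq, eq_div_iff hd]; exact e₂
  have ex : W.addX a₁ a₂ (W.slope a₁ a₂ (y * b₁) (y * b₂)) = a₃ := by
    rw [hs, e₁', ← hy]
    simp only [addX, ha₁]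
    field_simp
    ring
  have ey : W.addY a₁ a₂ (y * b₁) (W.slope a₁ a₂ (y * b₁) (y * b₂)) = y * b₃ := by
    simp only [addY, negAddY, negY]
    rw [ex, hs, e₂', ha₁, ha₃]
    field_simp
    ring
  obtain ⟨h₃, e⟩ := some_eq (nonsingular_add h₁ h₂ hxy) ex ey
  exact ⟨h₃, by rw [Point.add_some hxy, e]⟩

/-- Tangent step at `(x, y)`. -/
theorem odd_tangent (ha₁ : W.a₁ = 0) (ha₃ : W.a₃ = 0) {x y f : K} (hy : y ^ 2 = f)
    (hf : f ≠ 0) (h2 : (2 : K) ≠ 0) (h₁ : W.Nonsingular x y) (a₃ b₃ : K)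
    (e₁ : a₃ * (2 * f) ^ 2
      = f * (3 * x ^ 2 + 2 * W.a₂ * x + W.a₄) ^ 2 - (W.a₂ + 2 * x) * (2 * f) ^ 2)
    (e₂ : (b₃ + 1) * (2 * f) = -(3 * x ^ 2 + 2 * W.a₂ * x + W.a₄) * (a₃ - x)) :
    ∃ h₃ : W.Nonsingular a₃ (y * b₃),
      Point.some x y h₁ + Point.some x y h₁ = Point.some a₃ (y * b₃) h₃ := by
  have hy0 : y ≠ 0 := by
    rintro rfl
    exact hf (by rw [← hy]; ring)
  have hneg : W.negY x y = -y := by simp [negY, ha₁, ha₃]
  have hyne : y ≠ W.negY x y := by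
    rw [hneg]
    intro h
    have : 2 * y = 0 := by linear_combination h
    rcases mul_eq_zero.mp this with h | h
    · exact h2 h
    · exact hy0 h
  have hxy : ¬(x = x ∧ y = W.negY x y) := fun h => hyne h.2
  have hs : W.slope x x y y = (3 * x ^ 2 + 2 * W.a₂ * x + W.a₄ - W.a₁ * y) / (y - W.negY x y) :=
    slope_of_Y_ne rfl hyne
  have h2f : 2 * f ≠ 0 := mul_ne_zero h2 hf
  have hden : y - W.negY x y = 2 * y := by rw [hneg]; ring
  have hl : W.slope x x y y * (2 * y) = 3 * x ^ 2 + 2 * W.a₂ * x + W.a₄ := by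
    rw [hs, hden, ha₁, zero_mul, sub_zero, div_mul_cancel₀ _ (mul_ne_zero h2 hy0)]
  set l := W.slope x x y y with hldef
  have ex : W.addX x x l = a₃ := by
    simp only [addX, ha₁]
    apply mul_right_cancel₀ (pow_ne_zero 2 h2f)
    linear_combination (exp := 1) -e₁
      + f * (l * (2 * y) + (3 * x ^ 2 + 2 * W.a₂ * x + W.a₄)) * hl - 4 * l ^ 2 * f * hy
  have ey : W.addY x x y l = y * b₃ := by
    simp only [addY, negAddY, negY]
    rw [ex, ha₁, ha₃]
    apply mul_right_cancel₀ h2f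
    linear_combination (exp := 1) (-y) * e₂ + (a₃ - x) * (-y) * hl + (a₃ - x) * 2 * l * hy
  obtain ⟨h₃, e⟩ := some_eq (nonsingular_add h₁ h₁ hxy) ex ey
  exact ⟨h₃, by rw [Point.add_some hxy, e]⟩

/-- An additive map on `W(K)` which vanishes at all affine points whose `x`-coordinate is not a
root of a fixed nonzero polynomial vanishes. -/
theorem hom_eq_zero_of_generic_poly [IsAlgClosed K] (W : Affine K) (hΔ : W.Δ ≠ 0)
    {H : Type*} [AddCommGroup H] (ψ : W.Point →+ H) (g : Polynomial K) (hg : g ≠ 0)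
    (h : ∀ (x y : K) (hxy : W.Nonsingular x y), g.eval x ≠ 0 → ψ (Point.some x y hxy) = 0)
    (P : W.Point) : ψ P = 0 := by
  classical
  refine hom_eq_zero_of_generic W hΔ ψ g.roots.toFinset (fun x y hxy hx => h x y hxy ?_) P
  intro h0
  exact hx (Multiset.mem_toFinset.mpr ((Polynomial.mem_roots hg).mpr h0))

end Tools

end Fermat.Agent.S58.Frob23.Char3
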