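import Mathlib
import Fermat.Agent.S58.Frob23.Char3Tools

/-!
# S58, brick (B2) FROB23, characteristic 3: the ordinary curve `y² = x³ - x² + 1`

`core_mp` : on a curve `W` over an algebraically closed field `K` of characteristic `3` with
`a₁ = a₃ = a₄ = 0`, `a₂ = -1`, `a₆ = 1`, every additive `φ` with
`φ (x, y) = (x ^ 3, y ^ 3)` satisfies `φ² - (-1) φ + 3 = 0`.

Proof: generic point identity `3 P = -φ (R)`, `R = P + φ P`, checked by explicit tangent and
chord steps (rational identities in `x` over `𝔽₃`), then `hom_eq_zero_of_generic_poly`.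
-/

set_option autoImplicit false

namespace Fermat.Agent.S58.Frob23.Char3

open WeierstrassCurve WeierstrassCurve.Affine Polynomial

set_option maxHeartbeats 1000000 in
theorem core_mp {K : Type*} [Field K] [DecidableEq K] [IsAlgClosed K] [CharP K 3] (W : Affine K)
    (ha₁ : W.a₁ = 0) (ha₂ : W.a₂ = -1) (ha₃ : W.a₃ = 0) (ha₄ : W.a₄ = 0) (ha₆ : W.a₆ = 1)
    (φ : W.Point →+ W.Point)
    (hφ : ∀ (x y : K) (h : W.Nonsingular x y), ∃ h' : W.Nonsingular (x ^ 3) (y ^ 3),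
      φ (Point.some x y h) = Point.some (x ^ 3) (y ^ 3) h')
    (P : W.Point) : φ (φ P) - (-1 : ℤ) • φ P + (3 : ℤ) • P = 0 := by
  have h3 : (3 : K) = 0 := by exact_mod_cast CharP.cast_eq_zero K 3
  have h2 : (2 : K) ≠ 0 := by
    intro h
    have : (1 : K) = 0 := by linear_combination h3 - h
    exact one_ne_zero this
  have hΔ : W.Δ ≠ 0 := by
    have : W.Δ = 1 := by
      simp only [WeierstrassCurve.Δ, WeierstrassCurve.b₂, WeierstrassCurve.b₄,
        WeierstrassCurve.b₆, WeierstrassCurve.b₈, ha₁, ha₂, ha₃, ha₄, ha₆]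
      rw [← sub_eq_zero]
      ring_nf
      reduce_mod_char!
    rw [this]
    exact one_ne_zero
  let ψ : W.Point →+ W.Point := φ.comp φ - (-1 : ℤ) • φ + (3 : ℤ) • AddMonoidHom.id _
  have hψ : ∀ Q : W.Point, ψ Q = φ (φ Q) - (-1 : ℤ) • φ Q + (3 : ℤ) • Q := fun Q => rfl
  rw [← hψ]
  have hg : ((X ^ 3 - X ^ 2 + 1) * (X ^ 3 - X) * (X + 1) : K[X]) ≠ 0 := by
    have : ((X ^ 3 - X ^ 2 + 1) * (X ^ 3 - X) * (X + 1) : K[X]).Monic := by
      monicity!
    exact this.ne_zero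
  refine hom_eq_zero_of_generic_poly W hΔ ψ _ hg ?_ P
  intro x y hxy hgx
  rw [hψ]
  simp only [eval_mul, eval_sub, eval_add, eval_pow, eval_X, eval_one] at hgx
  have hf : x ^ 3 - x ^ 2 + 1 ≠ 0 := left_ne_zero_of_mul (left_ne_zero_of_mul hgx)
  have hq : x ^ 3 - x ≠ 0 := right_ne_zero_of_mul (left_ne_zero_of_mul hgx)
  have hd : x + 1 ≠ 0 := right_ne_zero_of_mul hgx
  have hy : y ^ 2 = x ^ 3 - x ^ 2 + 1 := by
    have := (Affine.equation_iff x y).mp hxy.1
    rw [ha₁, ha₂, ha₃, ha₄, ha₆] at this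
    linear_combination this
  obtain ⟨F, hF⟩ : ∃ F : K, F = x ^ 3 - x ^ 2 + 1 := ⟨_, rfl⟩
  obtain ⟨D, hD⟩ : ∃ D : K, D = x + 1 := ⟨_, rfl⟩
  have hF0 : F ≠ 0 := hF ▸ hf
  have hD0 : D ≠ 0 := hD ▸ hd
  have hyF : y ^ 2 = F := by rw [hF]; exact hy
  -- `φ P`, and `P`, `φ P` as odd points
  obtain ⟨h1, e1⟩ := hφ x y hxy
  obtain ⟨hP', eP⟩ := some_eq hxy rfl (mul_one y).symm
  obtain ⟨hN, eN⟩ := some_eq h1 rfl
    (show y ^ 3 = y * F by
      rw [← hyF]
      ring)
  -- tangent step: `2 P`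
  obtain ⟨h2P, e2P⟩ := odd_tangent ha₁ ha₃ hyF hF0 h2 hxy
    ((x ^ 4 + x + 1) / F)
    ((-x ^ 6 - x ^ 5 + x ^ 3 - x ^ 2 + x - 1) / F ^ 2)
    (by
      rw [ha₂, ha₄]
      field_simp
      subst hF hD
      rw [← sub_eq_zero]
      ring_nf
      reduce_mod_char!)
    (by
      rw [ha₂, ha₄]
      field_simp
      subst hF hD
      rw [← sub_eq_zero]
      ring_nf
      reduce_mod_char!)
  -- chord step: `R`
  have hneR : x ≠ x ^ 3 := fun h => hq (by linear_combination -h)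
  obtain ⟨hR, eR⟩ := odd_chord ha₁ ha₃ hyF hP' hN hneR
    ((x ^ 3 + x + 1) / D ^ 2)
    ((x ^ 3 - x - 1) / D ^ 3)
    (by
      rw [ha₂]
      field_simp
      subst hF hD
      rw [← sub_eq_zero]
      ring_nf
      reduce_mod_char!)
    (by
      field_simp
      subst hF hD
      rw [← sub_eq_zero]
      ring_nf
      reduce_mod_char!)
  -- chord step: `3 P = 2 P + P`
  have hne3 : (x ^ 4 + x + 1) / F ≠ x := by
    intro h
    rw [div_eq_iff hF0] at h
    have h' : (x + 1) ^ 3 = 0 := by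
      have e : (x + 1) ^ 3 = -(x * (x ^ 3 - x ^ 2 + 1) - (x ^ 4 + x + 1)) := by
        rw [← sub_eq_zero]
        ring_nf
        reduce_mod_char!
      rw [e, ← hF, h]
      ring
    exact hd (pow_eq_zero_iff (by norm_num) |>.mp h')
  obtain ⟨h3P, e3P⟩ := odd_chord ha₁ ha₃ hyF h2P hP' hne3
    (((x ^ 3 + x + 1) / D ^ 2) ^ 3)
    (-F * ((x ^ 3 - x - 1) / D ^ 3) ^ 3)
    (by
      rw [ha₂]
      field_simp
      subst hF hD
      rw [← sub_eq_zero]
      ring_nf
      reduce_mod_char!)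
    (by
      field_simp
      subst hF hD
      rw [← sub_eq_zero]
      ring_nf
      reduce_mod_char!)
  -- `φ R`
  obtain ⟨hφR, eφR⟩ := hφ _ _ hR
  obtain ⟨hφR', eφR'⟩ := some_eq ((nonsingular_neg _ _).mpr hφR) rfl
    (show W.negY ((((x ^ 3 + x + 1) / D ^ 2)) ^ 3) ((y * ((x ^ 3 - x - 1) / D ^ 3)) ^ 3)
        = y * (-F * ((x ^ 3 - x - 1) / D ^ 3) ^ 3) by
      simp only [negY, ha₁, ha₃]
      rw [← hyF]
      ring)
  -- assembly
  have hRR : Point.some x y hxy + φ (Point.some x y hxy) = Point.some _ _ hR := by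
    rw [e1, eN, ← eR, ← eP]
  have h3P' : Point.some x y hxy + Point.some x y hxy + Point.some x y hxy
      = -φ (Point.some _ _ hR) := by
    rw [e2P, eφR, Point.neg_some, eφR', ← e3P, ← eP]
  rw [← hRR, map_add] at h3P'
  have e3 : (3 : ℤ) • Point.some x y hxy
      = Point.some x y hxy + Point.some x y hxy + Point.some x y hxy := by abel
  rw [e3, h3P']
  abel

end Fermat.Agent.S58.Frob23.Char3
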