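import Mathlib
import Fermat.Prelude.Def_FLTPrelim_Modularity
import Fermat.Agent.S05.VarChange
import Fermat.Agent.S52.Tr.SpecFinal
import Fermat.Agent.S58.Frob23.Defs
import Fermat.Agent.S58.Frob23.Generic
import Fermat.Agent.S58.Frob23.Char2Forms
import Fermat.Agent.S58.Frob23.Char3PM
import Fermat.Agent.S58.Frob23.Char3MP
import Fermat.Agent.S58.Frob23.Char3PP
import Fermat.Agent.S58.Frob23.Char3MM

/-!
# Frobenius relation in characteristic 3: normal forms over `ZMod 3`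

* `trace_*` : the traces of Frobenius of the four ordinary normal forms `y² = x³ ± x² ± 1`.
* `exists_normal_form` : every Weierstrass curve over `ZMod 3` with `Δ ≠ 0` is related by a change
  of variables with `u = 1` to one of the four ordinary normal forms or to a short curve
  `y² = x³ + A x + B` with `A ≠ 0`.
* `frobRelOn_*` : `FrobRelOn 3 K N` for the normal forms `N` (`K` algebraically closed); the short
  curves are brick (Tr) of S52 (`S52.Tr.SpecFinal.trStatement`, valid for every odd prime).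
-/

set_option autoImplicit false

namespace Fermat.Agent.S58.Frob23.Char3Forms

open WeierstrassCurve WeierstrassCurve.Affine Fermat.Agent.S05.VarChange Fermat.Agent.S52.Tr

section Traces

theorem trace_pp : (⟨0, 1, 0, 0, 1⟩ : WeierstrassCurve (ZMod 3)).traceOfFrobenius = -2 := by
  rw [Char2Forms.trace_eq _ (by decide) 5 (by decide), ZMod.card]; norm_num

theorem trace_pm : (⟨0, 1, 0, 0, -1⟩ : WeierstrassCurve (ZMod 3)).traceOfFrobenius = 1 := by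
  rw [Char2Forms.trace_eq _ (by decide) 2 (by decide), ZMod.card]; norm_num

theorem trace_mp : (⟨0, -1, 0, 0, 1⟩ : WeierstrassCurve (ZMod 3)).traceOfFrobenius = -1 := by
  rw [Char2Forms.trace_eq _ (by decide) 4 (by decide), ZMod.card]; norm_num

theorem trace_mm : (⟨0, -1, 0, 0, -1⟩ : WeierstrassCurve (ZMod 3)).traceOfFrobenius = 2 := by
  rw [Char2Forms.trace_eq _ (by decide) 1 (by decide), ZMod.card]; norm_num

end Traces

section Classify

/-- The coefficient relations of a change of variables with `u = 1`, as a decidable statement on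
coefficients. -/
def RelP (a₁ a₂ a₃ a₄ a₆ b₁ b₂ b₃ b₄ b₆ r s t : ZMod 3) : Prop :=
  b₁ = a₁ + 2 * s ∧ b₂ = a₂ - s * a₁ + 3 * r - s ^ 2 ∧ b₃ = a₃ + r * a₁ + 2 * t ∧
    b₄ = a₄ - s * a₃ + 2 * r * a₂ - (t + r * s) * a₁ + 3 * r ^ 2 - 2 * s * t ∧
    b₆ = a₆ + r * a₄ + r ^ 2 * a₂ + r ^ 3 - t * a₃ - t ^ 2 - r * t * a₁

instance (a₁ a₂ a₃ a₄ a₆ b₁ b₂ b₃ b₄ b₆ r s t : ZMod 3) :
    Decidable (RelP a₁ a₂ a₃ a₄ a₆ b₁ b₂ b₃ b₄ b₆ r s t) := by
  unfold RelP; infer_instance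

theorem RelP.rel {a₁ a₂ a₃ a₄ a₆ b₁ b₂ b₃ b₄ b₆ r s t : ZMod 3}
    (h : RelP a₁ a₂ a₃ a₄ a₆ b₁ b₂ b₃ b₄ b₆ r s t) :
    Rel (⟨a₁, a₂, a₃, a₄, a₆⟩ : WeierstrassCurve (ZMod 3)).toAffine
      (⟨b₁, b₂, b₃, b₄, b₆⟩ : WeierstrassCurve (ZMod 3)).toAffine 1 r s t := by
  obtain ⟨h1, h2, h3, h4, h6⟩ := h
  refine ⟨one_ne_zero, ?_, ?_, ?_, ?_, ?_⟩
  · change 1 * b₁ = a₁ + 2 * s
    rw [h1]; ring
  · change 1 ^ 2 * b₂ = a₂ - s * a₁ + 3 * r - s ^ 2
    rw [h2]; ring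
  · change 1 ^ 3 * b₃ = a₃ + r * a₁ + 2 * t
    rw [h3]; ring
  · change 1 ^ 4 * b₄ = a₄ - s * a₃ + 2 * r * a₂ - (t + r * s) * a₁ + 3 * r ^ 2 - 2 * s * t
    rw [h4]; ring
  · change 1 ^ 6 * b₆ = a₆ + r * a₄ + r ^ 2 * a₂ + r ^ 3 - t * a₃ - t ^ 2 - r * t * a₁
    rw [h6]; ring

/-- The translation `r` which removes `a₄` when `a₂ + a₁² ≠ 0`. -/
def rOf (a₁ a₂ a₃ a₄ : ZMod 3) : ZMod 3 :=
  if a₂ + a₁ ^ 2 = 0 then 0 else (a₄ - a₁ * a₃) * (a₂ + a₁ ^ 2)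

set_option maxRecDepth 100000 in
theorem classify : ∀ a₁ a₂ a₃ a₄ a₆ : ZMod 3,
    (⟨a₁, a₂, a₃, a₄, a₆⟩ : WeierstrassCurve (ZMod 3)).Δ ≠ 0 →
      RelP a₁ a₂ a₃ a₄ a₆ 0 1 0 0 1 (rOf a₁ a₂ a₃ a₄) a₁ (a₃ + rOf a₁ a₂ a₃ a₄ * a₁) ∨
      RelP a₁ a₂ a₃ a₄ a₆ 0 1 0 0 (-1) (rOf a₁ a₂ a₃ a₄) a₁ (a₃ + rOf a₁ a₂ a₃ a₄ * a₁) ∨
      RelP a₁ a₂ a₃ a₄ a₆ 0 (-1) 0 0 1 (rOf a₁ a₂ a₃ a₄) a₁ (a₃ + rOf a₁ a₂ a₃ a₄ * a₁) ∨
      RelP a₁ a₂ a₃ a₄ a₆ 0 (-1) 0 0 (-1) (rOf a₁ a₂ a₃ a₄) a₁ (a₃ + rOf a₁ a₂ a₃ a₄ * a₁) ∨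
      ∃ A B : ZMod 3, A ≠ 0 ∧
        RelP a₁ a₂ a₃ a₄ a₆ 0 0 0 A B (rOf a₁ a₂ a₃ a₄) a₁ (a₃ + rOf a₁ a₂ a₃ a₄ * a₁) := by
  decide

/-- Every Weierstrass curve over `ZMod 3` with `Δ ≠ 0` is related (with `u = 1`) to one of the
four ordinary normal forms or to a short curve with `A ≠ 0`. -/
theorem exists_normal_form (E : WeierstrassCurve (ZMod 3)) (hΔ : E.Δ ≠ 0) :
    ∃ r s t : ZMod 3,
      Rel E.toAffine (⟨0, 1, 0, 0, 1⟩ : WeierstrassCurve (ZMod 3)).toAffine 1 r s t ∨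
      Rel E.toAffine (⟨0, 1, 0, 0, -1⟩ : WeierstrassCurve (ZMod 3)).toAffine 1 r s t ∨
      Rel E.toAffine (⟨0, -1, 0, 0, 1⟩ : WeierstrassCurve (ZMod 3)).toAffine 1 r s t ∨
      Rel E.toAffine (⟨0, -1, 0, 0, -1⟩ : WeierstrassCurve (ZMod 3)).toAffine 1 r s t ∨
      ∃ A B : ZMod 3, A ≠ 0 ∧
        Rel E.toAffine (⟨0, 0, 0, A, B⟩ : WeierstrassCurve (ZMod 3)).toAffine 1 r s t := by
  obtain ⟨a₁, a₂, a₃, a₄, a₆⟩ := E
  refine ⟨rOf a₁ a₂ a₃ a₄, a₁, a₃ + rOf a₁ a₂ a₃ a₄ * a₁, ?_⟩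
  rcases classify a₁ a₂ a₃ a₄ a₆ hΔ with h | h | h | h | ⟨A, B, hA, h⟩
  · exact Or.inl h.rel
  · exact Or.inr (Or.inl h.rel)
  · exact Or.inr (Or.inr (Or.inl h.rel))
  · exact Or.inr (Or.inr (Or.inr (Or.inl h.rel)))
  · exact Or.inr (Or.inr (Or.inr (Or.inr ⟨A, B, hA, h.rel⟩)))

theorem short_disc_ne_zero : ∀ A B : ZMod 3, A ≠ 0 → 4 * A ^ 3 + 27 * B ^ 2 ≠ 0 := by
  decide

end Classify

section Frob

variable (K : Type) [Field K] [DecidableEq K] [Algebra (ZMod 3) K]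

/-- The Frobenius of `E(K)` raises the coordinates to the third power. -/
theorem frobBC_some (E : WeierstrassCurve (ZMod 3)) (x y : K)
    (h : (E.toAffine.baseChange K).Nonsingular x y) :
    ∃ h' : (E.toAffine.baseChange K).Nonsingular (x ^ 3) (y ^ 3),
      Consumer.frobBC 3 K E (.some x y h) = .some (x ^ 3) (y ^ 3) h' := by
  have key : ∀ (a b : K) (hab : (E.toAffine.baseChange K).Nonsingular a b), a = x ^ 3 → b = y ^ 3 →
      ∃ h' : (E.toAffine.baseChange K).Nonsingular (x ^ 3) (y ^ 3),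
        Point.some a b hab = .some (x ^ 3) (y ^ 3) h' := by
    rintro a b hab rfl rfl
    exact ⟨hab, rfl⟩
  unfold Consumer.frobBC
  rw [WeierstrassCurve.Affine.Point.map_some]
  refine key _ _ _ ?_ ?_
  · rw [FiniteField.coe_frobeniusAlgHom, ZMod.card]
  · rw [FiniteField.coe_frobeniusAlgHom, ZMod.card]

variable [IsAlgClosed K]

omit [DecidableEq K] [IsAlgClosed K] in
theorem charP_three : CharP K 3 :=
  charP_of_injective_algebraMap (algebraMap (ZMod 3) K).injective 3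

theorem frobRelOn_pp : FrobRelOn 3 K ⟨0, 1, 0, 0, 1⟩ := by
  have := charP_three K
  intro P
  have key := Char3.core_pp
    ((⟨0, 1, 0, 0, 1⟩ : WeierstrassCurve (ZMod 3)).toAffine.baseChange K)
    (by simp [WeierstrassCurve.baseChange]) (by simp [WeierstrassCurve.baseChange])
    (by simp [WeierstrassCurve.baseChange]) (by simp [WeierstrassCurve.baseChange])
    (by simp [WeierstrassCurve.baseChange]) (Consumer.frobBC 3 K _) (frobBC_some K _) P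
  rw [trace_pp, Nat.cast_ofNat]
  exact key

theorem frobRelOn_pm : FrobRelOn 3 K ⟨0, 1, 0, 0, -1⟩ := by
  have := charP_three K
  intro P
  have key := Char3.core_pm
    ((⟨0, 1, 0, 0, -1⟩ : WeierstrassCurve (ZMod 3)).toAffine.baseChange K)
    (by simp [WeierstrassCurve.baseChange]) (by simp [WeierstrassCurve.baseChange])
    (by simp [WeierstrassCurve.baseChange]) (by simp [WeierstrassCurve.baseChange])
    (by simp [WeierstrassCurve.baseChange]) (Consumer.frobBC 3 K _) (frobBC_some K _) P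
  rw [trace_pm, Nat.cast_ofNat]
  exact key

theorem frobRelOn_mp : FrobRelOn 3 K ⟨0, -1, 0, 0, 1⟩ := by
  have := charP_three K
  intro P
  have key := Char3.core_mp
    ((⟨0, -1, 0, 0, 1⟩ : WeierstrassCurve (ZMod 3)).toAffine.baseChange K)
    (by simp [WeierstrassCurve.baseChange]) (by simp [WeierstrassCurve.baseChange])
    (by simp [WeierstrassCurve.baseChange]) (by simp [WeierstrassCurve.baseChange])
    (by simp [WeierstrassCurve.baseChange]) (Consumer.frobBC 3 K _) (frobBC_some K _) P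
  rw [trace_mp, Nat.cast_ofNat]
  exact key

theorem frobRelOn_mm : FrobRelOn 3 K ⟨0, -1, 0, 0, -1⟩ := by
  have := charP_three K
  intro P
  have key := Char3.core_mm
    ((⟨0, -1, 0, 0, -1⟩ : WeierstrassCurve (ZMod 3)).toAffine.baseChange K)
    (by simp [WeierstrassCurve.baseChange]) (by simp [WeierstrassCurve.baseChange])
    (by simp [WeierstrassCurve.baseChange]) (by simp [WeierstrassCurve.baseChange])
    (by simp [WeierstrassCurve.baseChange]) (Consumer.frobBC 3 K _) (frobBC_some K _) P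
  rw [trace_mm, Nat.cast_ofNat]
  exact key

/-- The short curves `y² = x³ + A x + B`, `A ≠ 0`: brick (Tr) of S52. -/
theorem frobRelOn_short (A B : ZMod 3) (hA : A ≠ 0) : FrobRelOn 3 K ⟨0, 0, 0, A, B⟩ :=
  SpecFinal.trStatement 3 K (by decide) A B (short_disc_ne_zero A B hA)

end Frob

end Fermat.Agent.S58.Frob23.Char3Forms
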