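import Mathlib
import Fermat.Agent.S58.Frob23.Char3Forms

/-!
# Frobenius relation in characteristic 3: `FrobStatement 3 K` from the transport lemma

`frobStatement_three_of_transport` : if the relation `FrobRelOn 3 K` is transported along changes
of variables over `ZMod 3` (brick (T3) of FROB23), then it holds for every Weierstrass curve over
`ZMod 3` with `Δ ≠ 0`: the normal forms are `Char3Forms.frobRelOn_*`, and every curve is related
to one of them (`Char3Forms.exists_normal_form`).
-/

set_option autoImplicit false

namespace Fermat.Agent.S58.Frob23.Char3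

open WeierstrassCurve WeierstrassCurve.Affine Fermat.Agent.S05.VarChange

/-- `FrobStatement 3 K` from the normal forms and transport along `Rel`. -/
theorem frobStatement_three_of_transport (K : Type) [Field K] [DecidableEq K]
    [Algebra (ZMod 3) K] [IsAlgClosed K]
    (hT : ∀ (E E' : WeierstrassCurve (ZMod 3)) (u r s t : ZMod 3),
      Rel E.toAffine E'.toAffine u r s t → FrobRelOn 3 K E' → FrobRelOn 3 K E) :
    FrobStatement 3 K := by
  intro E hΔ
  obtain ⟨r, s, t, h⟩ := Char3Forms.exists_normal_form E hΔ
  rcases h with h | h | h | h | ⟨A, B, hA, h⟩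
  · exact hT _ _ _ _ _ _ h (Char3Forms.frobRelOn_pp K)
  · exact hT _ _ _ _ _ _ h (Char3Forms.frobRelOn_pm K)
  · exact hT _ _ _ _ _ _ h (Char3Forms.frobRelOn_mp K)
  · exact hT _ _ _ _ _ _ h (Char3Forms.frobRelOn_mm K)
  · exact hT _ _ _ _ _ _ h (Char3Forms.frobRelOn_short K A B hA)

end Fermat.Agent.S58.Frob23.Char3
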