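import Mathlib
import Fermat.Agent.S58.Frob23.Char2Forms

/-!
# Frobenius relation in characteristic 2: `FrobStatement 2 K` from the transport lemma

`frobStatement_two_of_transport` : if the relation `FrobRelOn 2 K` is transported along changes
of variables over `ZMod 2` (brick (T3) of FROB23), then it holds for every Weierstrass curve over
`ZMod 2` with `Δ ≠ 0`: the six normal forms are `Char2Forms.frobRelOn_*`, and every curve is
related to one of them (`Char2Forms.exists_normal_form`).
-/

set_option autoImplicit false

namespace Fermat.Agent.S58.Frob23.Char2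

open WeierstrassCurve WeierstrassCurve.Affine Fermat.Agent.S05.VarChange

/-- `FrobStatement 2 K` from the six normal forms and transport along `Rel`. -/
theorem frobStatement_two_of_transport (K : Type) [Field K] [DecidableEq K] [Algebra (ZMod 2) K]
    [IsAlgClosed K]
    (hT : ∀ (E E' : WeierstrassCurve (ZMod 2)) (u r s t : ZMod 2),
      Rel E.toAffine E'.toAffine u r s t → FrobRelOn 2 K E' → FrobRelOn 2 K E) :
    FrobStatement 2 K := by
  intro E hΔ
  obtain ⟨r, s, t, h⟩ := Char2Forms.exists_normal_form E hΔ
  rcases h with h | h | h | h | h | h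
  · exact hT _ _ _ _ _ _ h (Char2Forms.frobRelOn_ord0 K)
  · exact hT _ _ _ _ _ _ h (Char2Forms.frobRelOn_ord1 K)
  · exact hT _ _ _ _ _ _ h (Char2Forms.frobRelOn_ss00 K)
  · exact hT _ _ _ _ _ _ h (Char2Forms.frobRelOn_ss01 K)
  · exact hT _ _ _ _ _ _ h (Char2Forms.frobRelOn_ss10 K)
  · exact hT _ _ _ _ _ _ h (Char2Forms.frobRelOn_ss11 K)

end Fermat.Agent.S58.Frob23.Char2
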