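import Mathlib
import Fermat.Prelude.Def_FLTPrelim_Modularity
import Fermat.Agent.S05.VarChange
import Fermat.Agent.S41.NonEis.Basics
import Fermat.Agent.S52.Glue.Short
import Fermat.Agent.S58.Frob23.Defs
import Fermat.Agent.S58.Frob23.Char2

/-!
# S58, brick (B2) FROB23, (T3): transport of the Frobenius relation along changes of variables

`FrobRelOn.of_rel` : if `E'` is obtained from `E` by an admissible change of variables over
`ZMod l` (`S05.VarChange.Rel`) and `φ² - a φ + l = 0` holds on `E'(K)`, then it holds on `E(K)`.
The induced map on `K`-points is an isomorphism of groups which commutes with the Frobenius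
endomorphisms (the coefficients of the change of variables lie in `ZMod l`), and the two curves
have the same number of points over `ZMod l`, hence the same trace of Frobenius.

`frobStatement_two` : `FrobStatement 2 K` for every algebraically closed `K` over `ZMod 2`.
-/

set_option autoImplicit false

namespace Fermat.Agent.S58.Frob23

open WeierstrassCurve WeierstrassCurve.Affine Fermat.Agent.S05.VarChange Fermat.Agent.S52.Tr
  Fermat.Agent.S41.NonEis

section Transport

variable {l : ℕ} [Fact l.Prime]

/-- A change of variables over `ZMod l` preserves the trace of Frobenius. -/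
theorem traceOfFrobenius_eq_of_rel {E E' : WeierstrassCurve (ZMod l)} {u r s t : ZMod l}
    (H : Rel E.toAffine E'.toAffine u r s t) : E.traceOfFrobenius = E'.traceOfFrobenius := by
  have hc : Nat.card E'.toAffine.Point = Nat.card E.toAffine.Point :=
    Nat.card_congr (Equiv.ofBijective H.pointMap
      ⟨H.pointMap_injective, Fermat.Agent.S52.Glue.Rel.pointMap_surjective H⟩)
  unfold WeierstrassCurve.traceOfFrobenius WeierstrassCurve.card
  rw [hc]

variable {K : Type} [Field K] [DecidableEq K] [Algebra (ZMod l) K]

/-- The map on `K`-points induced by a change of variables over `ZMod l` commutes with the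
Frobenius endomorphisms. -/
theorem pointMap_frobBC {E E' : WeierstrassCurve (ZMod l)} {u r s t : ZMod l}
    (H : Rel E.toAffine E'.toAffine u r s t) (P : (E'.toAffine.baseChange K).Point) :
    (Basics.rel_baseChange (K := K) H).pointMap (Consumer.frobBC l K E' P)
      = Consumer.frobBC l K E ((Basics.rel_baseChange (K := K) H).pointMap P) := by
  rcases P with _ | ⟨x, y, h⟩
  · rfl
  · unfold Consumer.frobBC
    rw [Point.map_some, Rel.pointMap_some, Rel.pointMap_some, Point.map_some]
    simp only [map_add, map_mul, map_pow, AlgHom.commutes]

/-- **(T3)** Transport of the Frobenius relation along a change of variables over `ZMod l`. -/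
theorem FrobRelOn.of_rel {E E' : WeierstrassCurve (ZMod l)} {u r s t : ZMod l}
    (H : Rel E.toAffine E'.toAffine u r s t) (h : FrobRelOn l K E') : FrobRelOn l K E := by
  intro P
  have HK := Basics.rel_baseChange (K := K) H
  obtain ⟨P', rfl⟩ := Fermat.Agent.S52.Glue.Rel.pointMap_surjective HK P
  have key := congrArg HK.pointHom (h P')
  rw [map_add, map_sub, map_zsmul, map_zsmul, map_zero] at key
  have e1 : HK.pointHom (Consumer.frobBC l K E' P') = Consumer.frobBC l K E (HK.pointMap P') :=
    pointMap_frobBC H P'
  have e2 : HK.pointHom (Consumer.frobBC l K E' (Consumer.frobBC l K E' P'))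
      = Consumer.frobBC l K E (Consumer.frobBC l K E (HK.pointMap P')) := by
    have := pointMap_frobBC (K := K) H (Consumer.frobBC l K E' P')
    rw [pointMap_frobBC (K := K) H P'] at this
    exact this
  have e3 : HK.pointHom P' = HK.pointMap P' := rfl
  rw [e1, e2, e3, ← traceOfFrobenius_eq_of_rel H] at key
  exact key

end Transport

/-- The Frobenius relation for every Weierstrass curve over `ZMod 2` with `Δ ≠ 0`. -/
theorem frobStatement_two (K : Type) [Field K] [DecidableEq K] [Algebra (ZMod 2) K]
    [IsAlgClosed K] : FrobStatement 2 K :=
  Char2.frobStatement_two_of_transport K (fun _ _ _ _ _ _ H h => FrobRelOn.of_rel H h)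

end Fermat.Agent.S58.Frob23
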