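import Mathlib
import Fermat.Agent.S58.Frob23.Transport
import Fermat.Agent.S58.Frob23.Char3

/-!
# S58, brick (B2) FROB23: the characteristic-3 exit

`frobStatement_three` : `FrobStatement 3 K` for every algebraically closed `K` over `ZMod 3`
(`Char3.frobStatement_three_of_transport` with the transport lemma `FrobRelOn.of_rel`).
-/

set_option autoImplicit false

namespace Fermat.Agent.S58.Frob23

/-- The Frobenius relation for every Weierstrass curve over `ZMod 3` with `Δ ≠ 0`. -/
theorem frobStatement_three (K : Type) [Field K] [DecidableEq K] [Algebra (ZMod 3) K]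
    [IsAlgClosed K] : FrobStatement 3 K :=
  Char3.frobStatement_three_of_transport K (fun _ _ _ _ _ _ H h => FrobRelOn.of_rel H h)

end Fermat.Agent.S58.Frob23
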