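import Mathlib
import Fermat.Agent.S58.Frob23.Char2Core

/-!
# Frobenius relation in characteristic 3: generic-point identities for the ordinary normal forms

`k` a field with `3 = 0`, `V : y² = x³ + b x² + c` with `b, c ∈ {1, -1}`, and `φ` any additive
endomorphism of `V(k)` with `φ (x, y) = (x³, y³)`.  With `θ = φ + c` (`theta_*`:
`θ (x, y)` has abscissa `(x³ + (b + c) x² + x - b) / (x - b)²`):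

* `c = b`  (`ord3_pp`, `ord3_mm`): `θ² = -2`, i.e. `φ² + 2 b φ + 3 = 0`;
* `c = -b` (`ord3_pm`, `ord3_mp`): `φ θ = -3`, i.e. `φ² - b φ + 3 = 0`,

at all affine points outside an explicit finite set of abscissae.  All identities are
chord/tangent certificates (`Char2Core.chord`, `Char2Core.tangent`, which are
characteristic-free) checked by `linear_combination`.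
-/

set_option autoImplicit false
set_option linter.unusedSimpArgs false

namespace Fermat.Agent.S58.Frob23.Ord3Cert

open WeierstrassCurve WeierstrassCurve.Affine Fermat.Agent.S58.Frob23.Char2Core

variable {k : Type*} [Field k] [DecidableEq k] {V : Affine k}

omit [DecidableEq k] in
theorem cube_ne_self {x : k} (hx0 : x ≠ 0) (hx1 : x ≠ 1) (hxm : x ≠ -1) : x ^ 3 ≠ x := by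
  intro e
  have : x * ((x - 1) * (x + 1)) = 0 := by linear_combination e
  rcases mul_eq_zero.mp this with h | h
  · exact hx0 h
  · rcases mul_eq_zero.mp h with h | h
    · exact hx1 (sub_eq_zero.mp h)
    · exact hxm (eq_neg_of_add_eq_zero_left h)

/-- `θ = φ + 1` on the curve `y² = x³ + 1 x² + 1`. -/
theorem theta_pp (h3 : (3 : k) = 0)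
    (ha₁ : V.a₁ = 0) (ha₂ : V.a₂ = 1) (ha₃ : V.a₃ = 0) (ha₄ : V.a₄ = 0) (ha₆ : V.a₆ = 1)
    {x y : k} (h : V.Nonsingular x y) (h₁ : V.Nonsingular (x ^ 3) (y ^ 3)) (hx : x ^ 3 ≠ x)
    (i : k) (hi : (x - 1) * i = 1) :
    ∃ h' : V.Nonsingular ((x ^ 2 + 1) * i) (1 * y * (x ^ 2 + 1 * x - 1) * i ^ 2),
      Point.some (x ^ 3) (y ^ 3) h₁ + Point.some x y h = Point.some ((x ^ 2 + 1) * i) (1 * y * (x ^ 2 + 1 * x - 1) * i ^ 2) h' := by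
  have hC : y ^ 2 = x ^ 3 + 1 * x ^ 2 + 1 := by
    have := (equation_iff _ _).mp h.1
    rw [ha₁, ha₂, ha₃, ha₄, ha₆] at this
    linear_combination this
  exact chord V h₁ _ hx (x * y * i) _ _
    (by
      try simp only [negY, ha₁, ha₂, ha₃, ha₄]
      linear_combination (-x * y * i + y * i) * hC + (y ^ 3 - y) * hi)
    (by
      try simp only [negY, ha₁, ha₂, ha₃, ha₄]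
      linear_combination (-x ^ 2 * i ^ 2) * hC + (-x ^ 4 * i ^ 2 + x ^ 3 * i ^ 2 - x ^ 2 * i ^ 2) * h3 + (-x ^ 4 * i + x ^ 3 * i - x ^ 3 - 2 * x ^ 2 * i - x - 1) * hi)
    (by
      try simp only [negY, ha₁, ha₂, ha₃, ha₄]
      linear_combination (x ^ 2 * y * i ^ 2 - 2 * x * y * i ^ 2 + y * i ^ 2) * hC + (x ^ 2 * y * i ^ 2) * h3 + (x ^ 4 * y * i - x * y ^ 3 * i + y ^ 3 * i - y ^ 3) * hi)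

/-- The curve `y² = x³ + 1 x² + 1`: `φ² + 2 φ + 3 = 0` at generic points. -/
theorem ord3_pp (h3 : (3 : k) = 0)
    (ha₁ : V.a₁ = 0) (ha₂ : V.a₂ = 1) (ha₃ : V.a₃ = 0) (ha₄ : V.a₄ = 0) (ha₆ : V.a₆ = 1)
    (φ : V.Point →+ V.Point)
    (hφ : ∀ (x y : k) (h : V.Nonsingular x y),
      ∃ h' : V.Nonsingular (x ^ 3) (y ^ 3), φ (.some x y h) = .some (x ^ 3) (y ^ 3) h')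
    (x y : k) (h : V.Nonsingular x y) (hx0 : x ≠ 0) (hx1 : x ≠ 1) (hxm : x ≠ -1)
    (hq1 : x ^ 2 + 1 ≠ 0) (hq2 : x ^ 2 - 1 * x - 1 ≠ 0) (hy0 : y ≠ 0) :
    φ (φ (Point.some x y h)) + (φ (Point.some x y h) + φ (Point.some x y h)) + (Point.some x y h + Point.some x y h + Point.some x y h) = 0 := by
  have hC : y ^ 2 = x ^ 3 + 1 * x ^ 2 + 1 := by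
    have := (equation_iff _ _).mp h.1
    rw [ha₁, ha₂, ha₃, ha₄, ha₆] at this
    linear_combination this
  obtain ⟨i, hi⟩ : ∃ i : k, (x - 1) * i = 1 :=
    ⟨(x - 1)⁻¹, mul_inv_cancel₀ (sub_ne_zero.mpr hx1)⟩
  obtain ⟨j, hj⟩ : ∃ j : k, (x ^ 2 - 1 * x - 1) * j = 1 := ⟨_, mul_inv_cancel₀ hq2⟩
  obtain ⟨w, hw⟩ : ∃ w : k, y * w = 1 := ⟨y⁻¹, mul_inv_cancel₀ hy0⟩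
  obtain ⟨h', e'⟩ := hφ x y h
  obtain ⟨hT, eT⟩ := theta_pp h3 ha₁ ha₂ ha₃ ha₄ ha₆ h h' (cube_ne_self hx0 hx1 hxm) i hi
  obtain ⟨h'', e''⟩ := hφ _ _ hT
  have hi' : ((x ^ 2 + 1) * i - 1) * ((x - 1) * j) = 1 := by
    linear_combination (x * i * j - i * j) * h3 + (x * j - j + 1) * hi + (x * i - i) * hj
  have hX0 : (x ^ 2 + 1) * i ≠ 0 := by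
    intro e
    apply hq1
    linear_combination (x - 1) * e - (x ^ 2 + 1) * hi
  have hX1 : (x ^ 2 + 1) * i ≠ 1 := by
    intro e
    rw [e, sub_self, zero_mul] at hi'
    exact zero_ne_one hi'
  have hXm : (x ^ 2 + 1) * i ≠ -1 := by
    intro e
    have : x * (x + 1) = 0 := by linear_combination (x - 1) * e - (x ^ 2 + 1) * hi
    rcases mul_eq_zero.mp this with h0 | h0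
    · exact hx0 h0
    · exact hxm (eq_neg_of_add_eq_zero_left h0)
  obtain ⟨hTT, eTT⟩ := theta_pp h3 ha₁ ha₂ ha₃ ha₄ ha₆ hT h'' (cube_ne_self hX0 hX1 hXm) ((x - 1) * j) hi'
  have hy : y ≠ V.negY x y := by
    intro e
    apply hy0
    rw [negY, ha₁, ha₃] at e
    linear_combination 2 * e - y * h3
  obtain ⟨hD, eD⟩ := tangent V h hy (1 * x * w) _ _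
    (by
      try simp only [negY, ha₁, ha₂, ha₃, ha₄]
      linear_combination (-x ^ 2 * y * w) * h3 + (3 * x ^ 2 + 2 * x) * hw) rfl rfl
  have hre : φ (φ (Point.some x y h)) + (φ (Point.some x y h) + φ (Point.some x y h)) + (Point.some x y h + Point.some x y h + Point.some x y h)
      = φ (φ (Point.some x y h) + Point.some x y h) + (φ (Point.some x y h) + Point.some x y h) + (Point.some x y h + Point.some x y h) := by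
    rw [map_add]; abel
  rw [hre, e', eT, e'', eTT, eD]
  refine Point.add_of_Y_eq ?_ ?_
  · try simp only [negY, ha₁, ha₂, ha₃, ha₄]
    linear_combination (3 * x ^ 5 * i ^ 2 * j * w ^ 2 - 6 * x ^ 4 * i ^ 2 * j * w ^ 2 + 4 * x ^ 3 * i ^ 2 * j * w ^ 2 - x ^ 2 * i ^ 2 * j * w ^ 2 + 3 * x * i ^ 2 * j * w ^ 2 - 3 * i ^ 2 * j * w ^ 2) * hC + (x ^ 8 * i ^ 2 * j * w ^ 2 - x ^ 7 * i ^ 2 * j * w ^ 2 - x ^ 6 * i ^ 2 * j * w ^ 2 + 3 * x ^ 5 * i ^ 2 * j * w ^ 2 - 2 * x ^ 4 * i ^ 2 * j * w ^ 2 + x ^ 3 * i ^ 2 * j * w ^ 2 - x ^ 2 * i ^ 2 * j * w ^ 2 + x * i ^ 2 * j * w ^ 2 - i ^ 2 * j * w ^ 2) * h3 + (x ^ 3 * i * w ^ 2 - x ^ 2 * i * j - x ^ 2 * i * w ^ 2 - 2 * x ^ 2 * i + x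 ^ 2 * w ^ 2 + 2 * x * i * j + x * i - x * j - 2 * x - i * j + i + j - 1) * hi + (x ^ 4 * i ^ 2 * w ^ 2 - 2 * x ^ 3 * i ^ 2 * w ^ 2 - 2 * x ^ 3 * i ^ 2 + x ^ 2 * i ^ 2 * w ^ 2 + 3 * x ^ 2 * i ^ 2 - i ^ 2) * hj + (-3 * x ^ 5 * y * i ^ 2 * j * w - 3 * x ^ 5 * i ^ 2 * j + 6 * x ^ 4 * y * i ^ 2 * j * w + 6 * x ^ 4 * i ^ 2 * j - 4 * x ^ 3 * y * i ^ 2 * j * w - 4 * x ^ 3 * i ^ 2 * j + x ^ 2 * y * i ^ 2 * j * w + x ^ 2 * i ^ 2 * j - 3 * x * y * i ^ 2 * j * w - 3 * x * i ^ 2 * j + 3 * y * i ^ 2 * j * w + 3 * i ^ 2 * j) * hw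
  · try simp only [negY, ha₁, ha₂, ha₃, ha₄]
    linear_combination (9 * x ^ 10 * i ^ 4 * j ^ 2 * w ^ 3 - 27 * x ^ 9 * i ^ 4 * j ^ 2 * w ^ 3 + 31 * x ^ 8 * i ^ 4 * j ^ 2 * w ^ 3 + 6 * x ^ 7 * y ^ 2 * i ^ 4 * j ^ 2 * w ^ 3 + 5 * x ^ 7 * i ^ 4 * j ^ 2 * w ^ 3 - 16 * x ^ 6 * y ^ 2 * i ^ 4 * j ^ 2 * w ^ 3 - 52 * x ^ 6 * i ^ 4 * j ^ 2 * w ^ 3 + 14 * x ^ 5 * y ^ 2 * i ^ 4 * j ^ 2 * w ^ 3 + 38 * x ^ 5 * i ^ 4 * j ^ 2 * w ^ 3 + 2 * x ^ 4 * y ^ 2 * i ^ 4 * j ^ 2 * w ^ 3 + 13 * x ^ 4 * i ^ 4 * j ^ 2 * w ^ 3 - 16 * x ^ 3 * y ^ 2 * i ^ 4 * j ^ 2 * w ^ 3 - 29 * x ^ 3 * i ^ 4 * j ^ 2 * w ^ 3 + 14 * x ^ 2 * y ^ 2 * i ^ 4 * j ^ 2 * w ^ 3 + 15 * x ^ 2 * i ^ 4 * j ^ 2 * w ^ 3 -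 4 * x * y ^ 2 * i ^ 4 * j ^ 2 * w ^ 3 - 3 * x * i ^ 4 * j ^ 2 * w ^ 3) * hC + (3 * x ^ 13 * i ^ 4 * j ^ 2 * w ^ 3 - 6 * x ^ 12 * i ^ 4 * j ^ 2 * w ^ 3 + x ^ 11 * i ^ 4 * j ^ 2 * w ^ 3 + 17 * x ^ 10 * i ^ 4 * j ^ 2 * w ^ 3 - 29 * x ^ 9 * i ^ 4 * j ^ 2 * w ^ 3 + 9 * x ^ 8 * i ^ 4 * j ^ 2 * w ^ 3 + 20 * x ^ 7 * i ^ 4 * j ^ 2 * w ^ 3 - 26 * x ^ 6 * i ^ 4 * j ^ 2 * w ^ 3 + 9 * x ^ 5 * i ^ 4 * j ^ 2 * w ^ 3 + 9 * x ^ 4 * i ^ 4 * j ^ 2 * w ^ 3 - 11 * x ^ 3 * i ^ 4 * j ^ 2 * w ^ 3 + 5 * x ^ 2 * i ^ 4 * j ^ 2 * w ^ 3 - x * i ^ 4 * j ^ 2 * w ^ 3) * h3 + (-x ^ 6 * y * i ^ 3 * j ^ 2 + x ^ 6 * i ^ 3 * w ^ 3 + 2 * x ^ 5 * y * i ^ 3 * j ^ 2 - 3 * x ^ 5 * i ^ 3 * w ^ 3 - 3 * x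 ^ 5 * i ^ 3 * w + x ^ 5 * i ^ 2 * w ^ 3 - x ^ 4 * y * i ^ 3 * j ^ 2 + x ^ 4 * y * i ^ 2 * j ^ 2 + 3 * x ^ 4 * i ^ 3 * w ^ 3 + 8 * x ^ 4 * i ^ 3 * w - 2 * x ^ 4 * i ^ 2 * w ^ 3 - 3 * x ^ 4 * i ^ 2 * w + x ^ 4 * i * w ^ 3 - 3 * x ^ 3 * y * i ^ 3 * j ^ 2 + x ^ 3 * y * i ^ 3 - x ^ 3 * y * i ^ 2 * j ^ 2 - x ^ 3 * i ^ 3 * w ^ 3 - 6 * x ^ 3 * i ^ 3 * w + x ^ 3 * i ^ 2 * w ^ 3 + 5 * x ^ 3 * i ^ 2 * w - x ^ 3 * i * w ^ 3 - 3 * x ^ 3 * i * w + x ^ 3 * w ^ 3 + 8 * x ^ 2 * y * i ^ 3 * j ^ 2 - 3 * x ^ 2 * y * i ^ 3 - 2 * x ^ 2 * y * i ^ 2 * j ^ 2 + x ^ 2 * y * i ^ 2 - x ^ 2 * i ^ 2 * w + 2 * x ^ 2 * i * w - 3 * x ^ 2 * w - 7 * x * y * i ^ 3 * j ^ 2 + 3 * x * y * i ^ 3 + 3 *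 x * y * i ^ 2 * j ^ 2 - 2 * x * y * i ^ 2 + x * y * i + x * i ^ 3 * w - x * i ^ 2 * w + x * i * w - x * w + 2 * y * i ^ 3 * j ^ 2 - y * i ^ 3 - y * i ^ 2 * j ^ 2 + y * i ^ 2 - y * i + y) * hi + (x ^ 9 * i ^ 4 * j * w ^ 3 - 5 * x ^ 8 * i ^ 4 * j * w ^ 3 - 3 * x ^ 8 * i ^ 4 * j * w + 9 * x ^ 7 * i ^ 4 * j * w ^ 3 + 14 * x ^ 7 * i ^ 4 * j * w + x ^ 7 * i ^ 4 * w ^ 3 + x ^ 6 * y * i ^ 4 * j - 6 * x ^ 6 * i ^ 4 * j * w ^ 3 - 22 * x ^ 6 * i ^ 4 * j * w - 4 * x ^ 6 * i ^ 4 * w ^ 3 - 3 * x ^ 6 * i ^ 4 * w - 5 * x ^ 5 * y * i ^ 4 * j - x ^ 5 * i ^ 4 * j * w ^ 3 + 9 * x ^ 5 * i ^ 4 * j * w + 6 * x ^ 5 * i ^ 4 * w ^ 3 + 11 * x ^ 5 * i ^ 4 * w + 9 * x ^ 4 * y * i ^ 4 * j +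 x ^ 4 * y * i ^ 4 + 3 * x ^ 4 * i ^ 4 * j * w ^ 3 + 9 * x ^ 4 * i ^ 4 * j * w - 4 * x ^ 4 * i ^ 4 * w ^ 3 - 14 * x ^ 4 * i ^ 4 * w - 6 * x ^ 3 * y * i ^ 4 * j - 4 * x ^ 3 * y * i ^ 4 - x ^ 3 * i ^ 4 * j * w ^ 3 - 8 * x ^ 3 * i ^ 4 * j * w + x ^ 3 * i ^ 4 * w ^ 3 + 6 * x ^ 3 * i ^ 4 * w - x ^ 2 * y * i ^ 4 * j + 6 * x ^ 2 * y * i ^ 4 + x ^ 2 * i ^ 4 * w + 3 * x * y * i ^ 4 * j - 4 * x * y * i ^ 4 + x * i ^ 4 * j * w - x * i ^ 4 * w - y * i ^ 4 * j + y * i ^ 4) * hj + (-3 * x ^ 10 * y * i ^ 4 * j ^ 2 * w ^ 2 - 3 * x ^ 10 * i ^ 4 * j ^ 2 * w + 17 * x ^ 9 * y * i ^ 4 * j ^ 2 * w ^ 2 + 17 * x ^ 9 * i ^ 4 * j ^ 2 * w - 33 * x ^ 8 * y * i ^ 4 * j ^ 2 * w ^ 2 - 33 * x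 ^ 8 * i ^ 4 * j ^ 2 * w - 6 * x ^ 7 * y ^ 3 * i ^ 4 * j ^ 2 * w ^ 2 - 6 * x ^ 7 * y ^ 2 * i ^ 4 * j ^ 2 * w + 17 * x ^ 7 * y * i ^ 4 * j ^ 2 * w ^ 2 - 6 * x ^ 7 * y * i ^ 4 * j ^ 2 + 17 * x ^ 7 * i ^ 4 * j ^ 2 * w + 16 * x ^ 6 * y ^ 3 * i ^ 4 * j ^ 2 * w ^ 2 + 16 * x ^ 6 * y ^ 2 * i ^ 4 * j ^ 2 * w + 22 * x ^ 6 * y * i ^ 4 * j ^ 2 * w ^ 2 + 16 * x ^ 6 * y * i ^ 4 * j ^ 2 + 22 * x ^ 6 * i ^ 4 * j ^ 2 * w - 14 * x ^ 5 * y ^ 3 * i ^ 4 * j ^ 2 * w ^ 2 - 14 * x ^ 5 * y ^ 2 * i ^ 4 * j ^ 2 * w - 26 * x ^ 5 * y * i ^ 4 * j ^ 2 * w ^ 2 - 14 * x ^ 5 * y * i ^ 4 * j ^ 2 - 26 * x ^ 5 * i ^ 4 * j ^ 2 * w - 2 * x ^ 4 * y ^ 3 * i ^ 4 * j ^ 2 * w ^ 2 - 2 * x ^ 4 * y ^ 2 * i ^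 4 * j ^ 2 * w - x ^ 4 * y * i ^ 4 * j ^ 2 * w ^ 2 - 2 * x ^ 4 * y * i ^ 4 * j ^ 2 - x ^ 4 * i ^ 4 * j ^ 2 * w + 16 * x ^ 3 * y ^ 3 * i ^ 4 * j ^ 2 * w ^ 2 + 16 * x ^ 3 * y ^ 2 * i ^ 4 * j ^ 2 * w + 9 * x ^ 3 * y * i ^ 4 * j ^ 2 * w ^ 2 + 16 * x ^ 3 * y * i ^ 4 * j ^ 2 + 9 * x ^ 3 * i ^ 4 * j ^ 2 * w - 14 * x ^ 2 * y ^ 3 * i ^ 4 * j ^ 2 * w ^ 2 - 14 * x ^ 2 * y ^ 2 * i ^ 4 * j ^ 2 * w - x ^ 2 * y * i ^ 4 * j ^ 2 * w ^ 2 - 14 * x ^ 2 * y * i ^ 4 * j ^ 2 - x ^ 2 * i ^ 4 * j ^ 2 * w + 4 * x * y ^ 3 * i ^ 4 * j ^ 2 * w ^ 2 + 4 * x * y ^ 2 * i ^ 4 * j ^ 2 * w - x * y * i ^ 4 * j ^ 2 * w ^ 2 + 4 * x * y * i ^ 4 * j ^ 2 - x * i ^ 4 * j ^ 2 * w) * hw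

/-- `θ = φ - 1` on the curve `y² = x³ + (-1) x² + (-1)`. -/
theorem theta_mm (h3 : (3 : k) = 0)
    (ha₁ : V.a₁ = 0) (ha₂ : V.a₂ = (-1)) (ha₃ : V.a₃ = 0) (ha₄ : V.a₄ = 0) (ha₆ : V.a₆ = (-1))
    {x y : k} (h : V.Nonsingular x y) (h₁ : V.Nonsingular (x ^ 3) (y ^ 3)) (hx : x ^ 3 ≠ x)
    (i : k) (hi : (x - (-1)) * i = 1) :
    ∃ h' : V.Nonsingular ((x ^ 2 + 1) * i) ((-1) * y * (x ^ 2 + (-1) * x - 1) * i ^ 2),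
      Point.some (x ^ 3) (y ^ 3) h₁ + -Point.some x y h = Point.some ((x ^ 2 + 1) * i) ((-1) * y * (x ^ 2 + (-1) * x - 1) * i ^ 2) h' := by
  have hC : y ^ 2 = x ^ 3 + (-1) * x ^ 2 + (-1) := by
    have := (equation_iff _ _).mp h.1
    rw [ha₁, ha₂, ha₃, ha₄, ha₆] at this
    linear_combination this
  rw [Point.neg_some]
  exact chord V h₁ _ hx (x * y * i) _ _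
    (by
      try simp only [negY, ha₁, ha₂, ha₃, ha₄]
      linear_combination (-x * y * i - y * i) * hC + (y ^ 3 + y) * hi)
    (by
      try simp only [negY, ha₁, ha₂, ha₃, ha₄]
      linear_combination (-x ^ 2 * i ^ 2) * hC + (x ^ 4 * i ^ 2 + x ^ 3 * i ^ 2 + x ^ 2 * i ^ 2) * h3 + (-x ^ 4 * i - x ^ 3 * i - x ^ 3 - 2 * x ^ 2 * i - x + 1) * hi)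
    (by
      try simp only [negY, ha₁, ha₂, ha₃, ha₄]
      linear_combination (x ^ 2 * y * i ^ 2 + 2 * x * y * i ^ 2 + y * i ^ 2) * hC + (-x ^ 2 * y * i ^ 2) * h3 + (x ^ 4 * y * i - x * y ^ 3 * i - y ^ 3 * i - y ^ 3) * hi)

/-- The curve `y² = x³ + (-1) x² + (-1)`: `φ² - 2 φ + 3 = 0` at generic points. -/
theorem ord3_mm (h3 : (3 : k) = 0)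
    (ha₁ : V.a₁ = 0) (ha₂ : V.a₂ = (-1)) (ha₃ : V.a₃ = 0) (ha₄ : V.a₄ = 0) (ha₆ : V.a₆ = (-1))
    (φ : V.Point →+ V.Point)
    (hφ : ∀ (x y : k) (h : V.Nonsingular x y),
      ∃ h' : V.Nonsingular (x ^ 3) (y ^ 3), φ (.some x y h) = .some (x ^ 3) (y ^ 3) h')
    (x y : k) (h : V.Nonsingular x y) (hx0 : x ≠ 0) (hx1 : x ≠ 1) (hxm : x ≠ -1)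
    (hq1 : x ^ 2 + 1 ≠ 0) (hq2 : x ^ 2 - (-1) * x - 1 ≠ 0) (hy0 : y ≠ 0) :
    φ (φ (Point.some x y h)) - (φ (Point.some x y h) + φ (Point.some x y h)) + (Point.some x y h + Point.some x y h + Point.some x y h) = 0 := by
  have hC : y ^ 2 = x ^ 3 + (-1) * x ^ 2 + (-1) := by
    have := (equation_iff _ _).mp h.1
    rw [ha₁, ha₂, ha₃, ha₄, ha₆] at this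
    linear_combination this
  obtain ⟨i, hi⟩ : ∃ i : k, (x - (-1)) * i = 1 :=
    ⟨(x - (-1))⁻¹, mul_inv_cancel₀ (sub_ne_zero.mpr (by simpa using hxm))⟩
  obtain ⟨j, hj⟩ : ∃ j : k, (x ^ 2 - (-1) * x - 1) * j = 1 := ⟨_, mul_inv_cancel₀ hq2⟩
  obtain ⟨w, hw⟩ : ∃ w : k, y * w = 1 := ⟨y⁻¹, mul_inv_cancel₀ hy0⟩
  obtain ⟨h', e'⟩ := hφ x y h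
  obtain ⟨hT, eT⟩ := theta_mm h3 ha₁ ha₂ ha₃ ha₄ ha₆ h h' (cube_ne_self hx0 hx1 hxm) i hi
  obtain ⟨h'', e''⟩ := hφ _ _ hT
  have hi' : ((x ^ 2 + 1) * i - (-1)) * ((x - (-1)) * j) = 1 := by
    linear_combination (x * i * j + i * j) * h3 + (-x * j - j + 1) * hi + (x * i + i) * hj
  have hX0 : (x ^ 2 + 1) * i ≠ 0 := by
    intro e
    apply hq1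
    linear_combination (x - (-1)) * e - (x ^ 2 + 1) * hi
  have hXm : (x ^ 2 + 1) * i ≠ -1 := by
    intro e
    rw [e, sub_self, zero_mul] at hi'
    exact zero_ne_one hi'
  have hX1 : (x ^ 2 + 1) * i ≠ 1 := by
    intro e
    have : x * (x - 1) = 0 := by linear_combination (x + 1) * e - (x ^ 2 + 1) * hi
    rcases mul_eq_zero.mp this with h0 | h0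
    · exact hx0 h0
    · exact hx1 (sub_eq_zero.mp h0)
  obtain ⟨hTT, eTT⟩ := theta_mm h3 ha₁ ha₂ ha₃ ha₄ ha₆ hT h'' (cube_ne_self hX0 hX1 hXm) ((x - (-1)) * j) hi'
  have hy : y ≠ V.negY x y := by
    intro e
    apply hy0
    rw [negY, ha₁, ha₃] at e
    linear_combination 2 * e - y * h3
  obtain ⟨hD, eD⟩ := tangent V h hy ((-1) * x * w) _ _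
    (by
      try simp only [negY, ha₁, ha₂, ha₃, ha₄]
      linear_combination (-x ^ 2 * y * w) * h3 + (3 * x ^ 2 - 2 * x) * hw) rfl rfl
  have hre : φ (φ (Point.some x y h)) - (φ (Point.some x y h) + φ (Point.some x y h)) + (Point.some x y h + Point.some x y h + Point.some x y h)
      = φ (φ (Point.some x y h) + -Point.some x y h) + -(φ (Point.some x y h) + -Point.some x y h) + (Point.some x y h + Point.some x y h) := by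
    rw [map_add, map_neg]; abel
  rw [hre, e', eT, e'', eTT, eD]
  refine Point.add_of_Y_eq ?_ ?_
  · try simp only [negY, ha₁, ha₂, ha₃, ha₄]
    linear_combination (3 * x ^ 5 * i ^ 2 * j * w ^ 2 + 6 * x ^ 4 * i ^ 2 * j * w ^ 2 + 4 * x ^ 3 * i ^ 2 * j * w ^ 2 + x ^ 2 * i ^ 2 * j * w ^ 2 + 3 * x * i ^ 2 * j * w ^ 2 + 3 * i ^ 2 * j * w ^ 2) * hC + (x ^ 8 * i ^ 2 * j * w ^ 2 + x ^ 7 * i ^ 2 * j * w ^ 2 - x ^ 6 * i ^ 2 * j * w ^ 2 - 3 * x ^ 5 * i ^ 2 * j * w ^ 2 - 2 * x ^ 4 * i ^ 2 * j * w ^ 2 - x ^ 3 * i ^ 2 * j * w ^ 2 - x ^ 2 * i ^ 2 * j * w ^ 2 - x * i ^ 2 * j * w ^ 2 - i ^ 2 * j * w ^ 2) * h3 + (x ^ 3 * i * w ^ 2 - x ^ 2 * i * j + x ^ 2 * i * w ^ 2 - 2 * x ^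 2 * i + x ^ 2 * w ^ 2 - 2 * x * i * j - x * i - x * j - 2 * x - i * j + i - j + 1) * hi + (x ^ 4 * i ^ 2 * w ^ 2 + 2 * x ^ 3 * i ^ 2 * w ^ 2 - 2 * x ^ 3 * i ^ 2 + x ^ 2 * i ^ 2 * w ^ 2 - 3 * x ^ 2 * i ^ 2 + i ^ 2) * hj + (-3 * x ^ 5 * y * i ^ 2 * j * w - 3 * x ^ 5 * i ^ 2 * j - 6 * x ^ 4 * y * i ^ 2 * j * w - 6 * x ^ 4 * i ^ 2 * j - 4 * x ^ 3 * y * i ^ 2 * j * w - 4 * x ^ 3 * i ^ 2 * j - x ^ 2 * y * i ^ 2 * j * w - x ^ 2 * i ^ 2 * j - 3 * x * y * i ^ 2 * j * w - 3 * x * i ^ 2 * j - 3 * y * i ^ 2 * j * w - 3 * i ^ 2 * j) * hw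
  · try simp only [negY, ha₁, ha₂, ha₃, ha₄]
    linear_combination (-9 * x ^ 10 * i ^ 4 * j ^ 2 * w ^ 3 - 27 * x ^ 9 * i ^ 4 * j ^ 2 * w ^ 3 - 31 * x ^ 8 * i ^ 4 * j ^ 2 * w ^ 3 - 6 * x ^ 7 * y ^ 2 * i ^ 4 * j ^ 2 * w ^ 3 + 5 * x ^ 7 * i ^ 4 * j ^ 2 * w ^ 3 - 16 * x ^ 6 * y ^ 2 * i ^ 4 * j ^ 2 * w ^ 3 + 52 * x ^ 6 * i ^ 4 * j ^ 2 * w ^ 3 - 14 * x ^ 5 * y ^ 2 * i ^ 4 * j ^ 2 * w ^ 3 + 38 * x ^ 5 * i ^ 4 * j ^ 2 * w ^ 3 + 2 * x ^ 4 * y ^ 2 * i ^ 4 * j ^ 2 * w ^ 3 - 13 * x ^ 4 * i ^ 4 * j ^ 2 * w ^ 3 + 16 * x ^ 3 * y ^ 2 * i ^ 4 * j ^ 2 * w ^ 3 - 29 * x ^ 3 * i ^ 4 * j ^ 2 * w ^ 3 + 14 * x ^ 2 * y ^ 2 * i ^ 4 * j ^ 2 * w ^ 3 - 15 * x ^ 2 * i ^ 4 * j ^ 2 * w ^ 3 +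 4 * x * y ^ 2 * i ^ 4 * j ^ 2 * w ^ 3 - 3 * x * i ^ 4 * j ^ 2 * w ^ 3) * hC + (-3 * x ^ 13 * i ^ 4 * j ^ 2 * w ^ 3 - 6 * x ^ 12 * i ^ 4 * j ^ 2 * w ^ 3 - x ^ 11 * i ^ 4 * j ^ 2 * w ^ 3 + 17 * x ^ 10 * i ^ 4 * j ^ 2 * w ^ 3 + 29 * x ^ 9 * i ^ 4 * j ^ 2 * w ^ 3 + 9 * x ^ 8 * i ^ 4 * j ^ 2 * w ^ 3 - 20 * x ^ 7 * i ^ 4 * j ^ 2 * w ^ 3 - 26 * x ^ 6 * i ^ 4 * j ^ 2 * w ^ 3 - 9 * x ^ 5 * i ^ 4 * j ^ 2 * w ^ 3 + 9 * x ^ 4 * i ^ 4 * j ^ 2 * w ^ 3 + 11 * x ^ 3 * i ^ 4 * j ^ 2 * w ^ 3 + 5 * x ^ 2 * i ^ 4 * j ^ 2 * w ^ 3 + x * i ^ 4 * j ^ 2 * w ^ 3) * h3 + (x ^ 6 * y * i ^ 3 * j ^ 2 - x ^ 6 * i ^ 3 * w ^ 3 + 2 * x ^ 5 * y * i ^ 3 * j ^ 2 - 3 * x ^ 5 * i ^ 3 * w ^ 3 + 3 * x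 ^ 5 * i ^ 3 * w - x ^ 5 * i ^ 2 * w ^ 3 + x ^ 4 * y * i ^ 3 * j ^ 2 + x ^ 4 * y * i ^ 2 * j ^ 2 - 3 * x ^ 4 * i ^ 3 * w ^ 3 + 8 * x ^ 4 * i ^ 3 * w - 2 * x ^ 4 * i ^ 2 * w ^ 3 + 3 * x ^ 4 * i ^ 2 * w - x ^ 4 * i * w ^ 3 - 3 * x ^ 3 * y * i ^ 3 * j ^ 2 + x ^ 3 * y * i ^ 3 + x ^ 3 * y * i ^ 2 * j ^ 2 - x ^ 3 * i ^ 3 * w ^ 3 + 6 * x ^ 3 * i ^ 3 * w - x ^ 3 * i ^ 2 * w ^ 3 + 5 * x ^ 3 * i ^ 2 * w - x ^ 3 * i * w ^ 3 + 3 * x ^ 3 * i * w - x ^ 3 * w ^ 3 - 8 * x ^ 2 * y * i ^ 3 * j ^ 2 + 3 * x ^ 2 * y * i ^ 3 - 2 * x ^ 2 * y * i ^ 2 * j ^ 2 + x ^ 2 * y * i ^ 2 + x ^ 2 * i ^ 2 * w + 2 * x ^ 2 * i * w + 3 * x ^ 2 * w - 7 * x * y * i ^ 3 * j ^ 2 + 3 * x * y * i ^ 3 - 3 *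 x * y * i ^ 2 * j ^ 2 + 2 * x * y * i ^ 2 + x * y * i - x * i ^ 3 * w - x * i ^ 2 * w - x * i * w - x * w - 2 * y * i ^ 3 * j ^ 2 + y * i ^ 3 - y * i ^ 2 * j ^ 2 + y * i ^ 2 + y * i + y) * hi + (-x ^ 9 * i ^ 4 * j * w ^ 3 - 5 * x ^ 8 * i ^ 4 * j * w ^ 3 + 3 * x ^ 8 * i ^ 4 * j * w - 9 * x ^ 7 * i ^ 4 * j * w ^ 3 + 14 * x ^ 7 * i ^ 4 * j * w - x ^ 7 * i ^ 4 * w ^ 3 + x ^ 6 * y * i ^ 4 * j - 6 * x ^ 6 * i ^ 4 * j * w ^ 3 + 22 * x ^ 6 * i ^ 4 * j * w - 4 * x ^ 6 * i ^ 4 * w ^ 3 + 3 * x ^ 6 * i ^ 4 * w + 5 * x ^ 5 * y * i ^ 4 * j + x ^ 5 * i ^ 4 * j * w ^ 3 + 9 * x ^ 5 * i ^ 4 * j * w - 6 * x ^ 5 * i ^ 4 * w ^ 3 + 11 * x ^ 5 * i ^ 4 * w + 9 * x ^ 4 * y * i ^ 4 * j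 + x ^ 4 * y * i ^ 4 + 3 * x ^ 4 * i ^ 4 * j * w ^ 3 - 9 * x ^ 4 * i ^ 4 * j * w - 4 * x ^ 4 * i ^ 4 * w ^ 3 + 14 * x ^ 4 * i ^ 4 * w + 6 * x ^ 3 * y * i ^ 4 * j + 4 * x ^ 3 * y * i ^ 4 + x ^ 3 * i ^ 4 * j * w ^ 3 - 8 * x ^ 3 * i ^ 4 * j * w - x ^ 3 * i ^ 4 * w ^ 3 + 6 * x ^ 3 * i ^ 4 * w - x ^ 2 * y * i ^ 4 * j + 6 * x ^ 2 * y * i ^ 4 - x ^ 2 * i ^ 4 * w - 3 * x * y * i ^ 4 * j + 4 * x * y * i ^ 4 + x * i ^ 4 * j * w - x * i ^ 4 * w - y * i ^ 4 * j + y * i ^ 4) * hj + (3 * x ^ 10 * y * i ^ 4 * j ^ 2 * w ^ 2 + 3 * x ^ 10 * i ^ 4 * j ^ 2 * w + 17 * x ^ 9 * y * i ^ 4 * j ^ 2 * w ^ 2 + 17 * x ^ 9 * i ^ 4 * j ^ 2 * w + 33 * x ^ 8 * y * i ^ 4 * j ^ 2 * w ^ 2 + 33 * x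 ^ 8 * i ^ 4 * j ^ 2 * w + 6 * x ^ 7 * y ^ 3 * i ^ 4 * j ^ 2 * w ^ 2 + 6 * x ^ 7 * y ^ 2 * i ^ 4 * j ^ 2 * w + 17 * x ^ 7 * y * i ^ 4 * j ^ 2 * w ^ 2 + 6 * x ^ 7 * y * i ^ 4 * j ^ 2 + 17 * x ^ 7 * i ^ 4 * j ^ 2 * w + 16 * x ^ 6 * y ^ 3 * i ^ 4 * j ^ 2 * w ^ 2 + 16 * x ^ 6 * y ^ 2 * i ^ 4 * j ^ 2 * w - 22 * x ^ 6 * y * i ^ 4 * j ^ 2 * w ^ 2 + 16 * x ^ 6 * y * i ^ 4 * j ^ 2 - 22 * x ^ 6 * i ^ 4 * j ^ 2 * w + 14 * x ^ 5 * y ^ 3 * i ^ 4 * j ^ 2 * w ^ 2 + 14 * x ^ 5 * y ^ 2 * i ^ 4 * j ^ 2 * w - 26 * x ^ 5 * y * i ^ 4 * j ^ 2 * w ^ 2 + 14 * x ^ 5 * y * i ^ 4 * j ^ 2 - 26 * x ^ 5 * i ^ 4 * j ^ 2 * w - 2 * x ^ 4 * y ^ 3 * i ^ 4 * j ^ 2 * w ^ 2 - 2 * x ^ 4 * y ^ 2 * i ^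 4 * j ^ 2 * w + x ^ 4 * y * i ^ 4 * j ^ 2 * w ^ 2 - 2 * x ^ 4 * y * i ^ 4 * j ^ 2 + x ^ 4 * i ^ 4 * j ^ 2 * w - 16 * x ^ 3 * y ^ 3 * i ^ 4 * j ^ 2 * w ^ 2 - 16 * x ^ 3 * y ^ 2 * i ^ 4 * j ^ 2 * w + 9 * x ^ 3 * y * i ^ 4 * j ^ 2 * w ^ 2 - 16 * x ^ 3 * y * i ^ 4 * j ^ 2 + 9 * x ^ 3 * i ^ 4 * j ^ 2 * w - 14 * x ^ 2 * y ^ 3 * i ^ 4 * j ^ 2 * w ^ 2 - 14 * x ^ 2 * y ^ 2 * i ^ 4 * j ^ 2 * w + x ^ 2 * y * i ^ 4 * j ^ 2 * w ^ 2 - 14 * x ^ 2 * y * i ^ 4 * j ^ 2 + x ^ 2 * i ^ 4 * j ^ 2 * w - 4 * x * y ^ 3 * i ^ 4 * j ^ 2 * w ^ 2 - 4 * x * y ^ 2 * i ^ 4 * j ^ 2 * w - x * y * i ^ 4 * j ^ 2 * w ^ 2 - 4 * x * y * i ^ 4 * j ^ 2 - x * i ^ 4 * j ^ 2 * w) * hw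

/-- `θ = φ - 1` on the curve `y² = x³ + 1 x² + (-1)`. -/
theorem theta_pm (h3 : (3 : k) = 0)
    (ha₁ : V.a₁ = 0) (ha₂ : V.a₂ = 1) (ha₃ : V.a₃ = 0) (ha₄ : V.a₄ = 0) (ha₆ : V.a₆ = (-1))
    {x y : k} (h : V.Nonsingular x y) (h₁ : V.Nonsingular (x ^ 3) (y ^ 3)) (hx : x ^ 3 ≠ x)
    (i : k) (hi : (x - 1) * i = 1) :
    ∃ h' : V.Nonsingular ((x ^ 3 + x - 1) * i ^ 2) (-(1 * x ^ 3 - 1 * x + 1) * y * i ^ 3),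
      Point.some (x ^ 3) (y ^ 3) h₁ + -Point.some x y h = Point.some ((x ^ 3 + x - 1) * i ^ 2) (-(1 * x ^ 3 - 1 * x + 1) * y * i ^ 3) h' := by
  have hC : y ^ 2 = x ^ 3 + 1 * x ^ 2 + (-1) := by
    have := (equation_iff _ _).mp h.1
    rw [ha₁, ha₂, ha₃, ha₄, ha₆] at this
    linear_combination this
  rw [Point.neg_some]
  exact chord V h₁ _ hx (x * y * i) _ _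
    (by
      try simp only [negY, ha₁, ha₂, ha₃, ha₄]
      linear_combination (-x * y * i + y * i) * hC + (y ^ 3 + y) * hi)
    (by
      try simp only [negY, ha₁, ha₂, ha₃, ha₄]
      linear_combination (-x ^ 2 * i ^ 2) * hC + (-x ^ 4 * i ^ 2 + x ^ 3 * i ^ 2) * h3 + (-x ^ 4 * i + x ^ 3 * i - x ^ 3 - x ^ 2 * i - x + i - 1) * hi)
    (by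
      try simp only [negY, ha₁, ha₂, ha₃, ha₄]
      linear_combination (x ^ 3 * y * i ^ 3 - 3 * x ^ 2 * y * i ^ 3 + 3 * x * y * i ^ 3 - y * i ^ 3) * hC + (x ^ 2 * y * i ^ 3 - x * y * i ^ 3) * h3 + (x ^ 5 * y * i ^ 2 - x ^ 4 * y * i ^ 2 + x ^ 4 * y * i - x ^ 2 * y ^ 3 * i ^ 2 + 2 * x * y ^ 3 * i ^ 2 - x * y ^ 3 * i - y ^ 3 * i ^ 2 + y ^ 3 * i - y ^ 3) * hi)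

/-- The curve `y² = x³ + 1 x² + (-1)`: `φ² - φ + 3 = 0` at generic points. -/
theorem ord3_pm (h3 : (3 : k) = 0)
    (ha₁ : V.a₁ = 0) (ha₂ : V.a₂ = 1) (ha₃ : V.a₃ = 0) (ha₄ : V.a₄ = 0) (ha₆ : V.a₆ = (-1))
    (φ : V.Point →+ V.Point)
    (hφ : ∀ (x y : k) (h : V.Nonsingular x y),
      ∃ h' : V.Nonsingular (x ^ 3) (y ^ 3), φ (.some x y h) = .some (x ^ 3) (y ^ 3) h')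
    (x y : k) (h : V.Nonsingular x y) (hx0 : x ≠ 0) (hx1 : x ≠ 1) (hxm : x ≠ -1) (hy0 : y ≠ 0) :
    φ (φ (Point.some x y h)) - φ (Point.some x y h) + (Point.some x y h + Point.some x y h + Point.some x y h) = 0 := by
  have hC : y ^ 2 = x ^ 3 + 1 * x ^ 2 + (-1) := by
    have := (equation_iff _ _).mp h.1
    rw [ha₁, ha₂, ha₃, ha₄, ha₆] at this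
    linear_combination this
  obtain ⟨i, hi⟩ : ∃ i : k, (x - 1) * i = 1 :=
    ⟨(x - 1)⁻¹, mul_inv_cancel₀ (sub_ne_zero.mpr hx1)⟩
  obtain ⟨w, hw⟩ : ∃ w : k, y * w = 1 := ⟨y⁻¹, mul_inv_cancel₀ hy0⟩
  obtain ⟨h', e'⟩ := hφ x y h
  obtain ⟨hT, eT⟩ := theta_pm h3 ha₁ ha₂ ha₃ ha₄ ha₆ h h' (cube_ne_self hx0 hx1 hxm) i hi
  obtain ⟨h'', e''⟩ := hφ _ _ hT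
  have hy : y ≠ V.negY x y := by
    intro e
    apply hy0
    rw [negY, ha₁, ha₃] at e
    linear_combination 2 * e - y * h3
  obtain ⟨hD, eD⟩ := tangent V h hy (1 * x * w) _ _
    (by
      try simp only [negY, ha₁, ha₂, ha₃, ha₄]
      linear_combination (-x ^ 2 * y * w) * h3 + (3 * x ^ 2 + 2 * x) * hw) rfl rfl
  have hinv : (((1 * x * w) ^ 2 + V.a₁ * (1 * x * w) - V.a₂ - x - x) - x) * (-1 * y ^ 2 * i ^ 3) = 1 := by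
    try simp only [negY, ha₁, ha₂, ha₃, ha₄]
    linear_combination (3 * x ^ 4 * i ^ 3 * w ^ 2 + 3 * x ^ 3 * i ^ 3 * w ^ 2 + 3 * x ^ 2 * i ^ 3 * w ^ 2 + 3 * x * y ^ 2 * i ^ 3 * w ^ 2 - 6 * x * i ^ 3 * w ^ 2 + y ^ 2 * i ^ 3 * w ^ 2) * hC + (x ^ 7 * i ^ 3 * w ^ 2 + 2 * x ^ 6 * i ^ 3 * w ^ 2 + 2 * x ^ 5 * i ^ 3 * w ^ 2 - 2 * x ^ 4 * i ^ 3 * w ^ 2 - 3 * x ^ 3 * i ^ 3 * w ^ 2 - x ^ 2 * i ^ 3 * w ^ 2 + 2 * x * i ^ 3 * w ^ 2) * h3 + (x ^ 2 * i ^ 2 - 2 * x * i ^ 2 + x * i + i ^ 2 - i + 1) * hi + (x ^ 3 * y * i ^ 3 * w + x ^ 3 * i ^ 3 - 3 * x ^ 2 * y * i ^ 3 * w - 3 * x ^ 2 * i ^ 3 - 3 * x * y ^ 3 * i ^ 3 * w - 3 * x * y ^ 2 * i ^ 3 + 3 * x * y * i ^ 3 * w + 3 * x * i ^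 3 - y ^ 3 * i ^ 3 * w - y ^ 2 * i ^ 3 - y * i ^ 3 * w - i ^ 3) * hw
  have hxD : ((1 * x * w) ^ 2 + V.a₁ * (1 * x * w) - V.a₂ - x - x) ≠ x := by
    intro e
    rw [e, sub_self, zero_mul] at hinv
    exact zero_ne_one hinv
  obtain ⟨h3P, e3P⟩ := chord V hD h hxD (((-((1 * x * w) * (((1 * x * w) ^ 2 + V.a₁ * (1 * x * w) - V.a₂ - x - x) - x) + y) - V.a₁ * ((1 * x * w) ^ 2 + V.a₁ * (1 * x * w) - V.a₂ - x - x) - V.a₃) - y) * (-1 * y ^ 2 * i ^ 3)) _ _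
    (by
      try simp only [negY, ha₁, ha₂, ha₃, ha₄]
      linear_combination (-6 * x ^ 10 * i ^ 3 * w ^ 5 - 9 * x ^ 9 * i ^ 3 * w ^ 5 - 3 * x ^ 8 * i ^ 3 * w ^ 5 - 6 * x ^ 7 * y ^ 2 * i ^ 3 * w ^ 5 + 27 * x ^ 7 * i ^ 3 * w ^ 5 - 3 * x ^ 6 * y ^ 2 * i ^ 3 * w ^ 5 + 27 * x ^ 6 * i ^ 3 * w ^ 5 - 6 * x ^ 4 * y ^ 4 * i ^ 3 * w ^ 5 + 21 * x ^ 4 * y ^ 2 * i ^ 3 * w ^ 5 - 30 * x ^ 4 * i ^ 3 * w ^ 5 + 3 * x ^ 3 * y ^ 4 * i ^ 3 * w ^ 5 + 2 * x ^ 3 * y ^ 2 * i ^ 3 * w ^ 5 - 15 * x ^ 3 * i ^ 3 * w ^ 5 - 6 * x * y ^ 6 * i ^ 3 * w ^ 5 + 13 * x * y ^ 4 * i ^ 3 * w ^ 5 - 12 * x * y ^ 2 * i ^ 3 * w ^ 5 + 12 * x * i ^ 3 * w ^ 5 - 2 * y ^ 6 * i ^ 3 * w ^ 5) * hC + (-2 * x ^ 13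 * i ^ 3 * w ^ 5 - 5 * x ^ 12 * i ^ 3 * w ^ 5 - 4 * x ^ 11 * i ^ 3 * w ^ 5 + 10 * x ^ 10 * i ^ 3 * w ^ 5 + 21 * x ^ 9 * i ^ 3 * w ^ 5 + 10 * x ^ 8 * i ^ 3 * w ^ 5 - 19 * x ^ 7 * i ^ 3 * w ^ 5 - 24 * x ^ 6 * i ^ 3 * w ^ 5 - 5 * x ^ 5 * i ^ 3 * w ^ 5 + 14 * x ^ 4 * i ^ 3 * w ^ 5 + 9 * x ^ 3 * i ^ 3 * w ^ 5 - 4 * x * i ^ 3 * w ^ 5) * h3 + (-x ^ 5 * i ^ 2 * w ^ 3 + 2 * x ^ 4 * i ^ 2 * w ^ 3 + 3 * x ^ 4 * i ^ 2 * w - x ^ 4 * i * w ^ 3 - x ^ 3 * i ^ 2 * w ^ 3 - 5 * x ^ 3 * i ^ 2 * w + x ^ 3 * i * w ^ 3 + 3 * x ^ 3 * i * w - x ^ 3 * w ^ 3 - 2 * x ^ 2 * y * i ^ 2 + x ^ 2 * i ^ 2 * w - 2 * x ^ 2 * i * w + 3 * x ^ 2 * w + 4 * x * y * i ^ 2 - 2 * x * y * i + x * i ^ 2 * w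 - x * i * w + x * w - 2 * y * i ^ 2 + 2 * y * i - 2 * y) * hi + (-x ^ 6 * y * i ^ 3 * w ^ 4 - x ^ 6 * i ^ 3 * w ^ 3 + 3 * x ^ 5 * y ^ 3 * i ^ 3 * w ^ 4 + 3 * x ^ 5 * y ^ 2 * i ^ 3 * w ^ 3 + 3 * x ^ 5 * y * i ^ 3 * w ^ 4 + 3 * x ^ 5 * y * i ^ 3 * w ^ 2 + 3 * x ^ 5 * i ^ 3 * w ^ 3 + 3 * x ^ 5 * i ^ 3 * w - 2 * x ^ 4 * y ^ 3 * i ^ 3 * w ^ 4 - 2 * x ^ 4 * y ^ 2 * i ^ 3 * w ^ 3 - 3 * x ^ 4 * y * i ^ 3 * w ^ 4 - 8 * x ^ 4 * y * i ^ 3 * w ^ 2 - 3 * x ^ 4 * i ^ 3 * w ^ 3 - 8 * x ^ 4 * i ^ 3 * w - 11 * x ^ 3 * y ^ 5 * i ^ 3 * w ^ 4 - 11 * x ^ 3 * y ^ 4 * i ^ 3 * w ^ 3 + 8 * x ^ 3 * y ^ 3 * i ^ 3 * w ^ 4 - 11 * x ^ 3 * y ^ 3 * i ^ 3 * w ^ 2 + 8 * x ^ 3 * y ^ 2 * i ^ 3 *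 w ^ 3 - 11 * x ^ 3 * y ^ 2 * i ^ 3 * w + x ^ 3 * y * i ^ 3 * w ^ 4 + 6 * x ^ 3 * y * i ^ 3 * w ^ 2 - 2 * x ^ 3 * y * i ^ 3 + x ^ 3 * i ^ 3 * w ^ 3 + 6 * x ^ 3 * i ^ 3 * w - 2 * x ^ 2 * y ^ 5 * i ^ 3 * w ^ 4 - 2 * x ^ 2 * y ^ 4 * i ^ 3 * w ^ 3 - 2 * x ^ 2 * y ^ 3 * i ^ 3 * w ^ 2 + 6 * x ^ 2 * y * i ^ 3 + 6 * x * y ^ 7 * i ^ 3 * w ^ 4 + 6 * x * y ^ 6 * i ^ 3 * w ^ 3 - 7 * x * y ^ 5 * i ^ 3 * w ^ 4 + 6 * x * y ^ 5 * i ^ 3 * w ^ 2 - 7 * x * y ^ 4 * i ^ 3 * w ^ 3 + 6 * x * y ^ 4 * i ^ 3 * w - x * y ^ 3 * i ^ 3 * w ^ 4 - 7 * x * y ^ 3 * i ^ 3 * w ^ 2 + 6 * x * y ^ 3 * i ^ 3 - x * y ^ 2 * i ^ 3 * w ^ 3 - 7 * x * y ^ 2 * i ^ 3 * w - x * y * i ^ 3 * w ^ 2 - 6 * x * y *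 i ^ 3 - x * i ^ 3 * w + 2 * y ^ 7 * i ^ 3 * w ^ 4 + 2 * y ^ 6 * i ^ 3 * w ^ 3 + 2 * y ^ 5 * i ^ 3 * w ^ 4 + 2 * y ^ 5 * i ^ 3 * w ^ 2 + 2 * y ^ 4 * i ^ 3 * w ^ 3 + 2 * y ^ 4 * i ^ 3 * w + 2 * y ^ 3 * i ^ 3 * w ^ 2 + 2 * y ^ 3 * i ^ 3 + 2 * y ^ 2 * i ^ 3 * w + 2 * y * i ^ 3) * hw) rfl rfl
  have hre : φ (φ (Point.some x y h)) - φ (Point.some x y h) + (Point.some x y h + Point.some x y h + Point.some x y h)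
      = φ (φ (Point.some x y h) + -Point.some x y h) + (Point.some x y h + Point.some x y h + Point.some x y h) := by
    rw [map_add, map_neg]; abel
  rw [hre, e', eT, e'', eD, e3P]
  refine Point.add_of_Y_eq ?_ ?_
  · try simp only [negY, ha₁, ha₂, ha₃, ha₄]
    linear_combination (-3 * x ^ 15 * i ^ 6 * w ^ 6 - 6 * x ^ 14 * i ^ 6 * w ^ 6 + 6 * x ^ 13 * i ^ 6 * w ^ 6 - 3 * x ^ 12 * y ^ 2 * i ^ 6 * w ^ 6 + 36 * x ^ 12 * i ^ 6 * w ^ 6 - 3 * x ^ 11 * y ^ 2 * i ^ 6 * w ^ 6 + 27 * x ^ 11 * i ^ 6 * w ^ 6 + 9 * x ^ 10 * y ^ 2 * i ^ 6 * w ^ 6 - 33 * x ^ 10 * i ^ 6 * w ^ 6 - 3 * x ^ 9 * y ^ 4 * i ^ 6 * w ^ 6 + 24 * x ^ 9 * y ^ 2 * i ^ 6 * w ^ 6 - 63 * x ^ 9 * i ^ 6 * w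 ^ 6 - 39 * x ^ 8 * i ^ 6 * w ^ 6 + 9 * x ^ 7 * y ^ 4 * i ^ 6 * w ^ 6 - 24 * x ^ 7 * y ^ 2 * i ^ 6 * w ^ 6 + 21 * x ^ 7 * i ^ 6 * w ^ 6 - 4 * x ^ 6 * y ^ 6 * i ^ 6 * w ^ 6 + 12 * x ^ 6 * y ^ 4 * i ^ 6 * w ^ 6 - 15 * x ^ 6 * y ^ 2 * i ^ 6 * w ^ 6 + 60 * x ^ 6 * i ^ 6 * w ^ 6 + 4 * x ^ 5 * y ^ 6 * i ^ 6 * w ^ 6 - 13 * x ^ 5 * y ^ 4 * i ^ 6 * w ^ 6 - 24 * x ^ 5 * y ^ 2 * i ^ 6 * w ^ 6 + 48 * x ^ 5 * i ^ 6 * w ^ 6 + 3 * x ^ 4 * y ^ 6 * i ^ 6 * w ^ 6 + 4 * x ^ 4 * y ^ 4 * i ^ 6 * w ^ 6 + 21 * x ^ 4 * y ^ 2 * i ^ 6 * w ^ 6 - 27 * x ^ 4 * i ^ 6 * w ^ 6 - 4 * x ^ 3 * y ^ 8 * i ^ 6 * w ^ 6 + 2 * x ^ 3 * y ^ 6 * i ^ 6 * w ^ 6 - 21 * x ^ 3 * y ^ 4 * i ^ 6 * w ^ 6 + 24 * x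 ^ 3 * y ^ 2 * i ^ 6 * w ^ 6 - 33 * x ^ 3 * i ^ 6 * w ^ 6 + 8 * x ^ 2 * y ^ 8 * i ^ 6 * w ^ 6 - 5 * x ^ 2 * y ^ 6 * i ^ 6 * w ^ 6 + 4 * x ^ 2 * y ^ 4 * i ^ 6 * w ^ 6 - 3 * x ^ 2 * i ^ 6 * w ^ 6 + 4 * x * y ^ 8 * i ^ 6 * w ^ 6 - 4 * x * y ^ 6 * i ^ 6 * w ^ 6 + 6 * x * y ^ 4 * i ^ 6 * w ^ 6 - 6 * x * y ^ 2 * i ^ 6 * w ^ 6 + 6 * x * i ^ 6 * w ^ 6 - 4 * y ^ 10 * i ^ 6 * w ^ 6 + 4 * y ^ 8 * i ^ 6 * w ^ 6 - 4 * y ^ 6 * i ^ 6 * w ^ 6 + 3 * y ^ 4 * i ^ 6 * w ^ 6 - 3 * y ^ 2 * i ^ 6 * w ^ 6 + 3 * i ^ 6 * w ^ 6) * hC + (-x ^ 18 * i ^ 6 * w ^ 6 - 3 * x ^ 17 * i ^ 6 * w ^ 6 + 15 * x ^ 15 * i ^ 6 * w ^ 6 + 23 * x ^ 14 * i ^ 6 * w ^ 6 - 4 * x ^ 13 * i ^ 6 * w ^ 6 - 44 * x ^ 12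 * i ^ 6 * w ^ 6 - 43 * x ^ 11 * i ^ 6 * w ^ 6 + 5 * x ^ 10 * i ^ 6 * w ^ 6 + 48 * x ^ 9 * i ^ 6 * w ^ 6 + 49 * x ^ 8 * i ^ 6 * w ^ 6 - 40 * x ^ 6 * i ^ 6 * w ^ 6 - 28 * x ^ 5 * i ^ 6 * w ^ 6 + 10 * x ^ 4 * i ^ 6 * w ^ 6 + 14 * x ^ 3 * i ^ 6 * w ^ 6 + 2 * x ^ 2 * i ^ 6 * w ^ 6 - 2 * x * i ^ 6 * w ^ 6 - i ^ 6 * w ^ 6) * h3 + (-x ^ 7 * i ^ 5 * w ^ 2 + 5 * x ^ 6 * i ^ 5 * w ^ 2 + x ^ 6 * i ^ 5 - x ^ 6 * i ^ 4 * w ^ 2 - 10 * x ^ 5 * i ^ 5 * w ^ 2 - 5 * x ^ 5 * i ^ 5 + 4 * x ^ 5 * i ^ 4 * w ^ 2 + x ^ 5 * i ^ 4 - x ^ 5 * i ^ 3 * w ^ 2 + 10 * x ^ 4 * i ^ 5 * w ^ 2 + 10 * x ^ 4 * i ^ 5 - 6 * x ^ 4 * i ^ 4 * w ^ 2 - 4 * x ^ 4 * i ^ 4 + 3 * x ^ 4 * i ^ 3 * w ^ 2 + x ^ 4 *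 i ^ 3 - x ^ 4 * i ^ 2 * w ^ 2 - 5 * x ^ 3 * i ^ 5 * w ^ 2 - 10 * x ^ 3 * i ^ 5 + 4 * x ^ 3 * i ^ 4 * w ^ 2 + 6 * x ^ 3 * i ^ 4 - 3 * x ^ 3 * i ^ 3 * w ^ 2 - 3 * x ^ 3 * i ^ 3 + 2 * x ^ 3 * i ^ 2 * w ^ 2 + x ^ 3 * i ^ 2 - x ^ 3 * i * w ^ 2 + x ^ 2 * i ^ 5 * w ^ 2 + 5 * x ^ 2 * i ^ 5 - x ^ 2 * i ^ 4 * w ^ 2 - 4 * x ^ 2 * i ^ 4 + x ^ 2 * i ^ 3 * w ^ 2 + 3 * x ^ 2 * i ^ 3 - x ^ 2 * i ^ 2 * w ^ 2 - 2 * x ^ 2 * i ^ 2 + x ^ 2 * i * w ^ 2 + x ^ 2 * i - x ^ 2 * w ^ 2 - x * i ^ 5 + x * i ^ 4 - x * i ^ 3 + x * i ^ 2 - x * i + x) * hi + (-x ^ 9 * y ^ 5 * i ^ 6 * w ^ 5 - x ^ 9 * y ^ 4 * i ^ 6 * w ^ 4 - x ^ 9 * y ^ 3 * i ^ 6 * w ^ 3 - x ^ 9 * y ^ 2 * i ^ 6 * w ^ 2 - x ^ 9 *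 y * i ^ 6 * w - x ^ 9 * i ^ 6 - x ^ 8 * y ^ 3 * i ^ 6 * w ^ 5 - x ^ 8 * y ^ 2 * i ^ 6 * w ^ 4 - x ^ 8 * y * i ^ 6 * w ^ 3 - x ^ 8 * i ^ 6 * w ^ 2 - 2 * x ^ 7 * y ^ 5 * i ^ 6 * w ^ 5 - 2 * x ^ 7 * y ^ 4 * i ^ 6 * w ^ 4 + 6 * x ^ 7 * y ^ 3 * i ^ 6 * w ^ 5 - 2 * x ^ 7 * y ^ 3 * i ^ 6 * w ^ 3 + 6 * x ^ 7 * y ^ 2 * i ^ 6 * w ^ 4 - 2 * x ^ 7 * y ^ 2 * i ^ 6 * w ^ 2 + 6 * x ^ 7 * y * i ^ 6 * w ^ 3 - 2 * x ^ 7 * y * i ^ 6 * w + 6 * x ^ 7 * i ^ 6 * w ^ 2 - 2 * x ^ 7 * i ^ 6 - 3 * x ^ 6 * y ^ 5 * i ^ 6 * w ^ 5 - 3 * x ^ 6 * y ^ 4 * i ^ 6 * w ^ 4 - 15 * x ^ 6 * y ^ 3 * i ^ 6 * w ^ 5 - 3 * x ^ 6 * y ^ 3 * i ^ 6 * w ^ 3 - 15 * x ^ 6 * y ^ 2 * i ^ 6 * w ^ 4 - 3 * x ^ 6 * y ^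 2 * i ^ 6 * w ^ 2 - 15 * x ^ 6 * y * i ^ 6 * w ^ 3 - 3 * x ^ 6 * y * i ^ 6 * w - 15 * x ^ 6 * i ^ 6 * w ^ 2 - 3 * x ^ 6 * i ^ 6 + 6 * x ^ 5 * y ^ 5 * i ^ 6 * w ^ 5 + 6 * x ^ 5 * y ^ 4 * i ^ 6 * w ^ 4 + 20 * x ^ 5 * y ^ 3 * i ^ 6 * w ^ 5 + 12 * x ^ 5 * y ^ 3 * i ^ 6 * w ^ 3 + 20 * x ^ 5 * y ^ 2 * i ^ 6 * w ^ 4 + 12 * x ^ 5 * y ^ 2 * i ^ 6 * w ^ 2 + 20 * x ^ 5 * y * i ^ 6 * w ^ 3 + 12 * x ^ 5 * y * i ^ 6 * w + 20 * x ^ 5 * i ^ 6 * w ^ 2 + 12 * x ^ 5 * i ^ 6 + 9 * x ^ 4 * y ^ 7 * i ^ 6 * w ^ 5 + 9 * x ^ 4 * y ^ 6 * i ^ 6 * w ^ 4 - 16 * x ^ 4 * y ^ 5 * i ^ 6 * w ^ 5 + 9 * x ^ 4 * y ^ 5 * i ^ 6 * w ^ 3 - 16 * x ^ 4 * y ^ 4 * i ^ 6 * w ^ 4 + 9 * x ^ 4 * y ^ 4 * i ^ 6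 * w ^ 2 - 15 * x ^ 4 * y ^ 3 * i ^ 6 * w ^ 5 - 14 * x ^ 4 * y ^ 3 * i ^ 6 * w ^ 3 - 15 * x ^ 4 * y ^ 2 * i ^ 6 * w ^ 4 - 14 * x ^ 4 * y ^ 2 * i ^ 6 * w ^ 2 - 15 * x ^ 4 * y * i ^ 6 * w ^ 3 - 14 * x ^ 4 * y * i ^ 6 * w - 15 * x ^ 4 * i ^ 6 * w ^ 2 - 14 * x ^ 4 * i ^ 6 + 10 * x ^ 3 * y ^ 7 * i ^ 6 * w ^ 5 + 10 * x ^ 3 * y ^ 6 * i ^ 6 * w ^ 4 + 11 * x ^ 3 * y ^ 5 * i ^ 6 * w ^ 5 + 10 * x ^ 3 * y ^ 5 * i ^ 6 * w ^ 3 + 11 * x ^ 3 * y ^ 4 * i ^ 6 * w ^ 4 + 6 * x ^ 3 * y ^ 4 * i ^ 6 * w ^ 2 + 6 * x ^ 3 * y ^ 3 * i ^ 6 * w ^ 5 + 11 * x ^ 3 * y ^ 3 * i ^ 6 * w ^ 3 + 6 * x ^ 3 * y ^ 2 * i ^ 6 * w ^ 4 + 11 * x ^ 3 * y ^ 2 * i ^ 6 * w ^ 2 + 6 * x ^ 3 * y * i ^ 6 * w ^ 3 +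 11 * x ^ 3 * y * i ^ 6 * w + 6 * x ^ 3 * i ^ 6 * w ^ 2 + 11 * x ^ 3 * i ^ 6 - 12 * x ^ 2 * y ^ 9 * i ^ 6 * w ^ 5 - 12 * x ^ 2 * y ^ 8 * i ^ 6 * w ^ 4 + x ^ 2 * y ^ 7 * i ^ 6 * w ^ 5 - 12 * x ^ 2 * y ^ 7 * i ^ 6 * w ^ 3 + x ^ 2 * y ^ 6 * i ^ 6 * w ^ 4 - 12 * x ^ 2 * y ^ 6 * i ^ 6 * w ^ 2 - 3 * x ^ 2 * y ^ 5 * i ^ 6 * w ^ 5 + x ^ 2 * y ^ 5 * i ^ 6 * w ^ 3 - 12 * x ^ 2 * y ^ 5 * i ^ 6 * w - 3 * x ^ 2 * y ^ 4 * i ^ 6 * w ^ 4 + x ^ 2 * y ^ 4 * i ^ 6 * w ^ 2 - x ^ 2 * y ^ 3 * i ^ 6 * w ^ 5 - 3 * x ^ 2 * y ^ 3 * i ^ 6 * w ^ 3 - x ^ 2 * y ^ 2 * i ^ 6 * w ^ 4 - 3 * x ^ 2 * y ^ 2 * i ^ 6 * w ^ 2 - x ^ 2 * y * i ^ 6 * w ^ 3 - 3 * x ^ 2 * y * i ^ 6 * w - x ^ 2 * i ^ 6 * w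 ^ 2 - 3 * x ^ 2 * i ^ 6 - 4 * x * y ^ 9 * i ^ 6 * w ^ 5 - 4 * x * y ^ 8 * i ^ 6 * w ^ 4 - 4 * x * y ^ 7 * i ^ 6 * w ^ 3 - 4 * x * y ^ 6 * i ^ 6 * w ^ 2 - 2 * x * y ^ 5 * i ^ 6 * w ^ 5 - 4 * x * y ^ 5 * i ^ 6 * w - 2 * x * y ^ 4 * i ^ 6 * w ^ 4 - 2 * x * y ^ 3 * i ^ 6 * w ^ 3 - 2 * x * y ^ 2 * i ^ 6 * w ^ 2 - 2 * x * y * i ^ 6 * w - 2 * x * i ^ 6 + 4 * y ^ 11 * i ^ 6 * w ^ 5 + 4 * y ^ 10 * i ^ 6 * w ^ 4 + 4 * y ^ 9 * i ^ 6 * w ^ 3 + 4 * y ^ 8 * i ^ 6 * w ^ 2 + 4 * y ^ 7 * i ^ 6 * w + 4 * y ^ 6 * i ^ 6 + y ^ 5 * i ^ 6 * w ^ 5 + y ^ 4 * i ^ 6 * w ^ 4 + y ^ 3 * i ^ 6 * w ^ 3 + y ^ 2 * i ^ 6 * w ^ 2 + y * i ^ 6 * w + i ^ 6) * hw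
  · try simp only [negY, ha₁, ha₂, ha₃, ha₄]
    linear_combination (-9 * x ^ 24 * i ^ 9 * w ^ 9 - 33 * x ^ 23 * i ^ 9 * w ^ 9 - 27 * x ^ 22 * i ^ 9 * w ^ 9 - 9 * x ^ 21 * y ^ 2 * i ^ 9 * w ^ 9 + 132 * x ^ 21 * i ^ 9 * w ^ 9 - 24 * x ^ 20 * y ^ 2 * i ^ 9 * w ^ 9 + 285 * x ^ 20 * i ^ 9 * w ^ 9 - 3 * x ^ 19 * y ^ 2 * i ^ 9 * w ^ 9 + 30 * x ^ 19 * i ^ 9 * w ^ 9 - 9 * x ^ 18 * y ^ 4 * i ^ 9 * w ^ 9 + 126 * x ^ 18 * y ^ 2 * i ^ 9 * w ^ 9 - 696 * x ^ 18 * i ^ 9 * w ^ 9 - 15 * x ^ 17 * y ^ 4 * i ^ 9 * w ^ 9 + 135 * x ^ 17 * y ^ 2 * i ^ 9 * w ^ 9 - 723 * x ^ 17 * i ^ 9 * w ^ 9 + 12 * x ^ 16 * y ^ 4 * i ^ 9 * w ^ 9 - 108 * x ^ 16 * y ^ 2 * i ^ 9 * w ^ 9 + 273 * x ^ 16 *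 i ^ 9 * w ^ 9 - 9 * x ^ 15 * y ^ 6 * i ^ 9 * w ^ 9 + 105 * x ^ 15 * y ^ 4 * i ^ 9 * w ^ 9 - 462 * x ^ 15 * y ^ 2 * i ^ 9 * w ^ 9 + 1248 * x ^ 15 * i ^ 9 * w ^ 9 - 6 * x ^ 14 * y ^ 6 * i ^ 9 * w ^ 9 + 15 * x ^ 14 * y ^ 4 * i ^ 9 * w ^ 9 - 126 * x ^ 14 * y ^ 2 * i ^ 9 * w ^ 9 + 726 * x ^ 14 * i ^ 9 * w ^ 9 + 18 * x ^ 13 * y ^ 6 * i ^ 9 * w ^ 9 - 111 * x ^ 13 * y ^ 4 * i ^ 9 * w ^ 9 + 291 * x ^ 13 * y ^ 2 * i ^ 9 * w ^ 9 - 162 * x ^ 13 * i ^ 9 * w ^ 9 - 9 * x ^ 12 * y ^ 8 * i ^ 9 * w ^ 9 + 78 * x ^ 12 * y ^ 6 * i ^ 9 * w ^ 9 - 246 * x ^ 12 * y ^ 4 * i ^ 9 * w ^ 9 + 495 * x ^ 12 * y ^ 2 * i ^ 9 * w ^ 9 - 966 * x ^ 12 * i ^ 9 * w ^ 9 + 3 * x ^ 11 * y ^ 8 * i ^ 9 * w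 ^ 9 - 69 * x ^ 11 * y ^ 6 * i ^ 9 * w ^ 9 + 135 * x ^ 11 * y ^ 4 * i ^ 9 * w ^ 9 + 105 * x ^ 11 * y ^ 2 * i ^ 9 * w ^ 9 - 927 * x ^ 11 * i ^ 9 * w ^ 9 + 15 * x ^ 10 * y ^ 8 * i ^ 9 * w ^ 9 - 24 * x ^ 10 * y ^ 6 * i ^ 9 * w ^ 9 + 45 * x ^ 10 * y ^ 4 * i ^ 9 * w ^ 9 + 24 * x ^ 10 * y ^ 2 * i ^ 9 * w ^ 9 - 369 * x ^ 10 * i ^ 9 * w ^ 9 - 9 * x ^ 9 * y ^ 10 * i ^ 9 * w ^ 9 + 54 * x ^ 9 * y ^ 8 * i ^ 9 * w ^ 9 - 145 * x ^ 9 * y ^ 6 * i ^ 9 * w ^ 9 + 204 * x ^ 9 * y ^ 4 * i ^ 9 * w ^ 9 - 495 * x ^ 9 * y ^ 2 * i ^ 9 * w ^ 9 + 936 * x ^ 9 * i ^ 9 * w ^ 9 + 12 * x ^ 8 * y ^ 10 * i ^ 9 * w ^ 9 - 117 * x ^ 8 * y ^ 8 * i ^ 9 * w ^ 9 + 218 * x ^ 8 * y ^ 6 * i ^ 9 * w ^ 9 + 36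 * x ^ 8 * y ^ 4 * i ^ 9 * w ^ 9 - 327 * x ^ 8 * y ^ 2 * i ^ 9 * w ^ 9 + 876 * x ^ 8 * i ^ 9 * w ^ 9 + 3 * x ^ 7 * y ^ 10 * i ^ 9 * w ^ 9 + 91 * x ^ 7 * y ^ 8 * i ^ 9 * w ^ 9 - 221 * x ^ 7 * y ^ 6 * i ^ 9 * w ^ 9 + 33 * x ^ 7 * y ^ 4 * i ^ 9 * w ^ 9 - 18 * x ^ 7 * y ^ 2 * i ^ 9 * w ^ 9 + 84 * x ^ 7 * i ^ 9 * w ^ 9 - 8 * x ^ 6 * y ^ 12 * i ^ 9 * w ^ 9 + 32 * x ^ 6 * y ^ 10 * i ^ 9 * w ^ 9 - 134 * x ^ 6 * y ^ 8 * i ^ 9 * w ^ 9 + 335 * x ^ 6 * y ^ 6 * i ^ 9 * w ^ 9 - 324 * x ^ 6 * y ^ 4 * i ^ 9 * w ^ 9 + 459 * x ^ 6 * y ^ 2 * i ^ 9 * w ^ 9 - 654 * x ^ 6 * i ^ 9 * w ^ 9 + 20 * x ^ 5 * y ^ 12 * i ^ 9 * w ^ 9 - 84 * x ^ 5 * y ^ 10 * i ^ 9 * w ^ 9 + 127 * x ^ 5 * y ^ 8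 * i ^ 9 * w ^ 9 - 167 * x ^ 5 * y ^ 6 * i ^ 9 * w ^ 9 + 33 * x ^ 5 * y ^ 4 * i ^ 9 * w ^ 9 + 90 * x ^ 5 * y ^ 2 * i ^ 9 * w ^ 9 - 237 * x ^ 5 * i ^ 9 * w ^ 9 - 14 * x ^ 4 * y ^ 12 * i ^ 9 * w ^ 9 + 93 * x ^ 4 * y ^ 10 * i ^ 9 * w ^ 9 - 101 * x ^ 4 * y ^ 8 * i ^ 9 * w ^ 9 + 75 * x ^ 4 * y ^ 6 * i ^ 9 * w ^ 9 - 18 * x ^ 4 * y ^ 4 * i ^ 9 * w ^ 9 - 24 * x ^ 4 * y ^ 2 * i ^ 9 * w ^ 9 + 60 * x ^ 4 * i ^ 9 * w ^ 9 - 8 * x ^ 3 * y ^ 14 * i ^ 9 * w ^ 9 - 20 * x ^ 3 * y ^ 12 * i ^ 9 * w ^ 9 - 51 * x ^ 3 * y ^ 10 * i ^ 9 * w ^ 9 + 125 * x ^ 3 * y ^ 8 * i ^ 9 * w ^ 9 - 136 * x ^ 3 * y ^ 6 * i ^ 9 * w ^ 9 + 153 * x ^ 3 * y ^ 4 * i ^ 9 * w ^ 9 - 171 * x ^ 3 * y ^ 2 * i ^ 9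 * w ^ 9 + 189 * x ^ 3 * i ^ 9 * w ^ 9 + 28 * x ^ 2 * y ^ 14 * i ^ 9 * w ^ 9 - 26 * x ^ 2 * y ^ 12 * i ^ 9 * w ^ 9 + 21 * x ^ 2 * y ^ 10 * i ^ 9 * w ^ 9 - 48 * x ^ 2 * y ^ 8 * i ^ 9 * w ^ 9 + 36 * x ^ 2 * y ^ 6 * i ^ 9 * w ^ 9 - 30 * x ^ 2 * y ^ 4 * i ^ 9 * w ^ 9 + 24 * x ^ 2 * y ^ 2 * i ^ 9 * w ^ 9 - 18 * x ^ 2 * i ^ 9 * w ^ 9 + 12 * x * y ^ 14 * i ^ 9 * w ^ 9 - 12 * x * y ^ 12 * i ^ 9 * w ^ 9 + 21 * x * y ^ 10 * i ^ 9 * w ^ 9 - 11 * x * y ^ 8 * i ^ 9 * w ^ 9 + 12 * x * y ^ 6 * i ^ 9 * w ^ 9 - 12 * x * y ^ 4 * i ^ 9 * w ^ 9 + 12 * x * y ^ 2 * i ^ 9 * w ^ 9 - 12 * x * i ^ 9 * w ^ 9 - 8 * y ^ 16 * i ^ 9 * w ^ 9 + 8 * y ^ 14 * i ^ 9 * w ^ 9 - 8 * y ^ 12 * i ^ 9 *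 w ^ 9 + 5 * y ^ 10 * i ^ 9 * w ^ 9 - 6 * y ^ 8 * i ^ 9 * w ^ 9 + 6 * y ^ 6 * i ^ 9 * w ^ 9 - 6 * y ^ 4 * i ^ 9 * w ^ 9 + 6 * y ^ 2 * i ^ 9 * w ^ 9 - 6 * i ^ 9 * w ^ 9) * hC + (-3 * x ^ 27 * i ^ 9 * w ^ 9 - 14 * x ^ 26 * i ^ 9 * w ^ 9 - 20 * x ^ 25 * i ^ 9 * w ^ 9 + 38 * x ^ 24 * i ^ 9 * w ^ 9 + 150 * x ^ 23 * i ^ 9 * w ^ 9 + 114 * x ^ 22 * i ^ 9 * w ^ 9 - 266 * x ^ 21 * i ^ 9 * w ^ 9 - 568 * x ^ 20 * i ^ 9 * w ^ 9 - 160 * x ^ 19 * i ^ 9 * w ^ 9 + 739 * x ^ 18 * i ^ 9 * w ^ 9 + 899 * x ^ 17 * i ^ 9 * w ^ 9 + 97 * x ^ 16 * i ^ 9 * w ^ 9 - 792 * x ^ 15 * i ^ 9 * w ^ 9 - 873 * x ^ 14 * i ^ 9 * w ^ 9 - 378 * x ^ 13 * i ^ 9 * w ^ 9 + 511 * x ^ 12 * i ^ 9 * w ^ 9 + 913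 * x ^ 11 * i ^ 9 * w ^ 9 + 443 * x ^ 10 * i ^ 9 * w ^ 9 - 502 * x ^ 9 * i ^ 9 * w ^ 9 - 589 * x ^ 8 * i ^ 9 * w ^ 9 - 87 * x ^ 7 * i ^ 9 * w ^ 9 + 301 * x ^ 6 * i ^ 9 * w ^ 9 + 136 * x ^ 5 * i ^ 9 * w ^ 9 - 30 * x ^ 4 * i ^ 9 * w ^ 9 - 69 * x ^ 3 * i ^ 9 * w ^ 9 + 4 * x ^ 2 * i ^ 9 * w ^ 9 + 4 * x * i ^ 9 * w ^ 9 + 2 * i ^ 9 * w ^ 9) * h3 + (-x ^ 11 * i ^ 8 * w ^ 3 - 2 * x ^ 10 * y ^ 2 * i ^ 8 * w ^ 5 + 8 * x ^ 10 * i ^ 8 * w ^ 3 + 3 * x ^ 10 * i ^ 8 * w - x ^ 10 * i ^ 7 * w ^ 3 + 10 * x ^ 9 * y ^ 2 * i ^ 8 * w ^ 5 + 9 * x ^ 9 * y ^ 2 * i ^ 8 * w ^ 3 - 2 * x ^ 9 * y ^ 2 * i ^ 7 * w ^ 5 - 28 * x ^ 9 * i ^ 8 * w ^ 3 - 23 * x ^ 9 * i ^ 8 * w + 7 * x ^ 9 * i ^ 7 *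 w ^ 3 + 3 * x ^ 9 * i ^ 7 * w - x ^ 9 * i ^ 6 * w ^ 3 - 20 * x ^ 8 * y ^ 2 * i ^ 8 * w ^ 5 - 42 * x ^ 8 * y ^ 2 * i ^ 8 * w ^ 3 - 9 * x ^ 8 * y ^ 2 * i ^ 8 * w + 8 * x ^ 8 * y ^ 2 * i ^ 7 * w ^ 5 + 9 * x ^ 8 * y ^ 2 * i ^ 7 * w ^ 3 - 2 * x ^ 8 * y ^ 2 * i ^ 6 * w ^ 5 - x ^ 8 * y * i ^ 8 + 56 * x ^ 8 * i ^ 8 * w ^ 3 + 76 * x ^ 8 * i ^ 8 * w - 21 * x ^ 8 * i ^ 7 * w ^ 3 - 20 * x ^ 8 * i ^ 7 * w + 6 * x ^ 8 * i ^ 6 * w ^ 3 + 3 * x ^ 8 * i ^ 6 * w - x ^ 8 * i ^ 5 * w ^ 3 - 4 * x ^ 7 * y ^ 3 * i ^ 8 * w ^ 2 + 20 * x ^ 7 * y ^ 2 * i ^ 8 * w ^ 5 + 75 * x ^ 7 * y ^ 2 * i ^ 8 * w ^ 3 + 39 * x ^ 7 * y ^ 2 * i ^ 8 * w - 12 * x ^ 7 * y ^ 2 * i ^ 7 * w ^ 5 - 33 * x ^ 7 * y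 ^ 2 * i ^ 7 * w ^ 3 - 9 * x ^ 7 * y ^ 2 * i ^ 7 * w + 6 * x ^ 7 * y ^ 2 * i ^ 6 * w ^ 5 + 9 * x ^ 7 * y ^ 2 * i ^ 6 * w ^ 3 - 2 * x ^ 7 * y ^ 2 * i ^ 5 * w ^ 5 + 8 * x ^ 7 * y * i ^ 8 - x ^ 7 * y * i ^ 7 - 70 * x ^ 7 * i ^ 8 * w ^ 3 - 140 * x ^ 7 * i ^ 8 * w + 35 * x ^ 7 * i ^ 7 * w ^ 3 + 56 * x ^ 7 * i ^ 7 * w - 15 * x ^ 7 * i ^ 6 * w ^ 3 - 17 * x ^ 7 * i ^ 6 * w + 5 * x ^ 7 * i ^ 5 * w ^ 3 + 3 * x ^ 7 * i ^ 5 * w - x ^ 7 * i ^ 4 * w ^ 3 + 20 * x ^ 6 * y ^ 3 * i ^ 8 * w ^ 2 + 6 * x ^ 6 * y ^ 3 * i ^ 8 - 4 * x ^ 6 * y ^ 3 * i ^ 7 * w ^ 2 - 10 * x ^ 6 * y ^ 2 * i ^ 8 * w ^ 5 - 60 * x ^ 6 * y ^ 2 * i ^ 8 * w ^ 3 - 61 * x ^ 6 * y ^ 2 * i ^ 8 * w + 8 * x ^ 6 * y ^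 2 * i ^ 7 * w ^ 5 + 42 * x ^ 6 * y ^ 2 * i ^ 7 * w ^ 3 + 30 * x ^ 6 * y ^ 2 * i ^ 7 * w - 6 * x ^ 6 * y ^ 2 * i ^ 6 * w ^ 5 - 24 * x ^ 6 * y ^ 2 * i ^ 6 * w ^ 3 - 9 * x ^ 6 * y ^ 2 * i ^ 6 * w + 4 * x ^ 6 * y ^ 2 * i ^ 5 * w ^ 5 + 9 * x ^ 6 * y ^ 2 * i ^ 5 * w ^ 3 - 2 * x ^ 6 * y ^ 2 * i ^ 4 * w ^ 5 - 28 * x ^ 6 * y * i ^ 8 + 7 * x ^ 6 * y * i ^ 7 - x ^ 6 * y * i ^ 6 + 56 * x ^ 6 * i ^ 8 * w ^ 3 + 154 * x ^ 6 * i ^ 8 * w - 35 * x ^ 6 * i ^ 7 * w ^ 3 - 84 * x ^ 6 * i ^ 7 * w + 20 * x ^ 6 * i ^ 6 * w ^ 3 + 39 * x ^ 6 * i ^ 6 * w - 10 * x ^ 6 * i ^ 5 * w ^ 3 - 14 * x ^ 6 * i ^ 5 * w + 4 * x ^ 6 * i ^ 4 * w ^ 3 + 3 * x ^ 6 * i ^ 4 * w - x ^ 6 * i ^ 3 * w ^ 3 - 40 *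 x ^ 5 * y ^ 3 * i ^ 8 * w ^ 2 - 28 * x ^ 5 * y ^ 3 * i ^ 8 + 16 * x ^ 5 * y ^ 3 * i ^ 7 * w ^ 2 + 6 * x ^ 5 * y ^ 3 * i ^ 7 - 4 * x ^ 5 * y ^ 3 * i ^ 6 * w ^ 2 + 2 * x ^ 5 * y ^ 2 * i ^ 8 * w ^ 5 + 15 * x ^ 5 * y ^ 2 * i ^ 8 * w ^ 3 + 35 * x ^ 5 * y ^ 2 * i ^ 8 * w - 2 * x ^ 5 * y ^ 2 * i ^ 7 * w ^ 5 - 18 * x ^ 5 * y ^ 2 * i ^ 7 * w ^ 3 - 31 * x ^ 5 * y ^ 2 * i ^ 7 * w + 2 * x ^ 5 * y ^ 2 * i ^ 6 * w ^ 5 + 18 * x ^ 5 * y ^ 2 * i ^ 6 * w ^ 3 + 21 * x ^ 5 * y ^ 2 * i ^ 6 * w - 2 * x ^ 5 * y ^ 2 * i ^ 5 * w ^ 5 - 15 * x ^ 5 * y ^ 2 * i ^ 5 * w ^ 3 - 9 * x ^ 5 * y ^ 2 * i ^ 5 * w + 2 * x ^ 5 * y ^ 2 * i ^ 4 * w ^ 5 + 9 * x ^ 5 * y ^ 2 * i ^ 4 * w ^ 3 - 2 * x ^ 5 *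 y ^ 2 * i ^ 3 * w ^ 5 + 56 * x ^ 5 * y * i ^ 8 - 21 * x ^ 5 * y * i ^ 7 + 6 * x ^ 5 * y * i ^ 6 - x ^ 5 * y * i ^ 5 - 28 * x ^ 5 * i ^ 8 * w ^ 3 - 98 * x ^ 5 * i ^ 8 * w + 21 * x ^ 5 * i ^ 7 * w ^ 3 + 70 * x ^ 5 * i ^ 7 * w - 15 * x ^ 5 * i ^ 6 * w ^ 3 - 45 * x ^ 5 * i ^ 6 * w + 10 * x ^ 5 * i ^ 5 * w ^ 3 + 25 * x ^ 5 * i ^ 5 * w - 6 * x ^ 5 * i ^ 4 * w ^ 3 - 11 * x ^ 5 * i ^ 4 * w + 3 * x ^ 5 * i ^ 3 * w ^ 3 + 3 * x ^ 5 * i ^ 3 * w - x ^ 5 * i ^ 2 * w ^ 3 + 40 * x ^ 4 * y ^ 3 * i ^ 8 * w ^ 2 + 50 * x ^ 4 * y ^ 3 * i ^ 8 - 24 * x ^ 4 * y ^ 3 * i ^ 7 * w ^ 2 - 22 * x ^ 4 * y ^ 3 * i ^ 7 + 12 * x ^ 4 * y ^ 3 * i ^ 6 * w ^ 2 + 6 * x ^ 4 * y ^ 3 * i ^ 6 - 4 * x ^ 4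 * y ^ 3 * i ^ 5 * w ^ 2 + 6 * x ^ 4 * y ^ 2 * i ^ 8 * w ^ 3 + 5 * x ^ 4 * y ^ 2 * i ^ 8 * w - 3 * x ^ 4 * y ^ 2 * i ^ 7 * w ^ 3 + 4 * x ^ 4 * y ^ 2 * i ^ 7 * w - 10 * x ^ 4 * y ^ 2 * i ^ 6 * w + 3 * x ^ 4 * y ^ 2 * i ^ 5 * w ^ 3 + 12 * x ^ 4 * y ^ 2 * i ^ 5 * w - 6 * x ^ 4 * y ^ 2 * i ^ 4 * w ^ 3 - 9 * x ^ 4 * y ^ 2 * i ^ 4 * w + 9 * x ^ 4 * y ^ 2 * i ^ 3 * w ^ 3 - 70 * x ^ 4 * y * i ^ 8 + 35 * x ^ 4 * y * i ^ 7 - 15 * x ^ 4 * y * i ^ 6 + 5 * x ^ 4 * y * i ^ 5 - x ^ 4 * y * i ^ 4 + 8 * x ^ 4 * i ^ 8 * w ^ 3 + 28 * x ^ 4 * i ^ 8 * w - 7 * x ^ 4 * i ^ 7 * w ^ 3 - 28 * x ^ 4 * i ^ 7 * w + 6 * x ^ 4 * i ^ 6 * w ^ 3 + 25 * x ^ 4 * i ^ 6 * w - 5 * x ^ 4 * i ^ 5 * w ^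 3 - 20 * x ^ 4 * i ^ 5 * w + 4 * x ^ 4 * i ^ 4 * w ^ 3 + 14 * x ^ 4 * i ^ 4 * w - 3 * x ^ 4 * i ^ 3 * w ^ 3 - 8 * x ^ 4 * i ^ 3 * w + 2 * x ^ 4 * i ^ 2 * w ^ 3 + 3 * x ^ 4 * i ^ 2 * w - x ^ 4 * i * w ^ 3 - 20 * x ^ 3 * y ^ 3 * i ^ 8 * w ^ 2 - 40 * x ^ 3 * y ^ 3 * i ^ 8 + 16 * x ^ 3 * y ^ 3 * i ^ 7 * w ^ 2 + 28 * x ^ 3 * y ^ 3 * i ^ 7 - 12 * x ^ 3 * y ^ 3 * i ^ 6 * w ^ 2 - 16 * x ^ 3 * y ^ 3 * i ^ 6 + 8 * x ^ 3 * y ^ 3 * i ^ 5 * w ^ 2 + 6 * x ^ 3 * y ^ 3 * i ^ 5 - 4 * x ^ 3 * y ^ 3 * i ^ 4 * w ^ 2 - 3 * x ^ 3 * y ^ 2 * i ^ 8 * w ^ 3 - 11 * x ^ 3 * y ^ 2 * i ^ 8 * w + 3 * x ^ 3 * y ^ 2 * i ^ 7 * w ^ 3 + 9 * x ^ 3 * y ^ 2 * i ^ 7 * w - 3 * x ^ 3 * y ^ 2 * i ^ 6 *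 w ^ 3 - 6 * x ^ 3 * y ^ 2 * i ^ 6 * w + 3 * x ^ 3 * y ^ 2 * i ^ 5 * w ^ 3 + 2 * x ^ 3 * y ^ 2 * i ^ 5 * w - 3 * x ^ 3 * y ^ 2 * i ^ 4 * w ^ 3 + 3 * x ^ 3 * y ^ 2 * i ^ 4 * w + 3 * x ^ 3 * y ^ 2 * i ^ 3 * w ^ 3 - 9 * x ^ 3 * y ^ 2 * i ^ 3 * w + 56 * x ^ 3 * y * i ^ 8 - 35 * x ^ 3 * y * i ^ 7 + 20 * x ^ 3 * y * i ^ 6 - 10 * x ^ 3 * y * i ^ 5 + 4 * x ^ 3 * y * i ^ 4 - x ^ 3 * y * i ^ 3 - x ^ 3 * i ^ 8 * w ^ 3 + 4 * x ^ 3 * i ^ 8 * w + x ^ 3 * i ^ 7 * w ^ 3 - x ^ 3 * i ^ 6 * w ^ 3 - 3 * x ^ 3 * i ^ 6 * w + x ^ 3 * i ^ 5 * w ^ 3 + 5 * x ^ 3 * i ^ 5 * w - x ^ 3 * i ^ 4 * w ^ 3 - 6 * x ^ 3 * i ^ 4 * w + x ^ 3 * i ^ 3 * w ^ 3 + 6 * x ^ 3 * i ^ 3 * w - x ^ 3 * i ^ 2 * w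 ^ 3 - 5 * x ^ 3 * i ^ 2 * w + x ^ 3 * i * w ^ 3 + 3 * x ^ 3 * i * w - x ^ 3 * w ^ 3 + 4 * x ^ 2 * y ^ 3 * i ^ 8 * w ^ 2 + 10 * x ^ 2 * y ^ 3 * i ^ 8 - 4 * x ^ 2 * y ^ 3 * i ^ 7 * w ^ 2 - 12 * x ^ 2 * y ^ 3 * i ^ 7 + 4 * x ^ 2 * y ^ 3 * i ^ 6 * w ^ 2 + 12 * x ^ 2 * y ^ 3 * i ^ 6 - 4 * x ^ 2 * y ^ 3 * i ^ 5 * w ^ 2 - 10 * x ^ 2 * y ^ 3 * i ^ 5 + 4 * x ^ 2 * y ^ 3 * i ^ 4 * w ^ 2 + 6 * x ^ 2 * y ^ 3 * i ^ 4 - 4 * x ^ 2 * y ^ 3 * i ^ 3 * w ^ 2 + x ^ 2 * y ^ 2 * i ^ 8 * w - 2 * x ^ 2 * y ^ 2 * i ^ 7 * w + 3 * x ^ 2 * y ^ 2 * i ^ 6 * w - 4 * x ^ 2 * y ^ 2 * i ^ 5 * w + 5 * x ^ 2 * y ^ 2 * i ^ 4 * w - 6 * x ^ 2 * y ^ 2 * i ^ 3 * w - 28 * x ^ 2 * y * i ^ 8 + 21 * x ^ 2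 * y * i ^ 7 - 15 * x ^ 2 * y * i ^ 6 + 10 * x ^ 2 * y * i ^ 5 - 6 * x ^ 2 * y * i ^ 4 + 3 * x ^ 2 * y * i ^ 3 - x ^ 2 * y * i ^ 2 - 5 * x ^ 2 * i ^ 8 * w + 4 * x ^ 2 * i ^ 7 * w - 3 * x ^ 2 * i ^ 6 * w + 2 * x ^ 2 * i ^ 5 * w - x ^ 2 * i ^ 4 * w + x ^ 2 * i ^ 2 * w - 2 * x ^ 2 * i * w + 3 * x ^ 2 * w + 4 * x * y ^ 3 * i ^ 8 - 2 * x * y ^ 3 * i ^ 7 + 2 * x * y ^ 3 * i ^ 5 - 4 * x * y ^ 3 * i ^ 4 + 6 * x * y ^ 3 * i ^ 3 + x * y ^ 2 * i ^ 8 * w - x * y ^ 2 * i ^ 7 * w + x * y ^ 2 * i ^ 6 * w - x * y ^ 2 * i ^ 5 * w + x * y ^ 2 * i ^ 4 * w - x * y ^ 2 * i ^ 3 * w + 8 * x * y * i ^ 8 - 7 * x * y * i ^ 7 + 6 * x * y * i ^ 6 - 5 * x * y * i ^ 5 + 4 * x * y * i ^ 4 - 3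 * x * y * i ^ 3 + 2 * x * y * i ^ 2 - x * y * i + x * i ^ 8 * w - x * i ^ 7 * w + x * i ^ 6 * w - x * i ^ 5 * w + x * i ^ 4 * w - x * i ^ 3 * w + x * i ^ 2 * w - x * i * w + x * w - 2 * y ^ 3 * i ^ 8 + 2 * y ^ 3 * i ^ 7 - 2 * y ^ 3 * i ^ 6 + 2 * y ^ 3 * i ^ 5 - 2 * y ^ 3 * i ^ 4 + 2 * y ^ 3 * i ^ 3 - y * i ^ 8 + y * i ^ 7 - y * i ^ 6 + y * i ^ 5 - y * i ^ 4 + y * i ^ 3 - y * i ^ 2 + y * i - y) * hi + (-x ^ 12 * y ^ 5 * i ^ 9 * w ^ 8 - x ^ 12 * y ^ 4 * i ^ 9 * w ^ 7 - x ^ 12 * y ^ 3 * i ^ 9 * w ^ 6 - x ^ 12 * y ^ 2 * i ^ 9 * w ^ 5 - x ^ 12 * y * i ^ 9 * w ^ 4 - x ^ 12 * i ^ 9 * w ^ 3 + 3 * x ^ 11 * y ^ 7 * i ^ 9 * w ^ 8 + 3 * x ^ 11 * y ^ 6 * i ^ 9 * w ^ 7 + 7 *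 x ^ 11 * y ^ 5 * i ^ 9 * w ^ 8 + 3 * x ^ 11 * y ^ 5 * i ^ 9 * w ^ 6 + 7 * x ^ 11 * y ^ 4 * i ^ 9 * w ^ 7 + 3 * x ^ 11 * y ^ 4 * i ^ 9 * w ^ 5 + 7 * x ^ 11 * y ^ 3 * i ^ 9 * w ^ 6 + 3 * x ^ 11 * y ^ 3 * i ^ 9 * w ^ 4 + 7 * x ^ 11 * y ^ 2 * i ^ 9 * w ^ 5 + 3 * x ^ 11 * y ^ 2 * i ^ 9 * w ^ 3 + 9 * x ^ 11 * y * i ^ 9 * w ^ 4 + 3 * x ^ 11 * y * i ^ 9 * w ^ 2 + 9 * x ^ 11 * i ^ 9 * w ^ 3 + 3 * x ^ 11 * i ^ 9 * w - 17 * x ^ 10 * y ^ 7 * i ^ 9 * w ^ 8 - 17 * x ^ 10 * y ^ 6 * i ^ 9 * w ^ 7 - 24 * x ^ 10 * y ^ 5 * i ^ 9 * w ^ 8 - 17 * x ^ 10 * y ^ 5 * i ^ 9 * w ^ 6 - 24 * x ^ 10 * y ^ 4 * i ^ 9 * w ^ 7 - 17 * x ^ 10 * y ^ 4 * i ^ 9 * w ^ 5 - 24 * x ^ 10 * y ^ 3 * i ^ 9 *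 w ^ 6 - 17 * x ^ 10 * y ^ 3 * i ^ 9 * w ^ 4 - 24 * x ^ 10 * y ^ 2 * i ^ 9 * w ^ 5 - 17 * x ^ 10 * y ^ 2 * i ^ 9 * w ^ 3 - 36 * x ^ 10 * y * i ^ 9 * w ^ 4 - 26 * x ^ 10 * y * i ^ 9 * w ^ 2 - 36 * x ^ 10 * i ^ 9 * w ^ 3 - 26 * x ^ 10 * i ^ 9 * w + x ^ 9 * y ^ 11 * i ^ 9 * w ^ 8 + x ^ 9 * y ^ 10 * i ^ 9 * w ^ 7 - 10 * x ^ 9 * y ^ 9 * i ^ 9 * w ^ 8 + x ^ 9 * y ^ 9 * i ^ 9 * w ^ 6 - 10 * x ^ 9 * y ^ 8 * i ^ 9 * w ^ 7 + x ^ 9 * y ^ 8 * i ^ 9 * w ^ 5 + 48 * x ^ 9 * y ^ 7 * i ^ 9 * w ^ 8 - 10 * x ^ 9 * y ^ 7 * i ^ 9 * w ^ 6 + x ^ 9 * y ^ 7 * i ^ 9 * w ^ 4 + 48 * x ^ 9 * y ^ 6 * i ^ 9 * w ^ 7 - 10 * x ^ 9 * y ^ 6 * i ^ 9 * w ^ 5 + x ^ 9 * y ^ 6 * i ^ 9 * w ^ 3 + 54 * x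 ^ 9 * y ^ 5 * i ^ 9 * w ^ 8 + 48 * x ^ 9 * y ^ 5 * i ^ 9 * w ^ 6 - 10 * x ^ 9 * y ^ 5 * i ^ 9 * w ^ 4 + x ^ 9 * y ^ 5 * i ^ 9 * w ^ 2 + 54 * x ^ 9 * y ^ 4 * i ^ 9 * w ^ 7 + 48 * x ^ 9 * y ^ 4 * i ^ 9 * w ^ 5 - 10 * x ^ 9 * y ^ 4 * i ^ 9 * w ^ 3 + x ^ 9 * y ^ 4 * i ^ 9 * w + 54 * x ^ 9 * y ^ 3 * i ^ 9 * w ^ 6 + 48 * x ^ 9 * y ^ 3 * i ^ 9 * w ^ 4 - 10 * x ^ 9 * y ^ 3 * i ^ 9 * w ^ 2 + x ^ 9 * y ^ 3 * i ^ 9 + 54 * x ^ 9 * y ^ 2 * i ^ 9 * w ^ 5 + 48 * x ^ 9 * y ^ 2 * i ^ 9 * w ^ 3 - 10 * x ^ 9 * y ^ 2 * i ^ 9 * w + 84 * x ^ 9 * y * i ^ 9 * w ^ 4 + 99 * x ^ 9 * y * i ^ 9 * w ^ 2 - x ^ 9 * y * i ^ 9 + 84 * x ^ 9 * i ^ 9 * w ^ 3 + 99 * x ^ 9 * i ^ 9 * w + 53 * x ^ 8 *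 y ^ 9 * i ^ 9 * w ^ 8 + 53 * x ^ 8 * y ^ 8 * i ^ 9 * w ^ 7 - 108 * x ^ 8 * y ^ 7 * i ^ 9 * w ^ 8 + 53 * x ^ 8 * y ^ 7 * i ^ 9 * w ^ 6 - 108 * x ^ 8 * y ^ 6 * i ^ 9 * w ^ 7 + 53 * x ^ 8 * y ^ 6 * i ^ 9 * w ^ 5 - 86 * x ^ 8 * y ^ 5 * i ^ 9 * w ^ 8 - 99 * x ^ 8 * y ^ 5 * i ^ 9 * w ^ 6 + 53 * x ^ 8 * y ^ 5 * i ^ 9 * w ^ 4 - 86 * x ^ 8 * y ^ 4 * i ^ 9 * w ^ 7 - 99 * x ^ 8 * y ^ 4 * i ^ 9 * w ^ 5 + 53 * x ^ 8 * y ^ 4 * i ^ 9 * w ^ 3 - 86 * x ^ 8 * y ^ 3 * i ^ 9 * w ^ 6 - 99 * x ^ 8 * y ^ 3 * i ^ 9 * w ^ 4 + 53 * x ^ 8 * y ^ 3 * i ^ 9 * w ^ 2 - 86 * x ^ 8 * y ^ 2 * i ^ 9 * w ^ 5 - 99 * x ^ 8 * y ^ 2 * i ^ 9 * w ^ 3 + 57 * x ^ 8 * y ^ 2 * i ^ 9 * w - 126 * x ^ 8 * y *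 i ^ 9 * w ^ 4 - 216 * x ^ 8 * y * i ^ 9 * w ^ 2 + 9 * x ^ 8 * y * i ^ 9 - 126 * x ^ 8 * i ^ 9 * w ^ 3 - 216 * x ^ 8 * i ^ 9 * w + 3 * x ^ 7 * y ^ 11 * i ^ 9 * w ^ 8 + 3 * x ^ 7 * y ^ 10 * i ^ 9 * w ^ 7 - 85 * x ^ 7 * y ^ 9 * i ^ 9 * w ^ 8 + 3 * x ^ 7 * y ^ 9 * i ^ 9 * w ^ 6 - 85 * x ^ 7 * y ^ 8 * i ^ 9 * w ^ 7 + 3 * x ^ 7 * y ^ 8 * i ^ 9 * w ^ 5 + 156 * x ^ 7 * y ^ 7 * i ^ 9 * w ^ 8 - 85 * x ^ 7 * y ^ 7 * i ^ 9 * w ^ 6 + 3 * x ^ 7 * y ^ 7 * i ^ 9 * w ^ 4 + 156 * x ^ 7 * y ^ 6 * i ^ 9 * w ^ 7 - 85 * x ^ 7 * y ^ 6 * i ^ 9 * w ^ 5 + 3 * x ^ 7 * y ^ 6 * i ^ 9 * w ^ 3 + 96 * x ^ 7 * y ^ 5 * i ^ 9 * w ^ 8 + 159 * x ^ 7 * y ^ 5 * i ^ 9 * w ^ 6 - 112 * x ^ 7 * y ^ 5 *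 i ^ 9 * w ^ 4 + 3 * x ^ 7 * y ^ 5 * i ^ 9 * w ^ 2 + 96 * x ^ 7 * y ^ 4 * i ^ 9 * w ^ 7 + 159 * x ^ 7 * y ^ 4 * i ^ 9 * w ^ 5 - 112 * x ^ 7 * y ^ 4 * i ^ 9 * w ^ 3 + 3 * x ^ 7 * y ^ 4 * i ^ 9 * w + 96 * x ^ 7 * y ^ 3 * i ^ 9 * w ^ 6 + 159 * x ^ 7 * y ^ 3 * i ^ 9 * w ^ 4 - 112 * x ^ 7 * y ^ 3 * i ^ 9 * w ^ 2 + 3 * x ^ 7 * y ^ 3 * i ^ 9 + 96 * x ^ 7 * y ^ 2 * i ^ 9 * w ^ 5 + 159 * x ^ 7 * y ^ 2 * i ^ 9 * w ^ 3 - 136 * x ^ 7 * y ^ 2 * i ^ 9 * w + 126 * x ^ 7 * y * i ^ 9 * w ^ 4 + 294 * x ^ 7 * y * i ^ 9 * w ^ 2 - 36 * x ^ 7 * y * i ^ 9 + 126 * x ^ 7 * i ^ 9 * w ^ 3 + 294 * x ^ 7 * i ^ 9 * w - 58 * x ^ 6 * y ^ 11 * i ^ 9 * w ^ 8 - 58 * x ^ 6 * y ^ 10 * i ^ 9 * w ^ 7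 + 144 * x ^ 6 * y ^ 9 * i ^ 9 * w ^ 8 - 58 * x ^ 6 * y ^ 9 * i ^ 9 * w ^ 6 + 144 * x ^ 6 * y ^ 8 * i ^ 9 * w ^ 7 - 58 * x ^ 6 * y ^ 8 * i ^ 9 * w ^ 5 - 177 * x ^ 6 * y ^ 7 * i ^ 9 * w ^ 8 + 144 * x ^ 6 * y ^ 7 * i ^ 9 * w ^ 6 - 58 * x ^ 6 * y ^ 7 * i ^ 9 * w ^ 4 - 177 * x ^ 6 * y ^ 6 * i ^ 9 * w ^ 7 + 138 * x ^ 6 * y ^ 6 * i ^ 9 * w ^ 5 - 58 * x ^ 6 * y ^ 6 * i ^ 9 * w ^ 3 - 72 * x ^ 6 * y ^ 5 * i ^ 9 * w ^ 8 - 177 * x ^ 6 * y ^ 5 * i ^ 9 * w ^ 6 + 120 * x ^ 6 * y ^ 5 * i ^ 9 * w ^ 4 - 31 * x ^ 6 * y ^ 5 * i ^ 9 * w ^ 2 - 72 * x ^ 6 * y ^ 4 * i ^ 9 * w ^ 7 - 177 * x ^ 6 * y ^ 4 * i ^ 9 * w ^ 5 + 120 * x ^ 6 * y ^ 4 * i ^ 9 * w ^ 3 - 31 * x ^ 6 * y ^ 4 * i ^ 9 *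 w - 72 * x ^ 6 * y ^ 3 * i ^ 9 * w ^ 6 - 177 * x ^ 6 * y ^ 3 * i ^ 9 * w ^ 4 + 120 * x ^ 6 * y ^ 3 * i ^ 9 * w ^ 2 - 31 * x ^ 6 * y ^ 3 * i ^ 9 - 72 * x ^ 6 * y ^ 2 * i ^ 9 * w ^ 5 - 177 * x ^ 6 * y ^ 2 * i ^ 9 * w ^ 3 + 180 * x ^ 6 * y ^ 2 * i ^ 9 * w - 84 * x ^ 6 * y * i ^ 9 * w ^ 4 - 252 * x ^ 6 * y * i ^ 9 * w ^ 2 + 84 * x ^ 6 * y * i ^ 9 - 84 * x ^ 6 * i ^ 9 * w ^ 3 - 252 * x ^ 6 * i ^ 9 * w + 18 * x ^ 5 * y ^ 11 * i ^ 9 * w ^ 8 + 18 * x ^ 5 * y ^ 10 * i ^ 9 * w ^ 7 - 73 * x ^ 5 * y ^ 9 * i ^ 9 * w ^ 8 + 18 * x ^ 5 * y ^ 9 * i ^ 9 * w ^ 6 - 73 * x ^ 5 * y ^ 8 * i ^ 9 * w ^ 7 + 18 * x ^ 5 * y ^ 8 * i ^ 9 * w ^ 5 + 117 * x ^ 5 * y ^ 7 * i ^ 9 * w ^ 8 - 73 *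 x ^ 5 * y ^ 7 * i ^ 9 * w ^ 6 + 18 * x ^ 5 * y ^ 7 * i ^ 9 * w ^ 4 + 117 * x ^ 5 * y ^ 6 * i ^ 9 * w ^ 7 - 73 * x ^ 5 * y ^ 6 * i ^ 9 * w ^ 5 + 54 * x ^ 5 * y ^ 6 * i ^ 9 * w ^ 3 + 34 * x ^ 5 * y ^ 5 * i ^ 9 * w ^ 8 + 117 * x ^ 5 * y ^ 5 * i ^ 9 * w ^ 6 - 76 * x ^ 5 * y ^ 5 * i ^ 9 * w ^ 4 + 81 * x ^ 5 * y ^ 5 * i ^ 9 * w ^ 2 + 34 * x ^ 5 * y ^ 4 * i ^ 9 * w ^ 7 + 117 * x ^ 5 * y ^ 4 * i ^ 9 * w ^ 5 - 76 * x ^ 5 * y ^ 4 * i ^ 9 * w ^ 3 + 81 * x ^ 5 * y ^ 4 * i ^ 9 * w + 34 * x ^ 5 * y ^ 3 * i ^ 9 * w ^ 6 + 117 * x ^ 5 * y ^ 3 * i ^ 9 * w ^ 4 - 76 * x ^ 5 * y ^ 3 * i ^ 9 * w ^ 2 + 81 * x ^ 5 * y ^ 3 * i ^ 9 + 34 * x ^ 5 * y ^ 2 * i ^ 9 * w ^ 5 + 117 * x ^ 5 * y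 ^ 2 * i ^ 9 * w ^ 3 - 156 * x ^ 5 * y ^ 2 * i ^ 9 * w + 36 * x ^ 5 * y * i ^ 9 * w ^ 4 + 126 * x ^ 5 * y * i ^ 9 * w ^ 2 - 126 * x ^ 5 * y * i ^ 9 + 36 * x ^ 5 * i ^ 9 * w ^ 3 + 126 * x ^ 5 * i ^ 9 * w + 54 * x ^ 4 * y ^ 13 * i ^ 9 * w ^ 8 + 54 * x ^ 4 * y ^ 12 * i ^ 9 * w ^ 7 - 117 * x ^ 4 * y ^ 11 * i ^ 9 * w ^ 8 + 54 * x ^ 4 * y ^ 11 * i ^ 9 * w ^ 6 - 117 * x ^ 4 * y ^ 10 * i ^ 9 * w ^ 7 + 54 * x ^ 4 * y ^ 10 * i ^ 9 * w ^ 5 + 50 * x ^ 4 * y ^ 9 * i ^ 9 * w ^ 8 - 117 * x ^ 4 * y ^ 9 * i ^ 9 * w ^ 6 + 54 * x ^ 4 * y ^ 9 * i ^ 9 * w ^ 4 + 50 * x ^ 4 * y ^ 8 * i ^ 9 * w ^ 7 - 117 * x ^ 4 * y ^ 8 * i ^ 9 * w ^ 5 + 54 * x ^ 4 * y ^ 8 * i ^ 9 * w ^ 3 - 33 * x ^ 4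 * y ^ 7 * i ^ 9 * w ^ 8 + 50 * x ^ 4 * y ^ 7 * i ^ 9 * w ^ 6 - 117 * x ^ 4 * y ^ 7 * i ^ 9 * w ^ 4 + 54 * x ^ 4 * y ^ 7 * i ^ 9 * w ^ 2 - 33 * x ^ 4 * y ^ 6 * i ^ 9 * w ^ 7 + 50 * x ^ 4 * y ^ 6 * i ^ 9 * w ^ 5 - 105 * x ^ 4 * y ^ 6 * i ^ 9 * w ^ 3 - 9 * x ^ 4 * y ^ 5 * i ^ 9 * w ^ 8 - 33 * x ^ 4 * y ^ 5 * i ^ 9 * w ^ 6 + 50 * x ^ 4 * y ^ 5 * i ^ 9 * w ^ 4 - 96 * x ^ 4 * y ^ 5 * i ^ 9 * w ^ 2 - 9 * x ^ 4 * y ^ 4 * i ^ 9 * w ^ 7 - 33 * x ^ 4 * y ^ 4 * i ^ 9 * w ^ 5 + 50 * x ^ 4 * y ^ 4 * i ^ 9 * w ^ 3 - 96 * x ^ 4 * y ^ 4 * i ^ 9 * w - 9 * x ^ 4 * y ^ 3 * i ^ 9 * w ^ 6 - 33 * x ^ 4 * y ^ 3 * i ^ 9 * w ^ 4 + 50 * x ^ 4 * y ^ 3 * i ^ 9 * w ^ 2 - 96 * x ^ 4 * y ^ 3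 * i ^ 9 - 9 * x ^ 4 * y ^ 2 * i ^ 9 * w ^ 5 - 33 * x ^ 4 * y ^ 2 * i ^ 9 * w ^ 3 + 110 * x ^ 4 * y ^ 2 * i ^ 9 * w - 9 * x ^ 4 * y * i ^ 9 * w ^ 4 - 24 * x ^ 4 * y * i ^ 9 * w ^ 2 + 126 * x ^ 4 * y * i ^ 9 - 9 * x ^ 4 * i ^ 9 * w ^ 3 - 24 * x ^ 4 * i ^ 9 * w + 48 * x ^ 3 * y ^ 13 * i ^ 9 * w ^ 8 + 48 * x ^ 3 * y ^ 12 * i ^ 9 * w ^ 7 + 51 * x ^ 3 * y ^ 11 * i ^ 9 * w ^ 8 + 48 * x ^ 3 * y ^ 11 * i ^ 9 * w ^ 6 + 51 * x ^ 3 * y ^ 10 * i ^ 9 * w ^ 7 + 48 * x ^ 3 * y ^ 10 * i ^ 9 * w ^ 5 - 48 * x ^ 3 * y ^ 9 * i ^ 9 * w ^ 8 + 51 * x ^ 3 * y ^ 9 * i ^ 9 * w ^ 6 + 48 * x ^ 3 * y ^ 9 * i ^ 9 * w ^ 4 - 48 * x ^ 3 * y ^ 8 * i ^ 9 * w ^ 7 + 51 * x ^ 3 * y ^ 8 * i ^ 9 * w ^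 5 + 48 * x ^ 3 * y ^ 8 * i ^ 9 * w ^ 3 - 6 * x ^ 3 * y ^ 7 * i ^ 9 * w ^ 8 - 48 * x ^ 3 * y ^ 7 * i ^ 9 * w ^ 6 + 51 * x ^ 3 * y ^ 7 * i ^ 9 * w ^ 4 + 36 * x ^ 3 * y ^ 7 * i ^ 9 * w ^ 2 - 6 * x ^ 3 * y ^ 6 * i ^ 9 * w ^ 7 - 48 * x ^ 3 * y ^ 6 * i ^ 9 * w ^ 5 + 51 * x ^ 3 * y ^ 6 * i ^ 9 * w ^ 3 + x ^ 3 * y ^ 5 * i ^ 9 * w ^ 8 - 6 * x ^ 3 * y ^ 5 * i ^ 9 * w ^ 6 - 48 * x ^ 3 * y ^ 5 * i ^ 9 * w ^ 4 + 52 * x ^ 3 * y ^ 5 * i ^ 9 * w ^ 2 + x ^ 3 * y ^ 4 * i ^ 9 * w ^ 7 - 6 * x ^ 3 * y ^ 4 * i ^ 9 * w ^ 5 - 48 * x ^ 3 * y ^ 4 * i ^ 9 * w ^ 3 + 52 * x ^ 3 * y ^ 4 * i ^ 9 * w + x ^ 3 * y ^ 3 * i ^ 9 * w ^ 6 - 6 * x ^ 3 * y ^ 3 * i ^ 9 * w ^ 4 - 48 * x ^ 3 * y ^ 3 * i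 ^ 9 * w ^ 2 + 52 * x ^ 3 * y ^ 3 * i ^ 9 + x ^ 3 * y ^ 2 * i ^ 9 * w ^ 5 - 6 * x ^ 3 * y ^ 2 * i ^ 9 * w ^ 3 - 72 * x ^ 3 * y ^ 2 * i ^ 9 * w + x ^ 3 * y * i ^ 9 * w ^ 4 - 9 * x ^ 3 * y * i ^ 9 * w ^ 2 - 84 * x ^ 3 * y * i ^ 9 + x ^ 3 * i ^ 9 * w ^ 3 - 9 * x ^ 3 * i ^ 9 * w - 36 * x ^ 2 * y ^ 15 * i ^ 9 * w ^ 8 - 36 * x ^ 2 * y ^ 14 * i ^ 9 * w ^ 7 + 6 * x ^ 2 * y ^ 13 * i ^ 9 * w ^ 8 - 36 * x ^ 2 * y ^ 13 * i ^ 9 * w ^ 6 + 6 * x ^ 2 * y ^ 12 * i ^ 9 * w ^ 7 - 36 * x ^ 2 * y ^ 12 * i ^ 9 * w ^ 5 - 3 * x ^ 2 * y ^ 11 * i ^ 9 * w ^ 8 + 6 * x ^ 2 * y ^ 11 * i ^ 9 * w ^ 6 - 36 * x ^ 2 * y ^ 11 * i ^ 9 * w ^ 4 - 3 * x ^ 2 * y ^ 10 * i ^ 9 * w ^ 7 + 6 * x ^ 2 * y ^ 10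 * i ^ 9 * w ^ 5 - 36 * x ^ 2 * y ^ 10 * i ^ 9 * w ^ 3 + 32 * x ^ 2 * y ^ 9 * i ^ 9 * w ^ 8 - 3 * x ^ 2 * y ^ 9 * i ^ 9 * w ^ 6 + 6 * x ^ 2 * y ^ 9 * i ^ 9 * w ^ 4 - 36 * x ^ 2 * y ^ 9 * i ^ 9 * w ^ 2 + 32 * x ^ 2 * y ^ 8 * i ^ 9 * w ^ 7 - 3 * x ^ 2 * y ^ 8 * i ^ 9 * w ^ 5 + 6 * x ^ 2 * y ^ 8 * i ^ 9 * w ^ 3 - 36 * x ^ 2 * y ^ 8 * i ^ 9 * w + 6 * x ^ 2 * y ^ 7 * i ^ 9 * w ^ 8 + 32 * x ^ 2 * y ^ 7 * i ^ 9 * w ^ 6 - 3 * x ^ 2 * y ^ 7 * i ^ 9 * w ^ 4 + 6 * x ^ 2 * y ^ 7 * i ^ 9 * w ^ 2 + 6 * x ^ 2 * y ^ 6 * i ^ 9 * w ^ 7 + 32 * x ^ 2 * y ^ 6 * i ^ 9 * w ^ 5 - 3 * x ^ 2 * y ^ 6 * i ^ 9 * w ^ 3 + 6 * x ^ 2 * y ^ 5 * i ^ 9 * w ^ 6 + 32 * x ^ 2 * y ^ 5 * i ^ 9 * w ^ 4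 - 3 * x ^ 2 * y ^ 5 * i ^ 9 * w ^ 2 + 6 * x ^ 2 * y ^ 4 * i ^ 9 * w ^ 5 + 32 * x ^ 2 * y ^ 4 * i ^ 9 * w ^ 3 - 3 * x ^ 2 * y ^ 4 * i ^ 9 * w + 6 * x ^ 2 * y ^ 3 * i ^ 9 * w ^ 4 + 32 * x ^ 2 * y ^ 3 * i ^ 9 * w ^ 2 - 3 * x ^ 2 * y ^ 3 * i ^ 9 + 6 * x ^ 2 * y ^ 2 * i ^ 9 * w ^ 3 + 36 * x ^ 2 * y ^ 2 * i ^ 9 * w + 6 * x ^ 2 * y * i ^ 9 * w ^ 2 + 36 * x ^ 2 * y * i ^ 9 + 6 * x ^ 2 * i ^ 9 * w - 12 * x * y ^ 15 * i ^ 9 * w ^ 8 - 12 * x * y ^ 14 * i ^ 9 * w ^ 7 - 12 * x * y ^ 13 * i ^ 9 * w ^ 6 - 12 * x * y ^ 12 * i ^ 9 * w ^ 5 - 9 * x * y ^ 11 * i ^ 9 * w ^ 8 - 12 * x * y ^ 11 * i ^ 9 * w ^ 4 - 9 * x * y ^ 10 * i ^ 9 * w ^ 7 - 12 * x * y ^ 10 * i ^ 9 * w ^ 3 - 10 *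 x * y ^ 9 * i ^ 9 * w ^ 8 - 9 * x * y ^ 9 * i ^ 9 * w ^ 6 - 12 * x * y ^ 9 * i ^ 9 * w ^ 2 - 10 * x * y ^ 8 * i ^ 9 * w ^ 7 - 9 * x * y ^ 8 * i ^ 9 * w ^ 5 - 12 * x * y ^ 8 * i ^ 9 * w - x * y ^ 7 * i ^ 9 * w ^ 8 - 10 * x * y ^ 7 * i ^ 9 * w ^ 6 - 9 * x * y ^ 7 * i ^ 9 * w ^ 4 - x * y ^ 6 * i ^ 9 * w ^ 7 - 10 * x * y ^ 6 * i ^ 9 * w ^ 5 - 9 * x * y ^ 6 * i ^ 9 * w ^ 3 - x * y ^ 5 * i ^ 9 * w ^ 6 - 10 * x * y ^ 5 * i ^ 9 * w ^ 4 - 9 * x * y ^ 5 * i ^ 9 * w ^ 2 - x * y ^ 4 * i ^ 9 * w ^ 5 - 10 * x * y ^ 4 * i ^ 9 * w ^ 3 - 9 * x * y ^ 4 * i ^ 9 * w - x * y ^ 3 * i ^ 9 * w ^ 4 - 10 * x * y ^ 3 * i ^ 9 * w ^ 2 - 9 * x * y ^ 3 * i ^ 9 - x * y ^ 2 * i ^ 9 * w ^ 3 - 10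 * x * y ^ 2 * i ^ 9 * w - x * y * i ^ 9 * w ^ 2 - 9 * x * y * i ^ 9 - x * i ^ 9 * w + 8 * y ^ 17 * i ^ 9 * w ^ 8 + 8 * y ^ 16 * i ^ 9 * w ^ 7 + 8 * y ^ 15 * i ^ 9 * w ^ 6 + 8 * y ^ 14 * i ^ 9 * w ^ 5 + 8 * y ^ 13 * i ^ 9 * w ^ 4 + 8 * y ^ 12 * i ^ 9 * w ^ 3 + 3 * y ^ 11 * i ^ 9 * w ^ 8 + 8 * y ^ 11 * i ^ 9 * w ^ 2 + 3 * y ^ 10 * i ^ 9 * w ^ 7 + 8 * y ^ 10 * i ^ 9 * w + y ^ 9 * i ^ 9 * w ^ 8 + 3 * y ^ 9 * i ^ 9 * w ^ 6 + 8 * y ^ 9 * i ^ 9 + y ^ 8 * i ^ 9 * w ^ 7 + 3 * y ^ 8 * i ^ 9 * w ^ 5 + y ^ 7 * i ^ 9 * w ^ 6 + 3 * y ^ 7 * i ^ 9 * w ^ 4 + y ^ 6 * i ^ 9 * w ^ 5 + 3 * y ^ 6 * i ^ 9 * w ^ 3 + y ^ 5 * i ^ 9 * w ^ 4 + 3 * y ^ 5 * i ^ 9 * w ^ 2 + y ^ 4 * i ^ 9 * w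 ^ 3 + 3 * y ^ 4 * i ^ 9 * w + y ^ 3 * i ^ 9 * w ^ 2 + 3 * y ^ 3 * i ^ 9 + y ^ 2 * i ^ 9 * w + y * i ^ 9) * hw

/-- `θ = φ + 1` on the curve `y² = x³ + (-1) x² + 1`. -/
theorem theta_mp (h3 : (3 : k) = 0)
    (ha₁ : V.a₁ = 0) (ha₂ : V.a₂ = (-1)) (ha₃ : V.a₃ = 0) (ha₄ : V.a₄ = 0) (ha₆ : V.a₆ = 1)
    {x y : k} (h : V.Nonsingular x y) (h₁ : V.Nonsingular (x ^ 3) (y ^ 3)) (hx : x ^ 3 ≠ x)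
    (i : k) (hi : (x - (-1)) * i = 1) :
    ∃ h' : V.Nonsingular ((x ^ 3 + x - (-1)) * i ^ 2) (-((-1) * x ^ 3 - (-1) * x + 1) * y * i ^ 3),
      Point.some (x ^ 3) (y ^ 3) h₁ + Point.some x y h = Point.some ((x ^ 3 + x - (-1)) * i ^ 2) (-((-1) * x ^ 3 - (-1) * x + 1) * y * i ^ 3) h' := by
  have hC : y ^ 2 = x ^ 3 + (-1) * x ^ 2 + 1 := by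
    have := (equation_iff _ _).mp h.1
    rw [ha₁, ha₂, ha₃, ha₄, ha₆] at this
    linear_combination this
  exact chord V h₁ _ hx (x * y * i) _ _
    (by
      try simp only [negY, ha₁, ha₂, ha₃, ha₄]
      linear_combination (-x * y * i - y * i) * hC + (y ^ 3 - y) * hi)
    (by
      try simp only [negY, ha₁, ha₂, ha₃, ha₄]
      linear_combination (-x ^ 2 * i ^ 2) * hC + (x ^ 4 * i ^ 2 + x ^ 3 * i ^ 2) * h3 + (-x ^ 4 * i - x ^ 3 * i - x ^ 3 - x ^ 2 * i - x + i + 1) * hi)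
    (by
      try simp only [negY, ha₁, ha₂, ha₃, ha₄]
      linear_combination (x ^ 3 * y * i ^ 3 + 3 * x ^ 2 * y * i ^ 3 + 3 * x * y * i ^ 3 + y * i ^ 3) * hC + (x ^ 2 * y * i ^ 3 + x * y * i ^ 3) * h3 + (x ^ 5 * y * i ^ 2 + x ^ 4 * y * i ^ 2 + x ^ 4 * y * i - x ^ 2 * y ^ 3 * i ^ 2 - 2 * x * y ^ 3 * i ^ 2 - x * y ^ 3 * i - y ^ 3 * i ^ 2 - y ^ 3 * i - y ^ 3) * hi)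

/-- The curve `y² = x³ + (-1) x² + 1`: `φ² + φ + 3 = 0` at generic points. -/
theorem ord3_mp (h3 : (3 : k) = 0)
    (ha₁ : V.a₁ = 0) (ha₂ : V.a₂ = (-1)) (ha₃ : V.a₃ = 0) (ha₄ : V.a₄ = 0) (ha₆ : V.a₆ = 1)
    (φ : V.Point →+ V.Point)
    (hφ : ∀ (x y : k) (h : V.Nonsingular x y),
      ∃ h' : V.Nonsingular (x ^ 3) (y ^ 3), φ (.some x y h) = .some (x ^ 3) (y ^ 3) h')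
    (x y : k) (h : V.Nonsingular x y) (hx0 : x ≠ 0) (hx1 : x ≠ 1) (hxm : x ≠ -1) (hy0 : y ≠ 0) :
    φ (φ (Point.some x y h)) + φ (Point.some x y h) + (Point.some x y h + Point.some x y h + Point.some x y h) = 0 := by
  have hC : y ^ 2 = x ^ 3 + (-1) * x ^ 2 + 1 := by
    have := (equation_iff _ _).mp h.1
    rw [ha₁, ha₂, ha₃, ha₄, ha₆] at this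
    linear_combination this
  obtain ⟨i, hi⟩ : ∃ i : k, (x - (-1)) * i = 1 :=
    ⟨(x - (-1))⁻¹, mul_inv_cancel₀ (sub_ne_zero.mpr (by simpa using hxm))⟩
  obtain ⟨w, hw⟩ : ∃ w : k, y * w = 1 := ⟨y⁻¹, mul_inv_cancel₀ hy0⟩
  obtain ⟨h', e'⟩ := hφ x y h
  obtain ⟨hT, eT⟩ := theta_mp h3 ha₁ ha₂ ha₃ ha₄ ha₆ h h' (cube_ne_self hx0 hx1 hxm) i hi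
  obtain ⟨h'', e''⟩ := hφ _ _ hT
  have hy : y ≠ V.negY x y := by
    intro e
    apply hy0
    rw [negY, ha₁, ha₃] at e
    linear_combination 2 * e - y * h3
  obtain ⟨hD, eD⟩ := tangent V h hy ((-1) * x * w) _ _
    (by
      try simp only [negY, ha₁, ha₂, ha₃, ha₄]
      linear_combination (-x ^ 2 * y * w) * h3 + (3 * x ^ 2 - 2 * x) * hw) rfl rfl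
  have hinv : ((((-1) * x * w) ^ 2 + V.a₁ * ((-1) * x * w) - V.a₂ - x - x) - x) * (-(-1) * y ^ 2 * i ^ 3) = 1 := by
    try simp only [negY, ha₁, ha₂, ha₃, ha₄]
    linear_combination (-3 * x ^ 4 * i ^ 3 * w ^ 2 + 3 * x ^ 3 * i ^ 3 * w ^ 2 - 3 * x ^ 2 * i ^ 3 * w ^ 2 - 3 * x * y ^ 2 * i ^ 3 * w ^ 2 - 6 * x * i ^ 3 * w ^ 2 + y ^ 2 * i ^ 3 * w ^ 2) * hC + (-x ^ 7 * i ^ 3 * w ^ 2 + 2 * x ^ 6 * i ^ 3 * w ^ 2 - 2 * x ^ 5 * i ^ 3 * w ^ 2 - 2 * x ^ 4 * i ^ 3 * w ^ 2 + 3 * x ^ 3 * i ^ 3 * w ^ 2 - x ^ 2 * i ^ 3 * w ^ 2 - 2 * x * i ^ 3 * w ^ 2) * h3 + (x ^ 2 * i ^ 2 + 2 * x * i ^ 2 + x * i + i ^ 2 + i + 1) * hi + (x ^ 3 * y * i ^ 3 * w + x ^ 3 * i ^ 3 + 3 * x ^ 2 * y * i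 ^ 3 * w + 3 * x ^ 2 * i ^ 3 + 3 * x * y ^ 3 * i ^ 3 * w + 3 * x * y ^ 2 * i ^ 3 + 3 * x * y * i ^ 3 * w + 3 * x * i ^ 3 - y ^ 3 * i ^ 3 * w - y ^ 2 * i ^ 3 + y * i ^ 3 * w + i ^ 3) * hw
  have hxD : (((-1) * x * w) ^ 2 + V.a₁ * ((-1) * x * w) - V.a₂ - x - x) ≠ x := by
    intro e
    rw [e, sub_self, zero_mul] at hinv
    exact zero_ne_one hinv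
  obtain ⟨h3P, e3P⟩ := chord V hD h hxD (((-(((-1) * x * w) * ((((-1) * x * w) ^ 2 + V.a₁ * ((-1) * x * w) - V.a₂ - x - x) - x) + y) - V.a₁ * (((-1) * x * w) ^ 2 + V.a₁ * ((-1) * x * w) - V.a₂ - x - x) - V.a₃) - y) * (-(-1) * y ^ 2 * i ^ 3)) _ _
    (by
      try simp only [negY, ha₁, ha₂, ha₃, ha₄]
      linear_combination (6 * x ^ 10 * i ^ 3 * w ^ 5 - 9 * x ^ 9 * i ^ 3 * w ^ 5 + 3 * x ^ 8 * i ^ 3 * w ^ 5 + 6 * x ^ 7 * y ^ 2 * i ^ 3 * w ^ 5 + 27 * x ^ 7 * i ^ 3 * w ^ 5 - 3 * x ^ 6 * y ^ 2 * i ^ 3 * w ^ 5 - 27 * x ^ 6 * i ^ 3 * w ^ 5 + 6 * x ^ 4 * y ^ 4 * i ^ 3 * w ^ 5 + 21 * x ^ 4 * y ^ 2 * i ^ 3 * w ^ 5 + 30 * x ^ 4 * i ^ 3 * w ^ 5 + 3 * x ^ 3 * y ^ 4 * i ^ 3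 * w ^ 5 - 2 * x ^ 3 * y ^ 2 * i ^ 3 * w ^ 5 - 15 * x ^ 3 * i ^ 3 * w ^ 5 + 6 * x * y ^ 6 * i ^ 3 * w ^ 5 + 13 * x * y ^ 4 * i ^ 3 * w ^ 5 + 12 * x * y ^ 2 * i ^ 3 * w ^ 5 + 12 * x * i ^ 3 * w ^ 5 - 2 * y ^ 6 * i ^ 3 * w ^ 5) * hC + (2 * x ^ 13 * i ^ 3 * w ^ 5 - 5 * x ^ 12 * i ^ 3 * w ^ 5 + 4 * x ^ 11 * i ^ 3 * w ^ 5 + 10 * x ^ 10 * i ^ 3 * w ^ 5 - 21 * x ^ 9 * i ^ 3 * w ^ 5 + 10 * x ^ 8 * i ^ 3 * w ^ 5 + 19 * x ^ 7 * i ^ 3 * w ^ 5 - 24 * x ^ 6 * i ^ 3 * w ^ 5 + 5 * x ^ 5 * i ^ 3 * w ^ 5 + 14 * x ^ 4 * i ^ 3 * w ^ 5 - 9 * x ^ 3 * i ^ 3 * w ^ 5 + 4 * x * i ^ 3 * w ^ 5) * h3 + (x ^ 5 * i ^ 2 * w ^ 3 + 2 * x ^ 4 * i ^ 2 * w ^ 3 - 3 * x ^ 4 * i ^ 2 * w + x ^ 4 * i *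 w ^ 3 + x ^ 3 * i ^ 2 * w ^ 3 - 5 * x ^ 3 * i ^ 2 * w + x ^ 3 * i * w ^ 3 - 3 * x ^ 3 * i * w + x ^ 3 * w ^ 3 - 2 * x ^ 2 * y * i ^ 2 - x ^ 2 * i ^ 2 * w - 2 * x ^ 2 * i * w - 3 * x ^ 2 * w - 4 * x * y * i ^ 2 - 2 * x * y * i + x * i ^ 2 * w + x * i * w + x * w - 2 * y * i ^ 2 - 2 * y * i - 2 * y) * hi + (x ^ 6 * y * i ^ 3 * w ^ 4 + x ^ 6 * i ^ 3 * w ^ 3 - 3 * x ^ 5 * y ^ 3 * i ^ 3 * w ^ 4 - 3 * x ^ 5 * y ^ 2 * i ^ 3 * w ^ 3 + 3 * x ^ 5 * y * i ^ 3 * w ^ 4 - 3 * x ^ 5 * y * i ^ 3 * w ^ 2 + 3 * x ^ 5 * i ^ 3 * w ^ 3 - 3 * x ^ 5 * i ^ 3 * w - 2 * x ^ 4 * y ^ 3 * i ^ 3 * w ^ 4 - 2 * x ^ 4 * y ^ 2 * i ^ 3 * w ^ 3 + 3 * x ^ 4 * y * i ^ 3 * w ^ 4 - 8 * x ^ 4 * y * i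 ^ 3 * w ^ 2 + 3 * x ^ 4 * i ^ 3 * w ^ 3 - 8 * x ^ 4 * i ^ 3 * w - 11 * x ^ 3 * y ^ 5 * i ^ 3 * w ^ 4 - 11 * x ^ 3 * y ^ 4 * i ^ 3 * w ^ 3 - 8 * x ^ 3 * y ^ 3 * i ^ 3 * w ^ 4 - 11 * x ^ 3 * y ^ 3 * i ^ 3 * w ^ 2 - 8 * x ^ 3 * y ^ 2 * i ^ 3 * w ^ 3 - 11 * x ^ 3 * y ^ 2 * i ^ 3 * w + x ^ 3 * y * i ^ 3 * w ^ 4 - 6 * x ^ 3 * y * i ^ 3 * w ^ 2 - 2 * x ^ 3 * y * i ^ 3 + x ^ 3 * i ^ 3 * w ^ 3 - 6 * x ^ 3 * i ^ 3 * w + 2 * x ^ 2 * y ^ 5 * i ^ 3 * w ^ 4 + 2 * x ^ 2 * y ^ 4 * i ^ 3 * w ^ 3 + 2 * x ^ 2 * y ^ 3 * i ^ 3 * w ^ 2 - 6 * x ^ 2 * y * i ^ 3 - 6 * x * y ^ 7 * i ^ 3 * w ^ 4 - 6 * x * y ^ 6 * i ^ 3 * w ^ 3 - 7 * x * y ^ 5 * i ^ 3 * w ^ 4 - 6 * x * y ^ 5 * i ^ 3 * w ^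 2 - 7 * x * y ^ 4 * i ^ 3 * w ^ 3 - 6 * x * y ^ 4 * i ^ 3 * w + x * y ^ 3 * i ^ 3 * w ^ 4 - 7 * x * y ^ 3 * i ^ 3 * w ^ 2 - 6 * x * y ^ 3 * i ^ 3 + x * y ^ 2 * i ^ 3 * w ^ 3 - 7 * x * y ^ 2 * i ^ 3 * w + x * y * i ^ 3 * w ^ 2 - 6 * x * y * i ^ 3 + x * i ^ 3 * w + 2 * y ^ 7 * i ^ 3 * w ^ 4 + 2 * y ^ 6 * i ^ 3 * w ^ 3 - 2 * y ^ 5 * i ^ 3 * w ^ 4 + 2 * y ^ 5 * i ^ 3 * w ^ 2 - 2 * y ^ 4 * i ^ 3 * w ^ 3 + 2 * y ^ 4 * i ^ 3 * w - 2 * y ^ 3 * i ^ 3 * w ^ 2 + 2 * y ^ 3 * i ^ 3 - 2 * y ^ 2 * i ^ 3 * w - 2 * y * i ^ 3) * hw) rfl rfl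
  have hre : φ (φ (Point.some x y h)) + φ (Point.some x y h) + (Point.some x y h + Point.some x y h + Point.some x y h)
      = φ (φ (Point.some x y h) + Point.some x y h) + (Point.some x y h + Point.some x y h + Point.some x y h) := by
    rw [map_add]
  rw [hre, e', eT, e'', eD, e3P]
  refine Point.add_of_Y_eq ?_ ?_
  · try simp only [negY, ha₁, ha₂, ha₃, ha₄]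
    linear_combination (-3 * x ^ 15 * i ^ 6 * w ^ 6 + 6 * x ^ 14 * i ^ 6 * w ^ 6 + 6 * x ^ 13 * i ^ 6 * w ^ 6 - 3 * x ^ 12 * y ^ 2 * i ^ 6 * w ^ 6 - 36 * x ^ 12 * i ^ 6 * w ^ 6 + 3 * x ^ 11 * y ^ 2 * i ^ 6 * w ^ 6 + 27 * x ^ 11 * i ^ 6 * w ^ 6 + 9 * x ^ 10 * y ^ 2 * i ^ 6 * w ^ 6 + 33 * x ^ 10 * i ^ 6 * w ^ 6 - 3 * x ^ 9 * y ^ 4 * i ^ 6 * w ^ 6 - 24 * x ^ 9 * y ^ 2 * i ^ 6 * w ^ 6 - 63 * x ^ 9 * i ^ 6 * w ^ 6 + 39 * x ^ 8 * i ^ 6 * w ^ 6 + 9 * x ^ 7 * y ^ 4 * i ^ 6 * w ^ 6 + 24 * x ^ 7 * y ^ 2 * i ^ 6 * w ^ 6 + 21 * x ^ 7 * i ^ 6 * w ^ 6 - 4 * x ^ 6 * y ^ 6 * i ^ 6 * w ^ 6 - 12 * x ^ 6 * y ^ 4 * i ^ 6 * w ^ 6 - 15 * x ^ 6 * y ^ 2 * i ^ 6 * w ^ 6 - 60 * x ^ 6 *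 i ^ 6 * w ^ 6 - 4 * x ^ 5 * y ^ 6 * i ^ 6 * w ^ 6 - 13 * x ^ 5 * y ^ 4 * i ^ 6 * w ^ 6 + 24 * x ^ 5 * y ^ 2 * i ^ 6 * w ^ 6 + 48 * x ^ 5 * i ^ 6 * w ^ 6 + 3 * x ^ 4 * y ^ 6 * i ^ 6 * w ^ 6 - 4 * x ^ 4 * y ^ 4 * i ^ 6 * w ^ 6 + 21 * x ^ 4 * y ^ 2 * i ^ 6 * w ^ 6 + 27 * x ^ 4 * i ^ 6 * w ^ 6 - 4 * x ^ 3 * y ^ 8 * i ^ 6 * w ^ 6 - 2 * x ^ 3 * y ^ 6 * i ^ 6 * w ^ 6 - 21 * x ^ 3 * y ^ 4 * i ^ 6 * w ^ 6 - 24 * x ^ 3 * y ^ 2 * i ^ 6 * w ^ 6 - 33 * x ^ 3 * i ^ 6 * w ^ 6 - 8 * x ^ 2 * y ^ 8 * i ^ 6 * w ^ 6 - 5 * x ^ 2 * y ^ 6 * i ^ 6 * w ^ 6 - 4 * x ^ 2 * y ^ 4 * i ^ 6 * w ^ 6 + 3 * x ^ 2 * i ^ 6 * w ^ 6 + 4 * x * y ^ 8 * i ^ 6 * w ^ 6 + 4 * x * y ^ 6 * i ^ 6 * w ^ 6 + 6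 * x * y ^ 4 * i ^ 6 * w ^ 6 + 6 * x * y ^ 2 * i ^ 6 * w ^ 6 + 6 * x * i ^ 6 * w ^ 6 - 4 * y ^ 10 * i ^ 6 * w ^ 6 - 4 * y ^ 8 * i ^ 6 * w ^ 6 - 4 * y ^ 6 * i ^ 6 * w ^ 6 - 3 * y ^ 4 * i ^ 6 * w ^ 6 - 3 * y ^ 2 * i ^ 6 * w ^ 6 - 3 * i ^ 6 * w ^ 6) * hC + (-x ^ 18 * i ^ 6 * w ^ 6 + 3 * x ^ 17 * i ^ 6 * w ^ 6 - 15 * x ^ 15 * i ^ 6 * w ^ 6 + 23 * x ^ 14 * i ^ 6 * w ^ 6 + 4 * x ^ 13 * i ^ 6 * w ^ 6 - 44 * x ^ 12 * i ^ 6 * w ^ 6 + 43 * x ^ 11 * i ^ 6 * w ^ 6 + 5 * x ^ 10 * i ^ 6 * w ^ 6 - 48 * x ^ 9 * i ^ 6 * w ^ 6 + 49 * x ^ 8 * i ^ 6 * w ^ 6 - 40 * x ^ 6 * i ^ 6 * w ^ 6 + 28 * x ^ 5 * i ^ 6 * w ^ 6 + 10 * x ^ 4 * i ^ 6 * w ^ 6 - 14 * x ^ 3 * i ^ 6 * w ^ 6 + 2 * x ^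 2 * i ^ 6 * w ^ 6 + 2 * x * i ^ 6 * w ^ 6 - i ^ 6 * w ^ 6) * h3 + (-x ^ 7 * i ^ 5 * w ^ 2 - 5 * x ^ 6 * i ^ 5 * w ^ 2 + x ^ 6 * i ^ 5 - x ^ 6 * i ^ 4 * w ^ 2 - 10 * x ^ 5 * i ^ 5 * w ^ 2 + 5 * x ^ 5 * i ^ 5 - 4 * x ^ 5 * i ^ 4 * w ^ 2 + x ^ 5 * i ^ 4 - x ^ 5 * i ^ 3 * w ^ 2 - 10 * x ^ 4 * i ^ 5 * w ^ 2 + 10 * x ^ 4 * i ^ 5 - 6 * x ^ 4 * i ^ 4 * w ^ 2 + 4 * x ^ 4 * i ^ 4 - 3 * x ^ 4 * i ^ 3 * w ^ 2 + x ^ 4 * i ^ 3 - x ^ 4 * i ^ 2 * w ^ 2 - 5 * x ^ 3 * i ^ 5 * w ^ 2 + 10 * x ^ 3 * i ^ 5 - 4 * x ^ 3 * i ^ 4 * w ^ 2 + 6 * x ^ 3 * i ^ 4 - 3 * x ^ 3 * i ^ 3 * w ^ 2 + 3 * x ^ 3 * i ^ 3 - 2 * x ^ 3 * i ^ 2 * w ^ 2 + x ^ 3 * i ^ 2 - x ^ 3 * i * w ^ 2 - x ^ 2 * i ^ 5 * w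 ^ 2 + 5 * x ^ 2 * i ^ 5 - x ^ 2 * i ^ 4 * w ^ 2 + 4 * x ^ 2 * i ^ 4 - x ^ 2 * i ^ 3 * w ^ 2 + 3 * x ^ 2 * i ^ 3 - x ^ 2 * i ^ 2 * w ^ 2 + 2 * x ^ 2 * i ^ 2 - x ^ 2 * i * w ^ 2 + x ^ 2 * i - x ^ 2 * w ^ 2 + x * i ^ 5 + x * i ^ 4 + x * i ^ 3 + x * i ^ 2 + x * i + x) * hi + (-x ^ 9 * y ^ 5 * i ^ 6 * w ^ 5 - x ^ 9 * y ^ 4 * i ^ 6 * w ^ 4 - x ^ 9 * y ^ 3 * i ^ 6 * w ^ 3 - x ^ 9 * y ^ 2 * i ^ 6 * w ^ 2 - x ^ 9 * y * i ^ 6 * w - x ^ 9 * i ^ 6 - x ^ 8 * y ^ 3 * i ^ 6 * w ^ 5 - x ^ 8 * y ^ 2 * i ^ 6 * w ^ 4 - x ^ 8 * y * i ^ 6 * w ^ 3 - x ^ 8 * i ^ 6 * w ^ 2 - 2 * x ^ 7 * y ^ 5 * i ^ 6 * w ^ 5 - 2 * x ^ 7 * y ^ 4 * i ^ 6 * w ^ 4 - 6 * x ^ 7 * y ^ 3 * i ^ 6 * w ^ 5 - 2 *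 x ^ 7 * y ^ 3 * i ^ 6 * w ^ 3 - 6 * x ^ 7 * y ^ 2 * i ^ 6 * w ^ 4 - 2 * x ^ 7 * y ^ 2 * i ^ 6 * w ^ 2 - 6 * x ^ 7 * y * i ^ 6 * w ^ 3 - 2 * x ^ 7 * y * i ^ 6 * w - 6 * x ^ 7 * i ^ 6 * w ^ 2 - 2 * x ^ 7 * i ^ 6 + 3 * x ^ 6 * y ^ 5 * i ^ 6 * w ^ 5 + 3 * x ^ 6 * y ^ 4 * i ^ 6 * w ^ 4 - 15 * x ^ 6 * y ^ 3 * i ^ 6 * w ^ 5 + 3 * x ^ 6 * y ^ 3 * i ^ 6 * w ^ 3 - 15 * x ^ 6 * y ^ 2 * i ^ 6 * w ^ 4 + 3 * x ^ 6 * y ^ 2 * i ^ 6 * w ^ 2 - 15 * x ^ 6 * y * i ^ 6 * w ^ 3 + 3 * x ^ 6 * y * i ^ 6 * w - 15 * x ^ 6 * i ^ 6 * w ^ 2 + 3 * x ^ 6 * i ^ 6 + 6 * x ^ 5 * y ^ 5 * i ^ 6 * w ^ 5 + 6 * x ^ 5 * y ^ 4 * i ^ 6 * w ^ 4 - 20 * x ^ 5 * y ^ 3 * i ^ 6 * w ^ 5 + 12 * x ^ 5 * y ^ 3 *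 i ^ 6 * w ^ 3 - 20 * x ^ 5 * y ^ 2 * i ^ 6 * w ^ 4 + 12 * x ^ 5 * y ^ 2 * i ^ 6 * w ^ 2 - 20 * x ^ 5 * y * i ^ 6 * w ^ 3 + 12 * x ^ 5 * y * i ^ 6 * w - 20 * x ^ 5 * i ^ 6 * w ^ 2 + 12 * x ^ 5 * i ^ 6 + 9 * x ^ 4 * y ^ 7 * i ^ 6 * w ^ 5 + 9 * x ^ 4 * y ^ 6 * i ^ 6 * w ^ 4 + 16 * x ^ 4 * y ^ 5 * i ^ 6 * w ^ 5 + 9 * x ^ 4 * y ^ 5 * i ^ 6 * w ^ 3 + 16 * x ^ 4 * y ^ 4 * i ^ 6 * w ^ 4 + 9 * x ^ 4 * y ^ 4 * i ^ 6 * w ^ 2 - 15 * x ^ 4 * y ^ 3 * i ^ 6 * w ^ 5 + 14 * x ^ 4 * y ^ 3 * i ^ 6 * w ^ 3 - 15 * x ^ 4 * y ^ 2 * i ^ 6 * w ^ 4 + 14 * x ^ 4 * y ^ 2 * i ^ 6 * w ^ 2 - 15 * x ^ 4 * y * i ^ 6 * w ^ 3 + 14 * x ^ 4 * y * i ^ 6 * w - 15 * x ^ 4 * i ^ 6 * w ^ 2 + 14 * x ^ 4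 * i ^ 6 - 10 * x ^ 3 * y ^ 7 * i ^ 6 * w ^ 5 - 10 * x ^ 3 * y ^ 6 * i ^ 6 * w ^ 4 + 11 * x ^ 3 * y ^ 5 * i ^ 6 * w ^ 5 - 10 * x ^ 3 * y ^ 5 * i ^ 6 * w ^ 3 + 11 * x ^ 3 * y ^ 4 * i ^ 6 * w ^ 4 - 6 * x ^ 3 * y ^ 4 * i ^ 6 * w ^ 2 - 6 * x ^ 3 * y ^ 3 * i ^ 6 * w ^ 5 + 11 * x ^ 3 * y ^ 3 * i ^ 6 * w ^ 3 - 6 * x ^ 3 * y ^ 2 * i ^ 6 * w ^ 4 + 11 * x ^ 3 * y ^ 2 * i ^ 6 * w ^ 2 - 6 * x ^ 3 * y * i ^ 6 * w ^ 3 + 11 * x ^ 3 * y * i ^ 6 * w - 6 * x ^ 3 * i ^ 6 * w ^ 2 + 11 * x ^ 3 * i ^ 6 + 12 * x ^ 2 * y ^ 9 * i ^ 6 * w ^ 5 + 12 * x ^ 2 * y ^ 8 * i ^ 6 * w ^ 4 + x ^ 2 * y ^ 7 * i ^ 6 * w ^ 5 + 12 * x ^ 2 * y ^ 7 * i ^ 6 * w ^ 3 + x ^ 2 * y ^ 6 * i ^ 6 * w ^ 4 + 12 * x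 ^ 2 * y ^ 6 * i ^ 6 * w ^ 2 + 3 * x ^ 2 * y ^ 5 * i ^ 6 * w ^ 5 + x ^ 2 * y ^ 5 * i ^ 6 * w ^ 3 + 12 * x ^ 2 * y ^ 5 * i ^ 6 * w + 3 * x ^ 2 * y ^ 4 * i ^ 6 * w ^ 4 + x ^ 2 * y ^ 4 * i ^ 6 * w ^ 2 - x ^ 2 * y ^ 3 * i ^ 6 * w ^ 5 + 3 * x ^ 2 * y ^ 3 * i ^ 6 * w ^ 3 - x ^ 2 * y ^ 2 * i ^ 6 * w ^ 4 + 3 * x ^ 2 * y ^ 2 * i ^ 6 * w ^ 2 - x ^ 2 * y * i ^ 6 * w ^ 3 + 3 * x ^ 2 * y * i ^ 6 * w - x ^ 2 * i ^ 6 * w ^ 2 + 3 * x ^ 2 * i ^ 6 - 4 * x * y ^ 9 * i ^ 6 * w ^ 5 - 4 * x * y ^ 8 * i ^ 6 * w ^ 4 - 4 * x * y ^ 7 * i ^ 6 * w ^ 3 - 4 * x * y ^ 6 * i ^ 6 * w ^ 2 - 2 * x * y ^ 5 * i ^ 6 * w ^ 5 - 4 * x * y ^ 5 * i ^ 6 * w - 2 * x * y ^ 4 * i ^ 6 * w ^ 4 - 2 * x * y ^ 3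 * i ^ 6 * w ^ 3 - 2 * x * y ^ 2 * i ^ 6 * w ^ 2 - 2 * x * y * i ^ 6 * w - 2 * x * i ^ 6 + 4 * y ^ 11 * i ^ 6 * w ^ 5 + 4 * y ^ 10 * i ^ 6 * w ^ 4 + 4 * y ^ 9 * i ^ 6 * w ^ 3 + 4 * y ^ 8 * i ^ 6 * w ^ 2 + 4 * y ^ 7 * i ^ 6 * w + 4 * y ^ 6 * i ^ 6 - y ^ 5 * i ^ 6 * w ^ 5 - y ^ 4 * i ^ 6 * w ^ 4 - y ^ 3 * i ^ 6 * w ^ 3 - y ^ 2 * i ^ 6 * w ^ 2 - y * i ^ 6 * w - i ^ 6) * hw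
  · try simp only [negY, ha₁, ha₂, ha₃, ha₄]
    linear_combination (9 * x ^ 24 * i ^ 9 * w ^ 9 - 33 * x ^ 23 * i ^ 9 * w ^ 9 + 27 * x ^ 22 * i ^ 9 * w ^ 9 + 9 * x ^ 21 * y ^ 2 * i ^ 9 * w ^ 9 + 132 * x ^ 21 * i ^ 9 * w ^ 9 - 24 * x ^ 20 * y ^ 2 * i ^ 9 * w ^ 9 - 285 * x ^ 20 * i ^ 9 * w ^ 9 + 3 * x ^ 19 * y ^ 2 * i ^ 9 * w ^ 9 + 30 * x ^ 19 * i ^ 9 * w ^ 9 + 9 * x ^ 18 * y ^ 4 * i ^ 9 * w ^ 9 + 126 * x ^ 18 * y ^ 2 * i ^ 9 * w ^ 9 + 696 * x ^ 18 * i ^ 9 * w ^ 9 - 15 * x ^ 17 * y ^ 4 * i ^ 9 * w ^ 9 - 135 * x ^ 17 * y ^ 2 * i ^ 9 * w ^ 9 - 723 * x ^ 17 * i ^ 9 * w ^ 9 - 12 * x ^ 16 * y ^ 4 * i ^ 9 * w ^ 9 - 108 * x ^ 16 * y ^ 2 * i ^ 9 * w ^ 9 - 273 * x ^ 16 *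 i ^ 9 * w ^ 9 + 9 * x ^ 15 * y ^ 6 * i ^ 9 * w ^ 9 + 105 * x ^ 15 * y ^ 4 * i ^ 9 * w ^ 9 + 462 * x ^ 15 * y ^ 2 * i ^ 9 * w ^ 9 + 1248 * x ^ 15 * i ^ 9 * w ^ 9 - 6 * x ^ 14 * y ^ 6 * i ^ 9 * w ^ 9 - 15 * x ^ 14 * y ^ 4 * i ^ 9 * w ^ 9 - 126 * x ^ 14 * y ^ 2 * i ^ 9 * w ^ 9 - 726 * x ^ 14 * i ^ 9 * w ^ 9 - 18 * x ^ 13 * y ^ 6 * i ^ 9 * w ^ 9 - 111 * x ^ 13 * y ^ 4 * i ^ 9 * w ^ 9 - 291 * x ^ 13 * y ^ 2 * i ^ 9 * w ^ 9 - 162 * x ^ 13 * i ^ 9 * w ^ 9 + 9 * x ^ 12 * y ^ 8 * i ^ 9 * w ^ 9 + 78 * x ^ 12 * y ^ 6 * i ^ 9 * w ^ 9 + 246 * x ^ 12 * y ^ 4 * i ^ 9 * w ^ 9 + 495 * x ^ 12 * y ^ 2 * i ^ 9 * w ^ 9 + 966 * x ^ 12 * i ^ 9 * w ^ 9 + 3 * x ^ 11 * y ^ 8 * i ^ 9 * w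 ^ 9 + 69 * x ^ 11 * y ^ 6 * i ^ 9 * w ^ 9 + 135 * x ^ 11 * y ^ 4 * i ^ 9 * w ^ 9 - 105 * x ^ 11 * y ^ 2 * i ^ 9 * w ^ 9 - 927 * x ^ 11 * i ^ 9 * w ^ 9 - 15 * x ^ 10 * y ^ 8 * i ^ 9 * w ^ 9 - 24 * x ^ 10 * y ^ 6 * i ^ 9 * w ^ 9 - 45 * x ^ 10 * y ^ 4 * i ^ 9 * w ^ 9 + 24 * x ^ 10 * y ^ 2 * i ^ 9 * w ^ 9 + 369 * x ^ 10 * i ^ 9 * w ^ 9 + 9 * x ^ 9 * y ^ 10 * i ^ 9 * w ^ 9 + 54 * x ^ 9 * y ^ 8 * i ^ 9 * w ^ 9 + 145 * x ^ 9 * y ^ 6 * i ^ 9 * w ^ 9 + 204 * x ^ 9 * y ^ 4 * i ^ 9 * w ^ 9 + 495 * x ^ 9 * y ^ 2 * i ^ 9 * w ^ 9 + 936 * x ^ 9 * i ^ 9 * w ^ 9 + 12 * x ^ 8 * y ^ 10 * i ^ 9 * w ^ 9 + 117 * x ^ 8 * y ^ 8 * i ^ 9 * w ^ 9 + 218 * x ^ 8 * y ^ 6 * i ^ 9 * w ^ 9 - 36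 * x ^ 8 * y ^ 4 * i ^ 9 * w ^ 9 - 327 * x ^ 8 * y ^ 2 * i ^ 9 * w ^ 9 - 876 * x ^ 8 * i ^ 9 * w ^ 9 - 3 * x ^ 7 * y ^ 10 * i ^ 9 * w ^ 9 + 91 * x ^ 7 * y ^ 8 * i ^ 9 * w ^ 9 + 221 * x ^ 7 * y ^ 6 * i ^ 9 * w ^ 9 + 33 * x ^ 7 * y ^ 4 * i ^ 9 * w ^ 9 + 18 * x ^ 7 * y ^ 2 * i ^ 9 * w ^ 9 + 84 * x ^ 7 * i ^ 9 * w ^ 9 + 8 * x ^ 6 * y ^ 12 * i ^ 9 * w ^ 9 + 32 * x ^ 6 * y ^ 10 * i ^ 9 * w ^ 9 + 134 * x ^ 6 * y ^ 8 * i ^ 9 * w ^ 9 + 335 * x ^ 6 * y ^ 6 * i ^ 9 * w ^ 9 + 324 * x ^ 6 * y ^ 4 * i ^ 9 * w ^ 9 + 459 * x ^ 6 * y ^ 2 * i ^ 9 * w ^ 9 + 654 * x ^ 6 * i ^ 9 * w ^ 9 + 20 * x ^ 5 * y ^ 12 * i ^ 9 * w ^ 9 + 84 * x ^ 5 * y ^ 10 * i ^ 9 * w ^ 9 + 127 * x ^ 5 * y ^ 8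 * i ^ 9 * w ^ 9 + 167 * x ^ 5 * y ^ 6 * i ^ 9 * w ^ 9 + 33 * x ^ 5 * y ^ 4 * i ^ 9 * w ^ 9 - 90 * x ^ 5 * y ^ 2 * i ^ 9 * w ^ 9 - 237 * x ^ 5 * i ^ 9 * w ^ 9 + 14 * x ^ 4 * y ^ 12 * i ^ 9 * w ^ 9 + 93 * x ^ 4 * y ^ 10 * i ^ 9 * w ^ 9 + 101 * x ^ 4 * y ^ 8 * i ^ 9 * w ^ 9 + 75 * x ^ 4 * y ^ 6 * i ^ 9 * w ^ 9 + 18 * x ^ 4 * y ^ 4 * i ^ 9 * w ^ 9 - 24 * x ^ 4 * y ^ 2 * i ^ 9 * w ^ 9 - 60 * x ^ 4 * i ^ 9 * w ^ 9 + 8 * x ^ 3 * y ^ 14 * i ^ 9 * w ^ 9 - 20 * x ^ 3 * y ^ 12 * i ^ 9 * w ^ 9 + 51 * x ^ 3 * y ^ 10 * i ^ 9 * w ^ 9 + 125 * x ^ 3 * y ^ 8 * i ^ 9 * w ^ 9 + 136 * x ^ 3 * y ^ 6 * i ^ 9 * w ^ 9 + 153 * x ^ 3 * y ^ 4 * i ^ 9 * w ^ 9 + 171 * x ^ 3 * y ^ 2 * i ^ 9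 * w ^ 9 + 189 * x ^ 3 * i ^ 9 * w ^ 9 + 28 * x ^ 2 * y ^ 14 * i ^ 9 * w ^ 9 + 26 * x ^ 2 * y ^ 12 * i ^ 9 * w ^ 9 + 21 * x ^ 2 * y ^ 10 * i ^ 9 * w ^ 9 + 48 * x ^ 2 * y ^ 8 * i ^ 9 * w ^ 9 + 36 * x ^ 2 * y ^ 6 * i ^ 9 * w ^ 9 + 30 * x ^ 2 * y ^ 4 * i ^ 9 * w ^ 9 + 24 * x ^ 2 * y ^ 2 * i ^ 9 * w ^ 9 + 18 * x ^ 2 * i ^ 9 * w ^ 9 - 12 * x * y ^ 14 * i ^ 9 * w ^ 9 - 12 * x * y ^ 12 * i ^ 9 * w ^ 9 - 21 * x * y ^ 10 * i ^ 9 * w ^ 9 - 11 * x * y ^ 8 * i ^ 9 * w ^ 9 - 12 * x * y ^ 6 * i ^ 9 * w ^ 9 - 12 * x * y ^ 4 * i ^ 9 * w ^ 9 - 12 * x * y ^ 2 * i ^ 9 * w ^ 9 - 12 * x * i ^ 9 * w ^ 9 + 8 * y ^ 16 * i ^ 9 * w ^ 9 + 8 * y ^ 14 * i ^ 9 * w ^ 9 + 8 * y ^ 12 * i ^ 9 *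 w ^ 9 + 5 * y ^ 10 * i ^ 9 * w ^ 9 + 6 * y ^ 8 * i ^ 9 * w ^ 9 + 6 * y ^ 6 * i ^ 9 * w ^ 9 + 6 * y ^ 4 * i ^ 9 * w ^ 9 + 6 * y ^ 2 * i ^ 9 * w ^ 9 + 6 * i ^ 9 * w ^ 9) * hC + (3 * x ^ 27 * i ^ 9 * w ^ 9 - 14 * x ^ 26 * i ^ 9 * w ^ 9 + 20 * x ^ 25 * i ^ 9 * w ^ 9 + 38 * x ^ 24 * i ^ 9 * w ^ 9 - 150 * x ^ 23 * i ^ 9 * w ^ 9 + 114 * x ^ 22 * i ^ 9 * w ^ 9 + 266 * x ^ 21 * i ^ 9 * w ^ 9 - 568 * x ^ 20 * i ^ 9 * w ^ 9 + 160 * x ^ 19 * i ^ 9 * w ^ 9 + 739 * x ^ 18 * i ^ 9 * w ^ 9 - 899 * x ^ 17 * i ^ 9 * w ^ 9 + 97 * x ^ 16 * i ^ 9 * w ^ 9 + 792 * x ^ 15 * i ^ 9 * w ^ 9 - 873 * x ^ 14 * i ^ 9 * w ^ 9 + 378 * x ^ 13 * i ^ 9 * w ^ 9 + 511 * x ^ 12 * i ^ 9 * w ^ 9 - 913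 * x ^ 11 * i ^ 9 * w ^ 9 + 443 * x ^ 10 * i ^ 9 * w ^ 9 + 502 * x ^ 9 * i ^ 9 * w ^ 9 - 589 * x ^ 8 * i ^ 9 * w ^ 9 + 87 * x ^ 7 * i ^ 9 * w ^ 9 + 301 * x ^ 6 * i ^ 9 * w ^ 9 - 136 * x ^ 5 * i ^ 9 * w ^ 9 - 30 * x ^ 4 * i ^ 9 * w ^ 9 + 69 * x ^ 3 * i ^ 9 * w ^ 9 + 4 * x ^ 2 * i ^ 9 * w ^ 9 - 4 * x * i ^ 9 * w ^ 9 + 2 * i ^ 9 * w ^ 9) * h3 + (x ^ 11 * i ^ 8 * w ^ 3 - 2 * x ^ 10 * y ^ 2 * i ^ 8 * w ^ 5 + 8 * x ^ 10 * i ^ 8 * w ^ 3 - 3 * x ^ 10 * i ^ 8 * w + x ^ 10 * i ^ 7 * w ^ 3 - 10 * x ^ 9 * y ^ 2 * i ^ 8 * w ^ 5 + 9 * x ^ 9 * y ^ 2 * i ^ 8 * w ^ 3 - 2 * x ^ 9 * y ^ 2 * i ^ 7 * w ^ 5 + 28 * x ^ 9 * i ^ 8 * w ^ 3 - 23 * x ^ 9 * i ^ 8 * w + 7 * x ^ 9 * i ^ 7 * w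 ^ 3 - 3 * x ^ 9 * i ^ 7 * w + x ^ 9 * i ^ 6 * w ^ 3 - 20 * x ^ 8 * y ^ 2 * i ^ 8 * w ^ 5 + 42 * x ^ 8 * y ^ 2 * i ^ 8 * w ^ 3 - 9 * x ^ 8 * y ^ 2 * i ^ 8 * w - 8 * x ^ 8 * y ^ 2 * i ^ 7 * w ^ 5 + 9 * x ^ 8 * y ^ 2 * i ^ 7 * w ^ 3 - 2 * x ^ 8 * y ^ 2 * i ^ 6 * w ^ 5 - x ^ 8 * y * i ^ 8 + 56 * x ^ 8 * i ^ 8 * w ^ 3 - 76 * x ^ 8 * i ^ 8 * w + 21 * x ^ 8 * i ^ 7 * w ^ 3 - 20 * x ^ 8 * i ^ 7 * w + 6 * x ^ 8 * i ^ 6 * w ^ 3 - 3 * x ^ 8 * i ^ 6 * w + x ^ 8 * i ^ 5 * w ^ 3 + 4 * x ^ 7 * y ^ 3 * i ^ 8 * w ^ 2 - 20 * x ^ 7 * y ^ 2 * i ^ 8 * w ^ 5 + 75 * x ^ 7 * y ^ 2 * i ^ 8 * w ^ 3 - 39 * x ^ 7 * y ^ 2 * i ^ 8 * w - 12 * x ^ 7 * y ^ 2 * i ^ 7 * w ^ 5 + 33 * x ^ 7 * y ^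 2 * i ^ 7 * w ^ 3 - 9 * x ^ 7 * y ^ 2 * i ^ 7 * w - 6 * x ^ 7 * y ^ 2 * i ^ 6 * w ^ 5 + 9 * x ^ 7 * y ^ 2 * i ^ 6 * w ^ 3 - 2 * x ^ 7 * y ^ 2 * i ^ 5 * w ^ 5 - 8 * x ^ 7 * y * i ^ 8 - x ^ 7 * y * i ^ 7 + 70 * x ^ 7 * i ^ 8 * w ^ 3 - 140 * x ^ 7 * i ^ 8 * w + 35 * x ^ 7 * i ^ 7 * w ^ 3 - 56 * x ^ 7 * i ^ 7 * w + 15 * x ^ 7 * i ^ 6 * w ^ 3 - 17 * x ^ 7 * i ^ 6 * w + 5 * x ^ 7 * i ^ 5 * w ^ 3 - 3 * x ^ 7 * i ^ 5 * w + x ^ 7 * i ^ 4 * w ^ 3 + 20 * x ^ 6 * y ^ 3 * i ^ 8 * w ^ 2 - 6 * x ^ 6 * y ^ 3 * i ^ 8 + 4 * x ^ 6 * y ^ 3 * i ^ 7 * w ^ 2 - 10 * x ^ 6 * y ^ 2 * i ^ 8 * w ^ 5 + 60 * x ^ 6 * y ^ 2 * i ^ 8 * w ^ 3 - 61 * x ^ 6 * y ^ 2 * i ^ 8 * w - 8 * x ^ 6 * y ^ 2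 * i ^ 7 * w ^ 5 + 42 * x ^ 6 * y ^ 2 * i ^ 7 * w ^ 3 - 30 * x ^ 6 * y ^ 2 * i ^ 7 * w - 6 * x ^ 6 * y ^ 2 * i ^ 6 * w ^ 5 + 24 * x ^ 6 * y ^ 2 * i ^ 6 * w ^ 3 - 9 * x ^ 6 * y ^ 2 * i ^ 6 * w - 4 * x ^ 6 * y ^ 2 * i ^ 5 * w ^ 5 + 9 * x ^ 6 * y ^ 2 * i ^ 5 * w ^ 3 - 2 * x ^ 6 * y ^ 2 * i ^ 4 * w ^ 5 - 28 * x ^ 6 * y * i ^ 8 - 7 * x ^ 6 * y * i ^ 7 - x ^ 6 * y * i ^ 6 + 56 * x ^ 6 * i ^ 8 * w ^ 3 - 154 * x ^ 6 * i ^ 8 * w + 35 * x ^ 6 * i ^ 7 * w ^ 3 - 84 * x ^ 6 * i ^ 7 * w + 20 * x ^ 6 * i ^ 6 * w ^ 3 - 39 * x ^ 6 * i ^ 6 * w + 10 * x ^ 6 * i ^ 5 * w ^ 3 - 14 * x ^ 6 * i ^ 5 * w + 4 * x ^ 6 * i ^ 4 * w ^ 3 - 3 * x ^ 6 * i ^ 4 * w + x ^ 6 * i ^ 3 * w ^ 3 + 40 * x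 ^ 5 * y ^ 3 * i ^ 8 * w ^ 2 - 28 * x ^ 5 * y ^ 3 * i ^ 8 + 16 * x ^ 5 * y ^ 3 * i ^ 7 * w ^ 2 - 6 * x ^ 5 * y ^ 3 * i ^ 7 + 4 * x ^ 5 * y ^ 3 * i ^ 6 * w ^ 2 - 2 * x ^ 5 * y ^ 2 * i ^ 8 * w ^ 5 + 15 * x ^ 5 * y ^ 2 * i ^ 8 * w ^ 3 - 35 * x ^ 5 * y ^ 2 * i ^ 8 * w - 2 * x ^ 5 * y ^ 2 * i ^ 7 * w ^ 5 + 18 * x ^ 5 * y ^ 2 * i ^ 7 * w ^ 3 - 31 * x ^ 5 * y ^ 2 * i ^ 7 * w - 2 * x ^ 5 * y ^ 2 * i ^ 6 * w ^ 5 + 18 * x ^ 5 * y ^ 2 * i ^ 6 * w ^ 3 - 21 * x ^ 5 * y ^ 2 * i ^ 6 * w - 2 * x ^ 5 * y ^ 2 * i ^ 5 * w ^ 5 + 15 * x ^ 5 * y ^ 2 * i ^ 5 * w ^ 3 - 9 * x ^ 5 * y ^ 2 * i ^ 5 * w - 2 * x ^ 5 * y ^ 2 * i ^ 4 * w ^ 5 + 9 * x ^ 5 * y ^ 2 * i ^ 4 * w ^ 3 - 2 * x ^ 5 * y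 ^ 2 * i ^ 3 * w ^ 5 - 56 * x ^ 5 * y * i ^ 8 - 21 * x ^ 5 * y * i ^ 7 - 6 * x ^ 5 * y * i ^ 6 - x ^ 5 * y * i ^ 5 + 28 * x ^ 5 * i ^ 8 * w ^ 3 - 98 * x ^ 5 * i ^ 8 * w + 21 * x ^ 5 * i ^ 7 * w ^ 3 - 70 * x ^ 5 * i ^ 7 * w + 15 * x ^ 5 * i ^ 6 * w ^ 3 - 45 * x ^ 5 * i ^ 6 * w + 10 * x ^ 5 * i ^ 5 * w ^ 3 - 25 * x ^ 5 * i ^ 5 * w + 6 * x ^ 5 * i ^ 4 * w ^ 3 - 11 * x ^ 5 * i ^ 4 * w + 3 * x ^ 5 * i ^ 3 * w ^ 3 - 3 * x ^ 5 * i ^ 3 * w + x ^ 5 * i ^ 2 * w ^ 3 + 40 * x ^ 4 * y ^ 3 * i ^ 8 * w ^ 2 - 50 * x ^ 4 * y ^ 3 * i ^ 8 + 24 * x ^ 4 * y ^ 3 * i ^ 7 * w ^ 2 - 22 * x ^ 4 * y ^ 3 * i ^ 7 + 12 * x ^ 4 * y ^ 3 * i ^ 6 * w ^ 2 - 6 * x ^ 4 * y ^ 3 * i ^ 6 + 4 * x ^ 4 *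 y ^ 3 * i ^ 5 * w ^ 2 - 6 * x ^ 4 * y ^ 2 * i ^ 8 * w ^ 3 + 5 * x ^ 4 * y ^ 2 * i ^ 8 * w - 3 * x ^ 4 * y ^ 2 * i ^ 7 * w ^ 3 - 4 * x ^ 4 * y ^ 2 * i ^ 7 * w - 10 * x ^ 4 * y ^ 2 * i ^ 6 * w + 3 * x ^ 4 * y ^ 2 * i ^ 5 * w ^ 3 - 12 * x ^ 4 * y ^ 2 * i ^ 5 * w + 6 * x ^ 4 * y ^ 2 * i ^ 4 * w ^ 3 - 9 * x ^ 4 * y ^ 2 * i ^ 4 * w + 9 * x ^ 4 * y ^ 2 * i ^ 3 * w ^ 3 - 70 * x ^ 4 * y * i ^ 8 - 35 * x ^ 4 * y * i ^ 7 - 15 * x ^ 4 * y * i ^ 6 - 5 * x ^ 4 * y * i ^ 5 - x ^ 4 * y * i ^ 4 + 8 * x ^ 4 * i ^ 8 * w ^ 3 - 28 * x ^ 4 * i ^ 8 * w + 7 * x ^ 4 * i ^ 7 * w ^ 3 - 28 * x ^ 4 * i ^ 7 * w + 6 * x ^ 4 * i ^ 6 * w ^ 3 - 25 * x ^ 4 * i ^ 6 * w + 5 * x ^ 4 * i ^ 5 * w ^ 3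 - 20 * x ^ 4 * i ^ 5 * w + 4 * x ^ 4 * i ^ 4 * w ^ 3 - 14 * x ^ 4 * i ^ 4 * w + 3 * x ^ 4 * i ^ 3 * w ^ 3 - 8 * x ^ 4 * i ^ 3 * w + 2 * x ^ 4 * i ^ 2 * w ^ 3 - 3 * x ^ 4 * i ^ 2 * w + x ^ 4 * i * w ^ 3 + 20 * x ^ 3 * y ^ 3 * i ^ 8 * w ^ 2 - 40 * x ^ 3 * y ^ 3 * i ^ 8 + 16 * x ^ 3 * y ^ 3 * i ^ 7 * w ^ 2 - 28 * x ^ 3 * y ^ 3 * i ^ 7 + 12 * x ^ 3 * y ^ 3 * i ^ 6 * w ^ 2 - 16 * x ^ 3 * y ^ 3 * i ^ 6 + 8 * x ^ 3 * y ^ 3 * i ^ 5 * w ^ 2 - 6 * x ^ 3 * y ^ 3 * i ^ 5 + 4 * x ^ 3 * y ^ 3 * i ^ 4 * w ^ 2 - 3 * x ^ 3 * y ^ 2 * i ^ 8 * w ^ 3 + 11 * x ^ 3 * y ^ 2 * i ^ 8 * w - 3 * x ^ 3 * y ^ 2 * i ^ 7 * w ^ 3 + 9 * x ^ 3 * y ^ 2 * i ^ 7 * w - 3 * x ^ 3 * y ^ 2 * i ^ 6 * w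 ^ 3 + 6 * x ^ 3 * y ^ 2 * i ^ 6 * w - 3 * x ^ 3 * y ^ 2 * i ^ 5 * w ^ 3 + 2 * x ^ 3 * y ^ 2 * i ^ 5 * w - 3 * x ^ 3 * y ^ 2 * i ^ 4 * w ^ 3 - 3 * x ^ 3 * y ^ 2 * i ^ 4 * w - 3 * x ^ 3 * y ^ 2 * i ^ 3 * w ^ 3 - 9 * x ^ 3 * y ^ 2 * i ^ 3 * w - 56 * x ^ 3 * y * i ^ 8 - 35 * x ^ 3 * y * i ^ 7 - 20 * x ^ 3 * y * i ^ 6 - 10 * x ^ 3 * y * i ^ 5 - 4 * x ^ 3 * y * i ^ 4 - x ^ 3 * y * i ^ 3 + x ^ 3 * i ^ 8 * w ^ 3 + 4 * x ^ 3 * i ^ 8 * w + x ^ 3 * i ^ 7 * w ^ 3 + x ^ 3 * i ^ 6 * w ^ 3 - 3 * x ^ 3 * i ^ 6 * w + x ^ 3 * i ^ 5 * w ^ 3 - 5 * x ^ 3 * i ^ 5 * w + x ^ 3 * i ^ 4 * w ^ 3 - 6 * x ^ 3 * i ^ 4 * w + x ^ 3 * i ^ 3 * w ^ 3 - 6 * x ^ 3 * i ^ 3 * w + x ^ 3 * i ^ 2 * w ^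 3 - 5 * x ^ 3 * i ^ 2 * w + x ^ 3 * i * w ^ 3 - 3 * x ^ 3 * i * w + x ^ 3 * w ^ 3 + 4 * x ^ 2 * y ^ 3 * i ^ 8 * w ^ 2 - 10 * x ^ 2 * y ^ 3 * i ^ 8 + 4 * x ^ 2 * y ^ 3 * i ^ 7 * w ^ 2 - 12 * x ^ 2 * y ^ 3 * i ^ 7 + 4 * x ^ 2 * y ^ 3 * i ^ 6 * w ^ 2 - 12 * x ^ 2 * y ^ 3 * i ^ 6 + 4 * x ^ 2 * y ^ 3 * i ^ 5 * w ^ 2 - 10 * x ^ 2 * y ^ 3 * i ^ 5 + 4 * x ^ 2 * y ^ 3 * i ^ 4 * w ^ 2 - 6 * x ^ 2 * y ^ 3 * i ^ 4 + 4 * x ^ 2 * y ^ 3 * i ^ 3 * w ^ 2 + x ^ 2 * y ^ 2 * i ^ 8 * w + 2 * x ^ 2 * y ^ 2 * i ^ 7 * w + 3 * x ^ 2 * y ^ 2 * i ^ 6 * w + 4 * x ^ 2 * y ^ 2 * i ^ 5 * w + 5 * x ^ 2 * y ^ 2 * i ^ 4 * w + 6 * x ^ 2 * y ^ 2 * i ^ 3 * w - 28 * x ^ 2 * y * i ^ 8 - 21 * x ^ 2 *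 y * i ^ 7 - 15 * x ^ 2 * y * i ^ 6 - 10 * x ^ 2 * y * i ^ 5 - 6 * x ^ 2 * y * i ^ 4 - 3 * x ^ 2 * y * i ^ 3 - x ^ 2 * y * i ^ 2 + 5 * x ^ 2 * i ^ 8 * w + 4 * x ^ 2 * i ^ 7 * w + 3 * x ^ 2 * i ^ 6 * w + 2 * x ^ 2 * i ^ 5 * w + x ^ 2 * i ^ 4 * w - x ^ 2 * i ^ 2 * w - 2 * x ^ 2 * i * w - 3 * x ^ 2 * w + 4 * x * y ^ 3 * i ^ 8 + 2 * x * y ^ 3 * i ^ 7 - 2 * x * y ^ 3 * i ^ 5 - 4 * x * y ^ 3 * i ^ 4 - 6 * x * y ^ 3 * i ^ 3 - x * y ^ 2 * i ^ 8 * w - x * y ^ 2 * i ^ 7 * w - x * y ^ 2 * i ^ 6 * w - x * y ^ 2 * i ^ 5 * w - x * y ^ 2 * i ^ 4 * w - x * y ^ 2 * i ^ 3 * w - 8 * x * y * i ^ 8 - 7 * x * y * i ^ 7 - 6 * x * y * i ^ 6 - 5 * x * y * i ^ 5 - 4 * x * y * i ^ 4 - 3 *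 x * y * i ^ 3 - 2 * x * y * i ^ 2 - x * y * i + x * i ^ 8 * w + x * i ^ 7 * w + x * i ^ 6 * w + x * i ^ 5 * w + x * i ^ 4 * w + x * i ^ 3 * w + x * i ^ 2 * w + x * i * w + x * w + 2 * y ^ 3 * i ^ 8 + 2 * y ^ 3 * i ^ 7 + 2 * y ^ 3 * i ^ 6 + 2 * y ^ 3 * i ^ 5 + 2 * y ^ 3 * i ^ 4 + 2 * y ^ 3 * i ^ 3 - y * i ^ 8 - y * i ^ 7 - y * i ^ 6 - y * i ^ 5 - y * i ^ 4 - y * i ^ 3 - y * i ^ 2 - y * i - y) * hi + (x ^ 12 * y ^ 5 * i ^ 9 * w ^ 8 + x ^ 12 * y ^ 4 * i ^ 9 * w ^ 7 + x ^ 12 * y ^ 3 * i ^ 9 * w ^ 6 + x ^ 12 * y ^ 2 * i ^ 9 * w ^ 5 + x ^ 12 * y * i ^ 9 * w ^ 4 + x ^ 12 * i ^ 9 * w ^ 3 - 3 * x ^ 11 * y ^ 7 * i ^ 9 * w ^ 8 - 3 * x ^ 11 * y ^ 6 * i ^ 9 * w ^ 7 + 7 * x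 ^ 11 * y ^ 5 * i ^ 9 * w ^ 8 - 3 * x ^ 11 * y ^ 5 * i ^ 9 * w ^ 6 + 7 * x ^ 11 * y ^ 4 * i ^ 9 * w ^ 7 - 3 * x ^ 11 * y ^ 4 * i ^ 9 * w ^ 5 + 7 * x ^ 11 * y ^ 3 * i ^ 9 * w ^ 6 - 3 * x ^ 11 * y ^ 3 * i ^ 9 * w ^ 4 + 7 * x ^ 11 * y ^ 2 * i ^ 9 * w ^ 5 - 3 * x ^ 11 * y ^ 2 * i ^ 9 * w ^ 3 + 9 * x ^ 11 * y * i ^ 9 * w ^ 4 - 3 * x ^ 11 * y * i ^ 9 * w ^ 2 + 9 * x ^ 11 * i ^ 9 * w ^ 3 - 3 * x ^ 11 * i ^ 9 * w - 17 * x ^ 10 * y ^ 7 * i ^ 9 * w ^ 8 - 17 * x ^ 10 * y ^ 6 * i ^ 9 * w ^ 7 + 24 * x ^ 10 * y ^ 5 * i ^ 9 * w ^ 8 - 17 * x ^ 10 * y ^ 5 * i ^ 9 * w ^ 6 + 24 * x ^ 10 * y ^ 4 * i ^ 9 * w ^ 7 - 17 * x ^ 10 * y ^ 4 * i ^ 9 * w ^ 5 + 24 * x ^ 10 * y ^ 3 * i ^ 9 * w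 ^ 6 - 17 * x ^ 10 * y ^ 3 * i ^ 9 * w ^ 4 + 24 * x ^ 10 * y ^ 2 * i ^ 9 * w ^ 5 - 17 * x ^ 10 * y ^ 2 * i ^ 9 * w ^ 3 + 36 * x ^ 10 * y * i ^ 9 * w ^ 4 - 26 * x ^ 10 * y * i ^ 9 * w ^ 2 + 36 * x ^ 10 * i ^ 9 * w ^ 3 - 26 * x ^ 10 * i ^ 9 * w - x ^ 9 * y ^ 11 * i ^ 9 * w ^ 8 - x ^ 9 * y ^ 10 * i ^ 9 * w ^ 7 - 10 * x ^ 9 * y ^ 9 * i ^ 9 * w ^ 8 - x ^ 9 * y ^ 9 * i ^ 9 * w ^ 6 - 10 * x ^ 9 * y ^ 8 * i ^ 9 * w ^ 7 - x ^ 9 * y ^ 8 * i ^ 9 * w ^ 5 - 48 * x ^ 9 * y ^ 7 * i ^ 9 * w ^ 8 - 10 * x ^ 9 * y ^ 7 * i ^ 9 * w ^ 6 - x ^ 9 * y ^ 7 * i ^ 9 * w ^ 4 - 48 * x ^ 9 * y ^ 6 * i ^ 9 * w ^ 7 - 10 * x ^ 9 * y ^ 6 * i ^ 9 * w ^ 5 - x ^ 9 * y ^ 6 * i ^ 9 * w ^ 3 + 54 * x ^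 9 * y ^ 5 * i ^ 9 * w ^ 8 - 48 * x ^ 9 * y ^ 5 * i ^ 9 * w ^ 6 - 10 * x ^ 9 * y ^ 5 * i ^ 9 * w ^ 4 - x ^ 9 * y ^ 5 * i ^ 9 * w ^ 2 + 54 * x ^ 9 * y ^ 4 * i ^ 9 * w ^ 7 - 48 * x ^ 9 * y ^ 4 * i ^ 9 * w ^ 5 - 10 * x ^ 9 * y ^ 4 * i ^ 9 * w ^ 3 - x ^ 9 * y ^ 4 * i ^ 9 * w + 54 * x ^ 9 * y ^ 3 * i ^ 9 * w ^ 6 - 48 * x ^ 9 * y ^ 3 * i ^ 9 * w ^ 4 - 10 * x ^ 9 * y ^ 3 * i ^ 9 * w ^ 2 - x ^ 9 * y ^ 3 * i ^ 9 + 54 * x ^ 9 * y ^ 2 * i ^ 9 * w ^ 5 - 48 * x ^ 9 * y ^ 2 * i ^ 9 * w ^ 3 - 10 * x ^ 9 * y ^ 2 * i ^ 9 * w + 84 * x ^ 9 * y * i ^ 9 * w ^ 4 - 99 * x ^ 9 * y * i ^ 9 * w ^ 2 - x ^ 9 * y * i ^ 9 + 84 * x ^ 9 * i ^ 9 * w ^ 3 - 99 * x ^ 9 * i ^ 9 * w - 53 * x ^ 8 * y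 ^ 9 * i ^ 9 * w ^ 8 - 53 * x ^ 8 * y ^ 8 * i ^ 9 * w ^ 7 - 108 * x ^ 8 * y ^ 7 * i ^ 9 * w ^ 8 - 53 * x ^ 8 * y ^ 7 * i ^ 9 * w ^ 6 - 108 * x ^ 8 * y ^ 6 * i ^ 9 * w ^ 7 - 53 * x ^ 8 * y ^ 6 * i ^ 9 * w ^ 5 + 86 * x ^ 8 * y ^ 5 * i ^ 9 * w ^ 8 - 99 * x ^ 8 * y ^ 5 * i ^ 9 * w ^ 6 - 53 * x ^ 8 * y ^ 5 * i ^ 9 * w ^ 4 + 86 * x ^ 8 * y ^ 4 * i ^ 9 * w ^ 7 - 99 * x ^ 8 * y ^ 4 * i ^ 9 * w ^ 5 - 53 * x ^ 8 * y ^ 4 * i ^ 9 * w ^ 3 + 86 * x ^ 8 * y ^ 3 * i ^ 9 * w ^ 6 - 99 * x ^ 8 * y ^ 3 * i ^ 9 * w ^ 4 - 53 * x ^ 8 * y ^ 3 * i ^ 9 * w ^ 2 + 86 * x ^ 8 * y ^ 2 * i ^ 9 * w ^ 5 - 99 * x ^ 8 * y ^ 2 * i ^ 9 * w ^ 3 - 57 * x ^ 8 * y ^ 2 * i ^ 9 * w + 126 * x ^ 8 * y * i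 ^ 9 * w ^ 4 - 216 * x ^ 8 * y * i ^ 9 * w ^ 2 - 9 * x ^ 8 * y * i ^ 9 + 126 * x ^ 8 * i ^ 9 * w ^ 3 - 216 * x ^ 8 * i ^ 9 * w - 3 * x ^ 7 * y ^ 11 * i ^ 9 * w ^ 8 - 3 * x ^ 7 * y ^ 10 * i ^ 9 * w ^ 7 - 85 * x ^ 7 * y ^ 9 * i ^ 9 * w ^ 8 - 3 * x ^ 7 * y ^ 9 * i ^ 9 * w ^ 6 - 85 * x ^ 7 * y ^ 8 * i ^ 9 * w ^ 7 - 3 * x ^ 7 * y ^ 8 * i ^ 9 * w ^ 5 - 156 * x ^ 7 * y ^ 7 * i ^ 9 * w ^ 8 - 85 * x ^ 7 * y ^ 7 * i ^ 9 * w ^ 6 - 3 * x ^ 7 * y ^ 7 * i ^ 9 * w ^ 4 - 156 * x ^ 7 * y ^ 6 * i ^ 9 * w ^ 7 - 85 * x ^ 7 * y ^ 6 * i ^ 9 * w ^ 5 - 3 * x ^ 7 * y ^ 6 * i ^ 9 * w ^ 3 + 96 * x ^ 7 * y ^ 5 * i ^ 9 * w ^ 8 - 159 * x ^ 7 * y ^ 5 * i ^ 9 * w ^ 6 - 112 * x ^ 7 * y ^ 5 * i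 ^ 9 * w ^ 4 - 3 * x ^ 7 * y ^ 5 * i ^ 9 * w ^ 2 + 96 * x ^ 7 * y ^ 4 * i ^ 9 * w ^ 7 - 159 * x ^ 7 * y ^ 4 * i ^ 9 * w ^ 5 - 112 * x ^ 7 * y ^ 4 * i ^ 9 * w ^ 3 - 3 * x ^ 7 * y ^ 4 * i ^ 9 * w + 96 * x ^ 7 * y ^ 3 * i ^ 9 * w ^ 6 - 159 * x ^ 7 * y ^ 3 * i ^ 9 * w ^ 4 - 112 * x ^ 7 * y ^ 3 * i ^ 9 * w ^ 2 - 3 * x ^ 7 * y ^ 3 * i ^ 9 + 96 * x ^ 7 * y ^ 2 * i ^ 9 * w ^ 5 - 159 * x ^ 7 * y ^ 2 * i ^ 9 * w ^ 3 - 136 * x ^ 7 * y ^ 2 * i ^ 9 * w + 126 * x ^ 7 * y * i ^ 9 * w ^ 4 - 294 * x ^ 7 * y * i ^ 9 * w ^ 2 - 36 * x ^ 7 * y * i ^ 9 + 126 * x ^ 7 * i ^ 9 * w ^ 3 - 294 * x ^ 7 * i ^ 9 * w - 58 * x ^ 6 * y ^ 11 * i ^ 9 * w ^ 8 - 58 * x ^ 6 * y ^ 10 * i ^ 9 * w ^ 7 -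 144 * x ^ 6 * y ^ 9 * i ^ 9 * w ^ 8 - 58 * x ^ 6 * y ^ 9 * i ^ 9 * w ^ 6 - 144 * x ^ 6 * y ^ 8 * i ^ 9 * w ^ 7 - 58 * x ^ 6 * y ^ 8 * i ^ 9 * w ^ 5 - 177 * x ^ 6 * y ^ 7 * i ^ 9 * w ^ 8 - 144 * x ^ 6 * y ^ 7 * i ^ 9 * w ^ 6 - 58 * x ^ 6 * y ^ 7 * i ^ 9 * w ^ 4 - 177 * x ^ 6 * y ^ 6 * i ^ 9 * w ^ 7 - 138 * x ^ 6 * y ^ 6 * i ^ 9 * w ^ 5 - 58 * x ^ 6 * y ^ 6 * i ^ 9 * w ^ 3 + 72 * x ^ 6 * y ^ 5 * i ^ 9 * w ^ 8 - 177 * x ^ 6 * y ^ 5 * i ^ 9 * w ^ 6 - 120 * x ^ 6 * y ^ 5 * i ^ 9 * w ^ 4 - 31 * x ^ 6 * y ^ 5 * i ^ 9 * w ^ 2 + 72 * x ^ 6 * y ^ 4 * i ^ 9 * w ^ 7 - 177 * x ^ 6 * y ^ 4 * i ^ 9 * w ^ 5 - 120 * x ^ 6 * y ^ 4 * i ^ 9 * w ^ 3 - 31 * x ^ 6 * y ^ 4 * i ^ 9 * w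 + 72 * x ^ 6 * y ^ 3 * i ^ 9 * w ^ 6 - 177 * x ^ 6 * y ^ 3 * i ^ 9 * w ^ 4 - 120 * x ^ 6 * y ^ 3 * i ^ 9 * w ^ 2 - 31 * x ^ 6 * y ^ 3 * i ^ 9 + 72 * x ^ 6 * y ^ 2 * i ^ 9 * w ^ 5 - 177 * x ^ 6 * y ^ 2 * i ^ 9 * w ^ 3 - 180 * x ^ 6 * y ^ 2 * i ^ 9 * w + 84 * x ^ 6 * y * i ^ 9 * w ^ 4 - 252 * x ^ 6 * y * i ^ 9 * w ^ 2 - 84 * x ^ 6 * y * i ^ 9 + 84 * x ^ 6 * i ^ 9 * w ^ 3 - 252 * x ^ 6 * i ^ 9 * w - 18 * x ^ 5 * y ^ 11 * i ^ 9 * w ^ 8 - 18 * x ^ 5 * y ^ 10 * i ^ 9 * w ^ 7 - 73 * x ^ 5 * y ^ 9 * i ^ 9 * w ^ 8 - 18 * x ^ 5 * y ^ 9 * i ^ 9 * w ^ 6 - 73 * x ^ 5 * y ^ 8 * i ^ 9 * w ^ 7 - 18 * x ^ 5 * y ^ 8 * i ^ 9 * w ^ 5 - 117 * x ^ 5 * y ^ 7 * i ^ 9 * w ^ 8 - 73 * x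 ^ 5 * y ^ 7 * i ^ 9 * w ^ 6 - 18 * x ^ 5 * y ^ 7 * i ^ 9 * w ^ 4 - 117 * x ^ 5 * y ^ 6 * i ^ 9 * w ^ 7 - 73 * x ^ 5 * y ^ 6 * i ^ 9 * w ^ 5 - 54 * x ^ 5 * y ^ 6 * i ^ 9 * w ^ 3 + 34 * x ^ 5 * y ^ 5 * i ^ 9 * w ^ 8 - 117 * x ^ 5 * y ^ 5 * i ^ 9 * w ^ 6 - 76 * x ^ 5 * y ^ 5 * i ^ 9 * w ^ 4 - 81 * x ^ 5 * y ^ 5 * i ^ 9 * w ^ 2 + 34 * x ^ 5 * y ^ 4 * i ^ 9 * w ^ 7 - 117 * x ^ 5 * y ^ 4 * i ^ 9 * w ^ 5 - 76 * x ^ 5 * y ^ 4 * i ^ 9 * w ^ 3 - 81 * x ^ 5 * y ^ 4 * i ^ 9 * w + 34 * x ^ 5 * y ^ 3 * i ^ 9 * w ^ 6 - 117 * x ^ 5 * y ^ 3 * i ^ 9 * w ^ 4 - 76 * x ^ 5 * y ^ 3 * i ^ 9 * w ^ 2 - 81 * x ^ 5 * y ^ 3 * i ^ 9 + 34 * x ^ 5 * y ^ 2 * i ^ 9 * w ^ 5 - 117 * x ^ 5 * y ^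 2 * i ^ 9 * w ^ 3 - 156 * x ^ 5 * y ^ 2 * i ^ 9 * w + 36 * x ^ 5 * y * i ^ 9 * w ^ 4 - 126 * x ^ 5 * y * i ^ 9 * w ^ 2 - 126 * x ^ 5 * y * i ^ 9 + 36 * x ^ 5 * i ^ 9 * w ^ 3 - 126 * x ^ 5 * i ^ 9 * w - 54 * x ^ 4 * y ^ 13 * i ^ 9 * w ^ 8 - 54 * x ^ 4 * y ^ 12 * i ^ 9 * w ^ 7 - 117 * x ^ 4 * y ^ 11 * i ^ 9 * w ^ 8 - 54 * x ^ 4 * y ^ 11 * i ^ 9 * w ^ 6 - 117 * x ^ 4 * y ^ 10 * i ^ 9 * w ^ 7 - 54 * x ^ 4 * y ^ 10 * i ^ 9 * w ^ 5 - 50 * x ^ 4 * y ^ 9 * i ^ 9 * w ^ 8 - 117 * x ^ 4 * y ^ 9 * i ^ 9 * w ^ 6 - 54 * x ^ 4 * y ^ 9 * i ^ 9 * w ^ 4 - 50 * x ^ 4 * y ^ 8 * i ^ 9 * w ^ 7 - 117 * x ^ 4 * y ^ 8 * i ^ 9 * w ^ 5 - 54 * x ^ 4 * y ^ 8 * i ^ 9 * w ^ 3 - 33 * x ^ 4 *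 y ^ 7 * i ^ 9 * w ^ 8 - 50 * x ^ 4 * y ^ 7 * i ^ 9 * w ^ 6 - 117 * x ^ 4 * y ^ 7 * i ^ 9 * w ^ 4 - 54 * x ^ 4 * y ^ 7 * i ^ 9 * w ^ 2 - 33 * x ^ 4 * y ^ 6 * i ^ 9 * w ^ 7 - 50 * x ^ 4 * y ^ 6 * i ^ 9 * w ^ 5 - 105 * x ^ 4 * y ^ 6 * i ^ 9 * w ^ 3 + 9 * x ^ 4 * y ^ 5 * i ^ 9 * w ^ 8 - 33 * x ^ 4 * y ^ 5 * i ^ 9 * w ^ 6 - 50 * x ^ 4 * y ^ 5 * i ^ 9 * w ^ 4 - 96 * x ^ 4 * y ^ 5 * i ^ 9 * w ^ 2 + 9 * x ^ 4 * y ^ 4 * i ^ 9 * w ^ 7 - 33 * x ^ 4 * y ^ 4 * i ^ 9 * w ^ 5 - 50 * x ^ 4 * y ^ 4 * i ^ 9 * w ^ 3 - 96 * x ^ 4 * y ^ 4 * i ^ 9 * w + 9 * x ^ 4 * y ^ 3 * i ^ 9 * w ^ 6 - 33 * x ^ 4 * y ^ 3 * i ^ 9 * w ^ 4 - 50 * x ^ 4 * y ^ 3 * i ^ 9 * w ^ 2 - 96 * x ^ 4 * y ^ 3 *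 i ^ 9 + 9 * x ^ 4 * y ^ 2 * i ^ 9 * w ^ 5 - 33 * x ^ 4 * y ^ 2 * i ^ 9 * w ^ 3 - 110 * x ^ 4 * y ^ 2 * i ^ 9 * w + 9 * x ^ 4 * y * i ^ 9 * w ^ 4 - 24 * x ^ 4 * y * i ^ 9 * w ^ 2 - 126 * x ^ 4 * y * i ^ 9 + 9 * x ^ 4 * i ^ 9 * w ^ 3 - 24 * x ^ 4 * i ^ 9 * w + 48 * x ^ 3 * y ^ 13 * i ^ 9 * w ^ 8 + 48 * x ^ 3 * y ^ 12 * i ^ 9 * w ^ 7 - 51 * x ^ 3 * y ^ 11 * i ^ 9 * w ^ 8 + 48 * x ^ 3 * y ^ 11 * i ^ 9 * w ^ 6 - 51 * x ^ 3 * y ^ 10 * i ^ 9 * w ^ 7 + 48 * x ^ 3 * y ^ 10 * i ^ 9 * w ^ 5 - 48 * x ^ 3 * y ^ 9 * i ^ 9 * w ^ 8 - 51 * x ^ 3 * y ^ 9 * i ^ 9 * w ^ 6 + 48 * x ^ 3 * y ^ 9 * i ^ 9 * w ^ 4 - 48 * x ^ 3 * y ^ 8 * i ^ 9 * w ^ 7 - 51 * x ^ 3 * y ^ 8 * i ^ 9 * w ^ 5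 + 48 * x ^ 3 * y ^ 8 * i ^ 9 * w ^ 3 + 6 * x ^ 3 * y ^ 7 * i ^ 9 * w ^ 8 - 48 * x ^ 3 * y ^ 7 * i ^ 9 * w ^ 6 - 51 * x ^ 3 * y ^ 7 * i ^ 9 * w ^ 4 + 36 * x ^ 3 * y ^ 7 * i ^ 9 * w ^ 2 + 6 * x ^ 3 * y ^ 6 * i ^ 9 * w ^ 7 - 48 * x ^ 3 * y ^ 6 * i ^ 9 * w ^ 5 - 51 * x ^ 3 * y ^ 6 * i ^ 9 * w ^ 3 + x ^ 3 * y ^ 5 * i ^ 9 * w ^ 8 + 6 * x ^ 3 * y ^ 5 * i ^ 9 * w ^ 6 - 48 * x ^ 3 * y ^ 5 * i ^ 9 * w ^ 4 - 52 * x ^ 3 * y ^ 5 * i ^ 9 * w ^ 2 + x ^ 3 * y ^ 4 * i ^ 9 * w ^ 7 + 6 * x ^ 3 * y ^ 4 * i ^ 9 * w ^ 5 - 48 * x ^ 3 * y ^ 4 * i ^ 9 * w ^ 3 - 52 * x ^ 3 * y ^ 4 * i ^ 9 * w + x ^ 3 * y ^ 3 * i ^ 9 * w ^ 6 + 6 * x ^ 3 * y ^ 3 * i ^ 9 * w ^ 4 - 48 * x ^ 3 * y ^ 3 * i ^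 9 * w ^ 2 - 52 * x ^ 3 * y ^ 3 * i ^ 9 + x ^ 3 * y ^ 2 * i ^ 9 * w ^ 5 + 6 * x ^ 3 * y ^ 2 * i ^ 9 * w ^ 3 - 72 * x ^ 3 * y ^ 2 * i ^ 9 * w + x ^ 3 * y * i ^ 9 * w ^ 4 + 9 * x ^ 3 * y * i ^ 9 * w ^ 2 - 84 * x ^ 3 * y * i ^ 9 + x ^ 3 * i ^ 9 * w ^ 3 + 9 * x ^ 3 * i ^ 9 * w - 36 * x ^ 2 * y ^ 15 * i ^ 9 * w ^ 8 - 36 * x ^ 2 * y ^ 14 * i ^ 9 * w ^ 7 - 6 * x ^ 2 * y ^ 13 * i ^ 9 * w ^ 8 - 36 * x ^ 2 * y ^ 13 * i ^ 9 * w ^ 6 - 6 * x ^ 2 * y ^ 12 * i ^ 9 * w ^ 7 - 36 * x ^ 2 * y ^ 12 * i ^ 9 * w ^ 5 - 3 * x ^ 2 * y ^ 11 * i ^ 9 * w ^ 8 - 6 * x ^ 2 * y ^ 11 * i ^ 9 * w ^ 6 - 36 * x ^ 2 * y ^ 11 * i ^ 9 * w ^ 4 - 3 * x ^ 2 * y ^ 10 * i ^ 9 * w ^ 7 - 6 * x ^ 2 * y ^ 10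 * i ^ 9 * w ^ 5 - 36 * x ^ 2 * y ^ 10 * i ^ 9 * w ^ 3 - 32 * x ^ 2 * y ^ 9 * i ^ 9 * w ^ 8 - 3 * x ^ 2 * y ^ 9 * i ^ 9 * w ^ 6 - 6 * x ^ 2 * y ^ 9 * i ^ 9 * w ^ 4 - 36 * x ^ 2 * y ^ 9 * i ^ 9 * w ^ 2 - 32 * x ^ 2 * y ^ 8 * i ^ 9 * w ^ 7 - 3 * x ^ 2 * y ^ 8 * i ^ 9 * w ^ 5 - 6 * x ^ 2 * y ^ 8 * i ^ 9 * w ^ 3 - 36 * x ^ 2 * y ^ 8 * i ^ 9 * w + 6 * x ^ 2 * y ^ 7 * i ^ 9 * w ^ 8 - 32 * x ^ 2 * y ^ 7 * i ^ 9 * w ^ 6 - 3 * x ^ 2 * y ^ 7 * i ^ 9 * w ^ 4 - 6 * x ^ 2 * y ^ 7 * i ^ 9 * w ^ 2 + 6 * x ^ 2 * y ^ 6 * i ^ 9 * w ^ 7 - 32 * x ^ 2 * y ^ 6 * i ^ 9 * w ^ 5 - 3 * x ^ 2 * y ^ 6 * i ^ 9 * w ^ 3 + 6 * x ^ 2 * y ^ 5 * i ^ 9 * w ^ 6 - 32 * x ^ 2 * y ^ 5 * i ^ 9 * w ^ 4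 - 3 * x ^ 2 * y ^ 5 * i ^ 9 * w ^ 2 + 6 * x ^ 2 * y ^ 4 * i ^ 9 * w ^ 5 - 32 * x ^ 2 * y ^ 4 * i ^ 9 * w ^ 3 - 3 * x ^ 2 * y ^ 4 * i ^ 9 * w + 6 * x ^ 2 * y ^ 3 * i ^ 9 * w ^ 4 - 32 * x ^ 2 * y ^ 3 * i ^ 9 * w ^ 2 - 3 * x ^ 2 * y ^ 3 * i ^ 9 + 6 * x ^ 2 * y ^ 2 * i ^ 9 * w ^ 3 - 36 * x ^ 2 * y ^ 2 * i ^ 9 * w + 6 * x ^ 2 * y * i ^ 9 * w ^ 2 - 36 * x ^ 2 * y * i ^ 9 + 6 * x ^ 2 * i ^ 9 * w + 12 * x * y ^ 15 * i ^ 9 * w ^ 8 + 12 * x * y ^ 14 * i ^ 9 * w ^ 7 + 12 * x * y ^ 13 * i ^ 9 * w ^ 6 + 12 * x * y ^ 12 * i ^ 9 * w ^ 5 + 9 * x * y ^ 11 * i ^ 9 * w ^ 8 + 12 * x * y ^ 11 * i ^ 9 * w ^ 4 + 9 * x * y ^ 10 * i ^ 9 * w ^ 7 + 12 * x * y ^ 10 * i ^ 9 * w ^ 3 - 10 *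 x * y ^ 9 * i ^ 9 * w ^ 8 + 9 * x * y ^ 9 * i ^ 9 * w ^ 6 + 12 * x * y ^ 9 * i ^ 9 * w ^ 2 - 10 * x * y ^ 8 * i ^ 9 * w ^ 7 + 9 * x * y ^ 8 * i ^ 9 * w ^ 5 + 12 * x * y ^ 8 * i ^ 9 * w + x * y ^ 7 * i ^ 9 * w ^ 8 - 10 * x * y ^ 7 * i ^ 9 * w ^ 6 + 9 * x * y ^ 7 * i ^ 9 * w ^ 4 + x * y ^ 6 * i ^ 9 * w ^ 7 - 10 * x * y ^ 6 * i ^ 9 * w ^ 5 + 9 * x * y ^ 6 * i ^ 9 * w ^ 3 + x * y ^ 5 * i ^ 9 * w ^ 6 - 10 * x * y ^ 5 * i ^ 9 * w ^ 4 + 9 * x * y ^ 5 * i ^ 9 * w ^ 2 + x * y ^ 4 * i ^ 9 * w ^ 5 - 10 * x * y ^ 4 * i ^ 9 * w ^ 3 + 9 * x * y ^ 4 * i ^ 9 * w + x * y ^ 3 * i ^ 9 * w ^ 4 - 10 * x * y ^ 3 * i ^ 9 * w ^ 2 + 9 * x * y ^ 3 * i ^ 9 + x * y ^ 2 * i ^ 9 * w ^ 3 - 10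 * x * y ^ 2 * i ^ 9 * w + x * y * i ^ 9 * w ^ 2 - 9 * x * y * i ^ 9 + x * i ^ 9 * w - 8 * y ^ 17 * i ^ 9 * w ^ 8 - 8 * y ^ 16 * i ^ 9 * w ^ 7 - 8 * y ^ 15 * i ^ 9 * w ^ 6 - 8 * y ^ 14 * i ^ 9 * w ^ 5 - 8 * y ^ 13 * i ^ 9 * w ^ 4 - 8 * y ^ 12 * i ^ 9 * w ^ 3 + 3 * y ^ 11 * i ^ 9 * w ^ 8 - 8 * y ^ 11 * i ^ 9 * w ^ 2 + 3 * y ^ 10 * i ^ 9 * w ^ 7 - 8 * y ^ 10 * i ^ 9 * w - y ^ 9 * i ^ 9 * w ^ 8 + 3 * y ^ 9 * i ^ 9 * w ^ 6 - 8 * y ^ 9 * i ^ 9 - y ^ 8 * i ^ 9 * w ^ 7 + 3 * y ^ 8 * i ^ 9 * w ^ 5 - y ^ 7 * i ^ 9 * w ^ 6 + 3 * y ^ 7 * i ^ 9 * w ^ 4 - y ^ 6 * i ^ 9 * w ^ 5 + 3 * y ^ 6 * i ^ 9 * w ^ 3 - y ^ 5 * i ^ 9 * w ^ 4 + 3 * y ^ 5 * i ^ 9 * w ^ 2 - y ^ 4 * i ^ 9 * w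 ^ 3 + 3 * y ^ 4 * i ^ 9 * w - y ^ 3 * i ^ 9 * w ^ 2 + 3 * y ^ 3 * i ^ 9 - y ^ 2 * i ^ 9 * w - y * i ^ 9) * hw

end Fermat.Agent.S58.Frob23.Ord3Cert
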